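import Mathlib.NumberTheory.Padics.RingHoms
import Mathlib.LinearAlgebra.FreeModule.PID
import Mathlib.LinearAlgebra.Dimension.Free
import Mathlib.RingTheory.Localization.FractionRing
import Mathlib.RingTheory.Localization.Module
import Mathlib.LinearAlgebra.LinearIndependent.Lemmas

/-!
# Counting a lattice modulo `ℓ^r`
-/

set_option autoImplicit false

namespace Fermat.Agent.Mazur.Component

variable {ℓ : ℕ} [hℓ : Fact ℓ.Prime] {W : Type*} [AddCommGroup W] [Module ℚ_[ℓ] W]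
  [Module ℤ_[ℓ] W] [IsScalarTower ℤ_[ℓ] ℚ_[ℓ] W]

theorem padic_smul_eq (a : ℤ_[ℓ]) (w : W) : a • w = (a : ℚ_[ℓ]) • w := by
  rw [← IsScalarTower.algebraMap_smul ℚ_[ℓ] a w]
  rfl

theorem natCast_padic_smul (n : ℕ) (w : W) : ((n : ℚ_[ℓ])) • w = n • w := Nat.cast_smul_eq_nsmul _ n w

/-- Modulo `ℓ^r` a lattice has as many elements as `(ℤ/ℓ^r)^d`, `d` the dimension of its span. -/
theorem natCard_range_eq_pow (L : Submodule ℚ_[ℓ] W) (Λ : Submodule ℤ_[ℓ] W)
    [Module.Finite ℤ_[ℓ] Λ] (hle : ∀ x ∈ Λ, x ∈ L) (hspan : ∀ v ∈ L, ∃ k : ℕ, ℓ ^ k • v ∈ Λ)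
    {M : Type*} [AddCommGroup M] (r : ℕ) (π : Λ →+ M)
    (hker : ∀ x, π x = 0 ↔ ∃ y, x = ℓ ^ r • y) :
    Nat.card π.range = ℓ ^ (r * Module.finrank ℚ_[ℓ] L) := by
  classical
  haveI : Module.IsTorsionFree ℤ_[ℓ] W := Module.IsTorsionFree.of_smul_eq_zero fun a w h => by
    rw [padic_smul_eq, smul_eq_zero] at h
    exact h.imp_left fun h0 => PadicInt.ext (h0.trans PadicInt.coe_zero.symm)
  haveI : Module.Free ℤ_[ℓ] Λ := Module.free_of_finite_type_torsion_free'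
  let ι := Module.Free.ChooseBasisIndex ℤ_[ℓ] Λ
  let b := Module.Free.chooseBasis ℤ_[ℓ] Λ
  let e : ι → L := fun i => ⟨(b i : W), hle _ (b i).2⟩
  have hli : LinearIndependent ℚ_[ℓ] e := by
    refine LinearIndependent.of_comp L.subtype ?_
    rw [← LinearIndependent.iff_fractionRing ℤ_[ℓ] ℚ_[ℓ]]
    exact b.linearIndependent.map' Λ.subtype (LinearMap.ker_eq_bot.mpr Subtype.val_injective)
  have hsp : ⊤ ≤ Submodule.span ℚ_[ℓ] (Set.range e) := by
    rintro ⟨v, hv⟩ -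
    obtain ⟨k, hk⟩ := hspan v hv
    have hℓk : ((ℓ ^ k : ℕ) : ℚ_[ℓ]) ≠ 0 :=
      Nat.cast_ne_zero.mpr (pow_ne_zero k hℓ.out.ne_zero)
    have h1 : (ℓ ^ k • v) = ∑ i, ((b.repr ⟨_, hk⟩ i : ℤ_[ℓ]) : ℚ_[ℓ]) • (b i : W) := by
      have := congrArg Λ.subtype (b.sum_repr ⟨_, hk⟩).symm
      rw [map_sum] at this
      refine this.trans (Finset.sum_congr rfl fun i _ => ?_)
      rw [map_smul, padic_smul_eq]
      rfl
    have hmem : (⟨v, hv⟩ : L) = ((ℓ ^ k : ℕ) : ℚ_[ℓ])⁻¹ •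
        ∑ i, ((b.repr ⟨_, hk⟩ i : ℤ_[ℓ]) : ℚ_[ℓ]) • e i := by
      refine Subtype.ext ?_
      simp only [Submodule.coe_smul, Submodule.coe_sum, e]
      rw [← h1, ← natCast_padic_smul (ℓ := ℓ), inv_smul_smul₀ hℓk]
    rw [hmem]
    exact Submodule.smul_mem _ _ (Submodule.sum_mem _ fun i _ =>
      Submodule.smul_mem _ _ (Submodule.subset_span ⟨i, rfl⟩))
  have hd : Fintype.card ι = Module.finrank ℚ_[ℓ] L :=
    (Module.finrank_eq_card_basis (Module.Basis.mk hli hsp)).symm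
  -- coordinates modulo ℓ^r
  let red : Λ →+ (ι → ZMod (ℓ ^ r)) :=
    AddMonoidHom.mk' (fun x i => PadicInt.toZModPow r (b.repr x i)) fun x y => funext fun i => by
      simp
  have hsurj : Function.Surjective red := fun z => by
    refine ⟨b.equivFun.symm fun i => ((z i).val : ℤ_[ℓ]), funext fun i => ?_⟩
    haveI : NeZero (ℓ ^ r) := ⟨pow_ne_zero r hℓ.out.ne_zero⟩
    show PadicInt.toZModPow r (b.repr (b.equivFun.symm _) i) = z i
    rw [← Module.Basis.equivFun_apply, LinearEquiv.apply_symm_apply, map_natCast,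
      ZMod.natCast_zmod_val]
  have hkereq : π.ker = red.ker := by
    ext x
    rw [AddMonoidHom.mem_ker, AddMonoidHom.mem_ker, hker, funext_iff]
    constructor
    · rintro ⟨y, rfl⟩ i
      haveI : NeZero (ℓ ^ r) := ⟨pow_ne_zero r hℓ.out.ne_zero⟩
      show PadicInt.toZModPow r (b.repr (ℓ ^ r • y) i) = 0
      rw [map_nsmul, Finsupp.smul_apply, map_nsmul, nsmul_eq_mul, ZMod.natCast_self, zero_mul]
    · intro h
      have h' : ∀ i, ∃ c : ℤ_[ℓ], b.repr x i = (ℓ : ℤ_[ℓ]) ^ r * c := fun i => by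
        have h0 : b.repr x i ∈ RingHom.ker (PadicInt.toZModPow r : ℤ_[ℓ] →+* ZMod (ℓ ^ r)) := h i
        rw [PadicInt.ker_toZModPow, Ideal.mem_span_singleton] at h0
        exact h0
      choose c hc using h'
      refine ⟨b.equivFun.symm c, b.repr.injective (Finsupp.ext fun i => ?_)⟩
      rw [hc, map_nsmul, Finsupp.smul_apply, ← Module.Basis.equivFun_apply,
        LinearEquiv.apply_symm_apply, nsmul_eq_mul, Nat.cast_pow]
  rw [← Nat.card_congr (QuotientAddGroup.quotientKerEquivRange π).toEquiv,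
    Nat.card_congr (QuotientAddGroup.quotientAddEquivOfEq hkereq).toEquiv,
    Nat.card_congr (QuotientAddGroup.quotientKerEquivOfSurjective red hsurj).toEquiv, Nat.card_fun,
    Nat.card_zmod, Nat.card_eq_fintype_card, hd, ← pow_mul]

end Fermat.Agent.Mazur.Component
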