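import Fermat.Agent.Mazur.Component.Tame
import Fermat.Agent.Mazur.Component.LatticeCard
import Mathlib.LinearAlgebra.Determinant
import Mathlib.LinearAlgebra.Matrix.ToLin
import Mathlib.LinearAlgebra.FiniteDimensional.Basic
import Mathlib.RingTheory.Filtration

/-!
# A prime of multiplicative reduction in a two-dimensional `ℓ`-adic representation

`ρ` has values in the automorphisms of a plane over a field `K` finite over `ℚ_ℓ`, preserves a
lattice, inertia at `q ≠ ℓ` acts by a non-trivial group with `(σ - 1)² = 0` and a Frobenius element has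
determinant `q`. Then inertia fixes a line, modulo `ℓ^r` it fixes at least `ℓ^{rd}` elements, and
the classes at `q` of all cocycles are killed by a constant.
-/

set_option autoImplicit false

noncomputable section

namespace Fermat.Agent.Mazur.Component

open Fermat.Agent.FlatTangent

variable (q : ℕ) [hq : Fact q.Prime] {ℓ : ℕ} [hℓ : Fact ℓ.Prime]
  {K : Type} [Field K] [Algebra ℚ_[ℓ] K]
  {W : Type} [AddCommGroup W] [Module K W] [Module ℚ_[ℓ] W] [IsScalarTower ℚ_[ℓ] K W]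
  [Module ℤ_[ℓ] W] [IsScalarTower ℤ_[ℓ] ℚ_[ℓ] W]

/-- The hypotheses at `q`. -/
structure BadDatum (ρ : Gal →* Module.End K W) (Λ : Submodule ℤ_[ℓ] W) (F : Gal) : Prop where
  ne : q ≠ ℓ
  rank : Module.finrank K W = 2
  fin : Module.Finite ℤ_[ℓ] Λ
  stable : ∀ g, ∀ x ∈ Λ, ρ g x ∈ Λ
  span : ∀ w : W, ∃ k : ℕ, ℓ ^ k • w ∈ Λ
  level : ∀ r : ℕ, ∃ E : IntermediateField ℚ Qb, FiniteDimensional ℚ E ∧
    ∀ σ ∈ E.fixingSubgroup, ∀ x ∈ Λ, ∃ y ∈ Λ, ρ σ x - x = ℓ ^ r • y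
  unip : ∀ σ ∈ inert q, ∀ w, ρ σ (ρ σ w - w) = ρ σ w - w
  frob : (plc q).IsFrobeniusAt F q
  det : LinearMap.det (ρ F) = (q : K)
  ram : ∃ σ ∈ inert q, ρ σ ≠ 1

omit hℓ in
theorem nsmul_pow_injective [CharZero K] (k : ℕ) (hℓ0 : ℓ ≠ 0) {x y : W}
    (h : ℓ ^ k • x = ℓ ^ k • y) : x = y := by
  rw [← Nat.cast_smul_eq_nsmul K, ← Nat.cast_smul_eq_nsmul K] at h
  exact smul_right_injective W (Nat.cast_ne_zero.mpr (pow_ne_zero k hℓ0) : ((ℓ ^ k : ℕ) : K) ≠ 0) h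

theorem padic_smul_comm (f : W →ₗ[K] W) (a : ℤ_[ℓ]) (w : W) : f (a • w) = a • f w := by
  rw [padic_smul_eq, padic_smul_eq, LinearMap.map_smul_of_tower]

theorem padic_smul_smul (a : ℤ_[ℓ]) (c : K) (w : W) :
    a • c • w = (algebraMap ℚ_[ℓ] K (a : ℚ_[ℓ]) * c) • w := by
  rw [padic_smul_eq, ← IsScalarTower.algebraMap_smul K (a : ℚ_[ℓ]), smul_smul]

/-- The adapted basis of a plane. -/
structure Line (ρ : Gal →* Module.End K W) where
  σ₀ : Gal
  mem : σ₀ ∈ inert q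
  u : W
  v : W
  eq : v = ρ σ₀ u - u
  ne_zero : v ≠ 0
  fixed : ∀ τ ∈ inert q, ρ τ v = v
  sub_mem : ∀ τ ∈ inert q, ∀ w, ∃ a : K, ρ τ w - w = a • v
  ker : ∀ w, ρ σ₀ w = w → ∃ a : K, w = a • v
  decomp : ∀ w, ∃ a b : K, w = a • v + b • u
  indep : ∀ a b : K, a • v + b • u = 0 → a = 0 ∧ b = 0

namespace BadDatum

variable {q} {ρ : Gal →* Module.End K W} {Λ : Submodule ℤ_[ℓ] W} {F : Gal}
  (D : BadDatum q ρ Λ F)

include D

theorem charZero : CharZero K :=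
  charZero_of_injective_algebraMap (algebraMap ℚ_[ℓ] K).injective

theorem exists_line : Nonempty (Line q ρ) := by
  obtain ⟨σ₀, hσ₀, hne⟩ := D.ram
  obtain ⟨u, hu⟩ : ∃ u, ρ σ₀ u ≠ u := by
    by_contra h
    push Not at h
    exact hne (LinearMap.ext h)
  set v := ρ σ₀ u - u with hv
  have hv0 : v ≠ 0 := sub_ne_zero.mpr hu
  have hσv : ρ σ₀ v = v := D.unip σ₀ hσ₀ u
  have hindep : ∀ a b : K, a • v + b • u = 0 → a = 0 ∧ b = 0 := by
    intro a b h
    have h1 : ρ σ₀ (a • v + b • u) - (a • v + b • u) = b • v := by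
      rw [map_add, map_smul, map_smul, hσv, hv, smul_sub b]
      abel
    rw [h, map_zero, sub_zero] at h1
    have hb : b = 0 := (smul_eq_zero.mp h1.symm).resolve_right hv0
    rw [hb, zero_smul, add_zero] at h
    exact ⟨(smul_eq_zero.mp h).resolve_right hv0, hb⟩
  haveI : FiniteDimensional K W := Module.finite_of_finrank_pos (by rw [D.rank]; norm_num)
  have hli : LinearIndependent K ![v, u] := LinearIndependent.pair_iff.mpr hindep
  have hspan : Submodule.span K {v, u} = ⊤ := by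
    have h1 := hli.span_eq_top_of_card_eq_finrank (by rw [Fintype.card_fin, D.rank])
    rwa [Matrix.range_cons, Matrix.range_cons, Matrix.range_empty, Set.union_empty,
      Set.singleton_union] at h1
  have hdec : ∀ w, ∃ a b : K, w = a • v + b • u := fun w => by
    have hw : w ∈ Submodule.span K {v, u} := hspan ▸ Submodule.mem_top
    obtain ⟨a, b, hab⟩ := Submodule.mem_span_pair.mp hw
    exact ⟨a, b, hab.symm⟩
  have hker : ∀ w, ρ σ₀ w = w → ∃ a : K, w = a • v := by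
    intro w hw
    obtain ⟨a, b, rfl⟩ := hdec w
    refine ⟨a, ?_⟩
    have h2 : ρ σ₀ (a • v + b • u) - (a • v + b • u) = b • v := by
      rw [map_add, map_smul, map_smul, hσv, hv, smul_sub b]
      abel
    rw [hw, sub_self] at h2
    rw [(smul_eq_zero.mp h2.symm).resolve_right hv0, zero_smul, add_zero]
  -- Kolchin
  have hkol : ∀ τ ∈ inert q, ρ τ v = v ∧ ∃ b : K, ρ τ u - u = b • v := by
    intro τ hτ
    obtain ⟨a, c, hac⟩ := hdec (ρ τ v - v)
    obtain ⟨b, d, hbd⟩ := hdec (ρ τ u - u)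
    have hτv : ρ τ v = (1 + a) • v + c • u := by
      rw [add_smul, one_smul, add_assoc, ← hac, add_sub_cancel]
    have hτu : ρ τ u = b • v + (1 + d) • u := by
      rw [add_smul, one_smul, add_left_comm, ← hbd, add_sub_cancel]
    have hσu : ρ σ₀ u = v + u := by rw [hv, sub_add_cancel]
    have e1 := D.unip τ hτ v
    have e2 := D.unip τ hτ u
    have e3 := D.unip (σ₀ * τ) (mul_mem hσ₀ hτ) v
    simp only [map_mul, Module.End.mul_apply, map_sub, map_add, map_smul, hτv, hτu, hσu, hσv]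
      at e1 e2 e3
    have f1 := hindep (a * a + c * b) (c * (a + d))
      (by linear_combination (norm := module) e1)
    have f2 := hindep (b * (a + d)) (c * b + d * d)
      (by linear_combination (norm := module) e2)
    have f3 := hindep ((a + c) * (a + c) + c * (1 + b + d)) (c * (a + c + d))
      (by linear_combination (norm := module) e3)
    have hc : c = 0 := by
      have h1 := f1.2
      have h3 := f3.2
      have hcc : c * c = 0 := by linear_combination h3 - h1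
      exact mul_self_eq_zero.mp hcc
    have ha : a = 0 := mul_self_eq_zero.mp (by linear_combination f1.1 - b * hc)
    have hd : d = 0 := mul_self_eq_zero.mp (by linear_combination f2.2 - b * hc)
    refine ⟨by rw [hτv, ha, hc, add_zero, one_smul, zero_smul, add_zero], b, ?_⟩
    rw [hbd, hd, zero_smul, add_zero]
  refine ⟨⟨σ₀, hσ₀, u, v, hv, hv0, fun τ hτ => (hkol τ hτ).1, fun τ hτ w => ?_, hker, hdec, hindep⟩⟩
  obtain ⟨a, b, rfl⟩ := hdec w
  obtain ⟨hτv, b', hb'⟩ := hkol τ hτ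
  refine ⟨b * b', ?_⟩
  rw [map_add, map_smul, map_smul, hτv, mul_smul, ← hb']
  module

theorem sub_add {L : Line q ρ} {σ τ : Gal} (hσ : σ ∈ inert q) (hτ : τ ∈ inert q) (w : W) :
    ρ (σ * τ) w - w = (ρ σ w - w) + (ρ τ w - w) := by
  obtain ⟨a, ha⟩ := L.sub_mem τ hτ w
  have h1 : ρ σ (ρ τ w - w) = ρ τ w - w := by rw [ha, map_smul, L.fixed σ hσ]
  rw [map_sub] at h1
  rw [map_mul, Module.End.mul_apply]
  calc ρ σ (ρ τ w) - w = (ρ σ (ρ τ w) - ρ σ w) + ρ σ w - w := by abel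
    _ = _ := by rw [h1]; abel

theorem eq_zero_of_dvd {x : W} (hx : x ∈ Λ) (h : ∀ r : ℕ, ∃ y ∈ Λ, x = ℓ ^ r • y) : x = 0 := by
  haveI := D.fin
  have hne : Ideal.span {(ℓ : ℤ_[ℓ])} ≠ ⊤ := by
    rw [Ne, Ideal.span_singleton_eq_top]
    exact (PadicInt.prime_p (p := ℓ)).not_unit
  have h0 : (⟨x, hx⟩ : Λ) ∈ (⊥ : Submodule ℤ_[ℓ] Λ) := by
    rw [← Ideal.iInf_pow_smul_eq_bot_of_isLocalRing (M := Λ) _ hne, Submodule.mem_iInf]
    intro r
    obtain ⟨y, hy, hxy⟩ := h r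
    have he : (⟨x, hx⟩ : Λ) = ((ℓ : ℤ_[ℓ]) ^ r) • (⟨y, hy⟩ : Λ) := by
      rw [← Nat.cast_pow, Nat.cast_smul_eq_nsmul]
      exact Subtype.ext hxy
    rw [he]
    exact Submodule.smul_mem_smul (Ideal.pow_mem_pow (Ideal.mem_span_singleton_self _) r) trivial
  exact congrArg Subtype.val ((Submodule.mem_bot _).mp h0)

/-- Frobenius conjugation multiplies the monodromy by `q`. -/
theorem frob_sub (L : Line q ρ) {σ : Gal} (hσ : σ ∈ inert q) (w : W) :
    ρ F (ρ σ w - w) = q • (ρ σ (ρ F w) - ρ F w) := by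
  haveI := D.charZero
  have hconj : F * σ * F⁻¹ ∈ inert q :=
    Galois.inertia_normal_in_decomposition hσ D.frob.mem_decompositionSubgroup
  have key : ∀ x ∈ Λ, ρ (F * σ * F⁻¹) x - x = q • (ρ σ x - x) := by
    intro x hx
    rw [← sub_eq_zero]
    refine D.eq_zero_of_dvd (Λ.sub_mem (Λ.sub_mem (D.stable _ x hx) hx)
      (nsmul_mem (Λ.sub_mem (D.stable _ x hx) hx) q)) fun r => ?_
    let R : AddSubgroup Λ := (nsmulAddMonoidHom (ℓ ^ r) : Λ →+ Λ).range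
    let π := QuotientAddGroup.mk' R
    obtain ⟨E, hE, hlev⟩ := D.level r
    have h := KummerDatum.apply_conj_eq (r := r) D.ne (M := Λ ⧸ R) (fun m => by
        obtain ⟨y, rfl⟩ := QuotientAddGroup.mk'_surjective R m
        rw [← map_nsmul]
        exact (QuotientAddGroup.eq_zero_iff _).mpr ⟨y, rfl⟩)
      (h := fun τ => π ⟨ρ τ x - x, Λ.sub_mem (D.stable _ x hx) hx⟩)
      (fun a ha b hb => by
        rw [← map_add]
        exact congrArg π (Subtype.ext (D.sub_add (L := L) ha hb x)))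
      E (fun τ _ hτ => by
        obtain ⟨y, hy, hxy⟩ := hlev τ hτ x hx
        exact (QuotientAddGroup.eq_zero_iff _).mpr ⟨⟨y, hy⟩, Subtype.ext hxy.symm⟩) D.frob hσ
    rw [← map_nsmul, ← sub_eq_zero, ← map_sub] at h
    obtain ⟨y, hy⟩ := (QuotientAddGroup.eq_zero_iff _).mp h
    exact ⟨y, y.2, (congrArg Subtype.val hy).symm⟩
  obtain ⟨k, hk⟩ := D.span (ρ F w)
  have h := key _ hk
  rw [map_nsmul, map_nsmul, ← nsmul_sub, ← nsmul_sub, smul_comm q] at h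
  have h' := nsmul_pow_injective (K := K) k hℓ.out.ne_zero h
  rw [← h', ← Module.End.mul_apply, ← map_mul, inv_mul_cancel_right, map_mul, Module.End.mul_apply,
    ← map_sub]

/-- Frobenius multiplies the fixed line by a scalar with square `q²`. -/
theorem exists_frob_line (L : Line q ρ) :
    ∃ α : K, ρ F L.v = α • L.v ∧ α * α = (q : K) ^ 2 := by
  obtain ⟨γ, β, hFu⟩ := L.decomp (ρ F L.u)
  have hNv : ρ L.σ₀ L.v = L.v := L.fixed _ L.mem
  have h1 : ρ F L.v = ((q : K) * β) • L.v := by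
    conv_lhs => rw [L.eq]
    rw [D.frob_sub L L.mem, hFu, map_add, map_smul, map_smul, hNv,
      show ρ L.σ₀ L.u = L.v + L.u by rw [L.eq, sub_add_cancel], ← Nat.cast_smul_eq_nsmul K,
      mul_smul]
    congr 1
    rw [smul_add]
    abel
  refine ⟨(q : K) * β, h1, ?_⟩
  haveI : FiniteDimensional K W := Module.finite_of_finrank_pos (by rw [D.rank]; norm_num)
  let bs : Module.Basis (Fin 2) K W := basisOfLinearIndependentOfCardEqFinrank
    (LinearIndependent.pair_iff.mpr L.indep) (by rw [D.rank, Fintype.card_fin])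
  have hb : (bs : Fin 2 → W) = ![L.v, L.u] := coe_basisOfLinearIndependentOfCardEqFinrank _ _
  have hb0 : bs 0 = L.v := by rw [hb]; rfl
  have hb1 : bs 1 = L.u := by rw [hb]; rfl
  have hdet : ((q : K) * β) * β = (q : K) := by
    conv_rhs => rw [← D.det]
    rw [← LinearMap.det_toMatrix bs, Matrix.det_fin_two]
    simp only [LinearMap.toMatrix_apply, hb0, hb1, h1, hFu]
    rw [← hb0, ← hb1]
    simp [Module.Basis.repr_self]
  calc (q : K) * β * ((q : K) * β) = (q : K) * ((q : K) * β * β) := by ring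
    _ = _ := by rw [hdet, sq]

omit D in
/-- The fixed line in the lattice. -/
def lineLattice (L : Line q ρ) (Λ : Submodule ℤ_[ℓ] W) : Submodule ℤ_[ℓ] W where
  carrier := {x | x ∈ Λ ∧ ∃ a : K, x = a • L.v}
  zero_mem' := ⟨Λ.zero_mem, 0, (zero_smul K _).symm⟩
  add_mem' := by
    rintro _ _ ⟨ha, a, rfl⟩ ⟨hb, b, rfl⟩
    exact ⟨Λ.add_mem ha hb, a + b, (add_smul _ _ _).symm⟩
  smul_mem' := by
    rintro z _ ⟨ha, a, rfl⟩
    exact ⟨Λ.smul_mem z ha, _, padic_smul_smul z a L.v⟩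

theorem lineLattice_finite (L : Line q ρ) : Module.Finite ℤ_[ℓ] (lineLattice L Λ) := by
  haveI := D.fin
  haveI : IsNoetherian ℤ_[ℓ] Λ := inferInstance
  exact Module.Finite.of_injective (Submodule.inclusion (show lineLattice L Λ ≤ Λ from fun x hx => hx.1))
    (Submodule.inclusion_injective _)

/-- The monodromy has bounded cokernel on the line. -/
theorem exists_bound (L : Line q ρ) : ∃ b : ℕ, ∀ x ∈ Λ, (∃ a : K, x = a • L.v) →
    ∃ y ∈ Λ, ℓ ^ b • x = ρ L.σ₀ y - y := by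
  haveI := D.fin
  have hfg : (lineLattice L Λ).FG := Module.Finite.iff_fg.mp (D.lineLattice_finite L)
  obtain ⟨s, hs⟩ := hfg
  have hgen : ∀ x ∈ s, ∃ k : ℕ, ∃ y ∈ Λ, ℓ ^ k • x = ρ L.σ₀ y - y := by
    intro x hx
    obtain ⟨-, a, rfl⟩ : x ∈ lineLattice L Λ := hs ▸ Submodule.subset_span hx
    obtain ⟨k, hk⟩ := D.span (a • L.u)
    exact ⟨k, _, hk, by rw [map_nsmul, map_smul, L.eq, smul_sub, nsmul_sub]⟩
  choose! k y hy hky using hgen
  refine ⟨s.sup k, fun x hx hline => ?_⟩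
  have hxs : x ∈ Submodule.span ℤ_[ℓ] (s : Set W) := hs ▸ (⟨hx, hline⟩ : x ∈ lineLattice L Λ)
  clear hline hx
  induction hxs using Submodule.span_induction with
  | mem x hx =>
    obtain ⟨j, hj⟩ := Nat.exists_eq_add_of_le (Finset.le_sup (f := k) hx)
    refine ⟨ℓ ^ j • y x, nsmul_mem (hy x hx) _, ?_⟩
    rw [hj, pow_add, mul_nsmul, hky x hx, map_nsmul, nsmul_sub]
  | zero => exact ⟨0, Λ.zero_mem, by simp⟩
  | add a b _ _ ha hb =>
    obtain ⟨u, hu, hua⟩ := ha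
    obtain ⟨w, hw, hwb⟩ := hb
    exact ⟨u + w, Λ.add_mem hu hw, by rw [nsmul_add, hua, hwb, map_add]; abel⟩
  | smul z a _ ha =>
    obtain ⟨u, hu, hua⟩ := ha
    exact ⟨z • u, Λ.smul_mem z hu, by rw [smul_comm, hua, padic_smul_comm, smul_sub]⟩

section Level

variable {M : Type} [AddCommGroup M] (ρM : Gal →* AddMonoid.End M) {r : ℕ} (π : Λ →+ M)
  (hπs : Function.Surjective π) (hker : ∀ x, π x = 0 ↔ ∃ y, x = ℓ ^ r • y)
  (heq : ∀ g (x : Λ), π ⟨ρ g x, D.stable g x x.2⟩ = ρM g (π x))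

include hπs hker heq

/-- Inertia fixes at least `ℓ^{rd}` elements modulo `ℓ^r`. -/
theorem pow_le_card_fix [Finite M] :
    ℓ ^ (r * Module.finrank ℚ_[ℓ] K) ≤ Nat.card ↥(Descent.fix ρM (inert q)) := by
  haveI := D.charZero
  obtain ⟨L⟩ := D.exists_line
  haveI := D.lineLattice_finite L
  set ΛL := lineLattice L Λ
  let S : Submodule ℚ_[ℓ] W := (Submodule.span K {L.v}).restrictScalars ℚ_[ℓ]
  let πL : ΛL →+ M := π.comp (Submodule.inclusion (show ΛL ≤ Λ from fun x hx => hx.1)).toAddMonoidHom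
  have hcard := natCard_range_eq_pow S ΛL
    (fun x hx => Submodule.mem_span_singleton.mpr ⟨_, hx.2.choose_spec.symm⟩)
    (fun w hw => by
      obtain ⟨a, rfl⟩ := Submodule.mem_span_singleton.mp hw
      obtain ⟨k, hk⟩ := D.span (a • L.v)
      exact ⟨k, hk, (ℓ ^ k : ℕ) • a, (smul_assoc _ _ _).symm⟩)
    r πL (fun x => by
      constructor
      · intro hx
        obtain ⟨y, hy⟩ := (hker _).mp hx
        obtain ⟨a, ha⟩ := x.2.2
        have h1 : (x : W) = ℓ ^ r • (y : W) := congrArg Subtype.val hy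
        refine ⟨⟨y.1, y.2, ((ℓ ^ r : ℕ) : K)⁻¹ * a, ?_⟩, Subtype.ext h1⟩
        rw [mul_smul, ← ha, h1, ← Nat.cast_smul_eq_nsmul K, inv_smul_smul₀
          (Nat.cast_ne_zero.mpr (pow_ne_zero r hℓ.out.ne_zero))]
      · rintro ⟨y, rfl⟩
        refine (hker _).mpr ⟨⟨y.1, y.2.1⟩, Subtype.ext ?_⟩
        rfl)
  have hS : Module.finrank ℚ_[ℓ] S = Module.finrank ℚ_[ℓ] K :=
    (LinearEquiv.finrank_eq ((LinearEquiv.toSpanNonzeroSingleton K W L.v L.ne_zero).restrictScalars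
      ℚ_[ℓ])).symm
  rw [← hS, ← hcard]
  refine Nat.card_mono (Set.toFinite _) ?_
  rintro _ ⟨x, rfl⟩ σ hσ
  obtain ⟨a, ha⟩ := x.2.2
  show ρM σ (π _) = π _
  rw [← heq]
  refine congrArg π (Subtype.ext ?_)
  show ρ σ (x : W) = x
  rw [ha, map_smul, L.fixed σ hσ]

end Level

/-- The classes at `q` are killed by a constant. -/
theorem exists_classes_bound : ∃ w : ℕ, 0 < w ∧
    ∀ {M : Type} [AddCommGroup M] (ρM : Gal →* AddMonoid.End M) {r : ℕ} (π : Λ →+ M),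
      Function.Surjective π → (∀ x, π x = 0 ↔ ∃ y, x = ℓ ^ r • y) →
      (∀ g (x : Λ), π ⟨ρ g x, D.stable g x x.2⟩ = ρM g (π x)) →
      ∀ c ∈ Descent.Z1 ρM, (∃ E : IntermediateField ℚ Qb, FiniteDimensional ℚ E ∧
          ∀ σ ∈ E.fixingSubgroup, c σ = 0) →
        ∃ m, ∀ σ ∈ inert q, w • c σ = ρM σ m - m := by
  haveI := D.charZero
  obtain ⟨L⟩ := D.exists_line
  obtain ⟨b, hb⟩ := D.exists_bound L
  obtain ⟨α, hα, hα2⟩ := D.exists_frob_line L
  have hq1 : 1 < q ^ 2 := Nat.one_lt_pow two_ne_zero hq.out.one_lt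
  refine ⟨ℓ ^ b * (ℓ ^ b * (q ^ 2 - 1)),
    Nat.mul_pos (pow_pos hℓ.out.pos b) (Nat.mul_pos (pow_pos hℓ.out.pos b) (by omega)), ?_⟩
  intro M _ ρM r π hπs hker heq c hc hcE
  obtain ⟨E, hE, hcE⟩ := hcE
  obtain ⟨E', hE', hlev⟩ := D.level r
  obtain ⟨KD⟩ := exists_kummerDatum (q := q) (ℓ := ℓ) r
  obtain ⟨σ₁, hσ₁, hκ₁⟩ := KD.exists_kappa_eq_one D.ne
  have hM : ∀ m : M, ℓ ^ r • m = 0 := fun m => by
    obtain ⟨x, rfl⟩ := hπs m
    rw [← map_nsmul]
    exact (hker _).mpr ⟨x, rfl⟩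
  let OnLine : M → Prop := fun m => ∃ x : Λ, (∃ a : K, (x : W) = a • L.v) ∧ π x = m
  have honfix : ∀ m, OnLine m → ∀ τ ∈ inert q, ρM τ m = m := by
    rintro m ⟨x, ⟨a, ha⟩, rfl⟩ τ hτ
    rw [← heq]
    exact congrArg π (Subtype.ext (by
      show ρ τ (x : W) = x
      rw [ha, map_smul, L.fixed τ hτ]))
  have hmono : ∀ τ ∈ inert q, ∀ m, OnLine (ρM τ m - m) := by
    intro τ hτ m
    obtain ⟨x, rfl⟩ := hπs m
    refine ⟨⟨ρ τ x - x, Λ.sub_mem (D.stable τ x x.2) x.2⟩, L.sub_mem τ hτ x, ?_⟩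
    rw [← heq, ← map_sub]; rfl
  have honker : ∀ m, ρM L.σ₀ m = m → OnLine (ℓ ^ b • m) := by
    intro m hm
    obtain ⟨x, rfl⟩ := hπs m
    rw [← heq, ← sub_eq_zero, ← map_sub, hker] at hm
    obtain ⟨μ, hμ⟩ := hm
    have hμ' : ρ L.σ₀ (x : W) - x = ℓ ^ r • (μ : W) := congrArg Subtype.val hμ
    obtain ⟨a, ha⟩ := L.sub_mem _ L.mem (x : W)
    obtain ⟨ν, hν, hνμ⟩ := hb μ μ.2 ⟨((ℓ ^ r : ℕ) : K)⁻¹ * a, by
      rw [mul_smul, ← ha, hμ', ← Nat.cast_smul_eq_nsmul K, inv_smul_smul₀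
        (Nat.cast_ne_zero.mpr (pow_ne_zero r hℓ.out.ne_zero))]⟩
    refine ⟨ℓ ^ b • x - ℓ ^ r • ⟨ν, hν⟩, L.ker _ ?_, ?_⟩
    · rw [← sub_eq_zero]
      show ρ L.σ₀ (ℓ ^ b • (x : W) - ℓ ^ r • ν) - (ℓ ^ b • (x : W) - ℓ ^ r • ν) = 0
      rw [map_sub, map_nsmul, map_nsmul, sub_sub_sub_comm, ← nsmul_sub, ← nsmul_sub, hμ', ← hνμ,
        smul_comm, sub_self]
    · rw [map_sub, map_nsmul, map_nsmul, hM, sub_zero]
  -- monodromy at this level
  let N : M →+ M := AddMonoidHom.mk' (fun m => ρM L.σ₀ m - m) fun a b => by rw [map_add]; abel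
  have hN : ∀ m, N m = ρM L.σ₀ m - m := fun m => rfl
  have hNline : ∀ m, OnLine m → N m = 0 := fun m hm => sub_eq_zero.mpr (honfix m hm _ L.mem)
  have hNF : ∀ m, ρM F (N m) = q • N (ρM F m) := by
    intro m
    obtain ⟨x, rfl⟩ := hπs m
    rw [hN, hN, ← heq, ← heq F x, ← heq, ← map_sub, ← map_sub, ← map_nsmul, ← heq]
    exact congrArg π (Subtype.ext (D.frob_sub L L.mem (x : W)))
  have hFline : ∀ m, OnLine m → ρM F (ρM F m) = q ^ 2 • m := by
    rintro m ⟨x, ⟨a, ha⟩, rfl⟩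
    rw [← heq, ← heq, ← map_nsmul]
    refine congrArg π (Subtype.ext ?_)
    show ρ F (ρ F (x : W)) = q ^ 2 • (x : W)
    rw [ha, map_smul, hα, smul_smul, map_smul, hα, smul_smul, ← Nat.cast_smul_eq_nsmul K,
      smul_smul, mul_assoc, hα2, Nat.cast_pow, mul_comm]
  have hFline' : ∀ m, OnLine m → OnLine (ρM F m) := by
    rintro m ⟨x, ⟨a, ha⟩, rfl⟩
    exact ⟨⟨ρ F x, D.stable F x x.2⟩, ⟨a * α, by
      show ρ F (x : W) = _
      rw [ha, map_smul, hα, smul_smul]⟩, heq F x⟩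
  -- the class
  let h : Gal → M := fun σ => N (c σ)
  have hadd : ∀ σ ∈ inert q, ∀ τ ∈ inert q, h (σ * τ) = h σ + h τ := by
    intro σ hσ τ _
    show N (c (σ * τ)) = N (c σ) + N (c τ)
    rw [hc σ τ, map_add]
    congr 1
    rw [← sub_eq_zero, ← map_sub]
    exact hNline _ (hmono σ hσ _)
  have hh : ∀ σ ∈ inert q, (q ^ 2 - 1) • h σ = 0 := by
    intro σ hσ
    have hconj := KummerDatum.apply_conj_eq D.ne hM hadd E
      (fun τ _ hτ => by show N (c τ) = 0; rw [hcE τ hτ, map_zero]) D.frob hσ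
    have e1 : c F + ρM F (c F⁻¹) = 0 := by
      rw [← hc F F⁻¹, mul_inv_cancel]
      have h11 := hc 1 1
      rw [mul_one, map_one] at h11
      exact left_eq_add.mp h11
    have e2 : c (F * σ * F⁻¹) = ρM F (c σ) + ρM F (ρM σ (c F⁻¹) - c F⁻¹) := by
      rw [hc (F * σ) F⁻¹, hc F σ, Descent.rho_mul, map_sub,
        eq_neg_of_add_eq_zero_left e1]
      abel
    have e3 : h (F * σ * F⁻¹) = N (ρM F (c σ)) := by
      show N (c (F * σ * F⁻¹)) = _
      rw [e2, map_add, hNline _ (hFline' _ (hmono σ hσ _)), add_zero]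
    have e4 : ρM F (h σ) = q ^ 2 • h σ := by
      show ρM F (N (c σ)) = _
      rw [hNF, ← e3, hconj, ← mul_nsmul', sq]
    have hOn : OnLine (h σ) := hmono _ L.mem _
    have e5 : (q ^ 2 * q ^ 2) • h σ = q ^ 2 • h σ := by
      rw [← hFline _ hOn, e4, map_nsmul, e4, mul_nsmul']
    have e6 : q ^ 2 • ((q ^ 2 - 1) • h σ) = 0 := by
      rw [← mul_nsmul', Nat.mul_sub, mul_one]
      obtain ⟨j, hj⟩ := Nat.exists_eq_add_of_le (Nat.le_mul_self (q ^ 2))
      rw [hj, Nat.add_sub_cancel_left]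
      rw [hj, add_nsmul] at e5
      exact add_eq_left.mp e5
    refine AddMonoid.addOrderOf_eq_one_iff.mp (Nat.eq_one_of_dvd_coprimes
      (Nat.Coprime.pow 2 r ((Nat.coprime_primes hq.out hℓ.out).mpr D.ne))
      (addOrderOf_dvd_iff_nsmul_eq_zero.mpr e6) (addOrderOf_dvd_iff_nsmul_eq_zero.mpr (hM _)))
  let c' : Gal → M := fun σ => (ℓ ^ b * (q ^ 2 - 1)) • c σ
  have hc'on : ∀ σ ∈ inert q, OnLine (c' σ) := fun σ hσ => by
    show OnLine ((ℓ ^ b * (q ^ 2 - 1)) • c σ)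
    rw [mul_nsmul']
    refine honker _ (sub_eq_zero.mp ?_)
    rw [← hN, map_nsmul]
    exact hh σ hσ
  have hc'κ : ∀ σ ∈ inert q, c' σ = KD.kappa σ • c' σ₁ := fun σ hσ =>
    KD.eq_kappa_nsmul D.ne hM (h := c')
      (fun a ha a' ha' => by
        show _ • c (a * a') = _ • c a + _ • c a'
        rw [hc a a', nsmul_add, ← map_nsmul, honfix _ (hc'on a' ha') a ha])
      E (fun τ _ hτ => by show _ • c τ = 0; rw [hcE τ hτ, nsmul_zero]) hσ₁ hκ₁ hσ
  obtain ⟨lam, hlam, hlamπ⟩ := hc'on σ₁ hσ₁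
  obtain ⟨ν, hν, hνlam⟩ := hb lam lam.2 hlam
  have hmonoκ : ∀ τ ∈ inert q, ρM τ (π ⟨ν, hν⟩) - π ⟨ν, hν⟩ =
      KD.kappa τ • (ρM σ₁ (π ⟨ν, hν⟩) - π ⟨ν, hν⟩) := fun τ hτ =>
    KD.eq_kappa_nsmul D.ne hM (h := fun g => ρM g (π ⟨ν, hν⟩) - π ⟨ν, hν⟩)
      (fun a ha a' ha' => by
        have h1 := honfix _ (hmono a' ha' (π ⟨ν, hν⟩)) a ha
        show ρM (a * a') (π ⟨ν, hν⟩) - _ = _
        rw [map_sub] at h1
        rw [Descent.rho_mul, ← h1]
        abel)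
      E' (fun g _ hg => by
        obtain ⟨y, hy, hxy⟩ := hlev g hg ν hν
        show ρM g _ - _ = 0
        rw [← heq, ← map_sub]
        exact (hker _).mpr ⟨⟨y, hy⟩, Subtype.ext hxy⟩) hσ₁ hκ₁ hτ
  refine ⟨π (KD.kappa L.σ₀ • ⟨ν, hν⟩), fun σ hσ => ?_⟩
  have hlast : ℓ ^ b • c' σ₁ = ρM L.σ₀ (π ⟨ν, hν⟩) - π ⟨ν, hν⟩ := by
    rw [← hlamπ, ← map_nsmul, ← heq, ← map_sub]
    exact congrArg π (Subtype.ext hνlam)
  show (ℓ ^ b * (ℓ ^ b * (q ^ 2 - 1))) • c σ = _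
  rw [mul_nsmul', show (ℓ ^ b * (q ^ 2 - 1)) • c σ = c' σ from rfl, hc'κ σ hσ, smul_comm, hlast,
    hmonoκ L.σ₀ L.mem, smul_comm, ← hmonoκ σ hσ, nsmul_sub, ← map_nsmul, ← map_nsmul]

end BadDatum

end Fermat.Agent.Mazur.Component
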