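import Fermat.Agent.EIS.LowerBound
import Fermat.Agent.Mazur.Defs

/-!
# The Eisenstein character modulo a prime dividing the numerator of `(p - 1) / 12`
-/

set_option autoImplicit false

noncomputable section

open ModularCurve

namespace Fermat.Agent.Mazur

variable (p : ℕ) [hp : Fact p.Prime]

/-- For a prime power `m` dividing `num((p-1)/12)` the lattice Hecke algebra has the Eisenstein
character modulo `m`. -/
theorem exists_eisMod {m : ℕ} (hm : m ∣ eisensteinNumerator p) :
    ∃ θ : ↥(CuspForm.heckeLatticeAlgebra p ∅) →+* ZMod m,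
      ∀ x : HeckeAlg, θ (latticeEval p x) = (EIS.eisEval p x : ZMod m) := by
  obtain ⟨χ, hχ⟩ := EIS.exists_eisensteinHom p
  refine ⟨(ZMod.castHom hm (ZMod m)).comp χ, fun x => ?_⟩
  have hmem : EIS.heckeToLattice p (x - (EIS.eisEval p x : HeckeAlg)) ∈ RingHom.ker χ := by
    refine hχ (Ideal.mem_map_of_mem _ ?_)
    rw [eisensteinIdeal, mem_eigenIdeal_iff]
    show EIS.eisEval p (x - (EIS.eisEval p x : HeckeAlg)) = 0
    rw [map_sub, map_intCast, Int.cast_id, sub_self]
  rw [RingHom.mem_ker, map_sub, map_sub, map_intCast, map_intCast, sub_eq_zero] at hmem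
  show ZMod.castHom hm (ZMod m) (χ (EIS.heckeToLattice p x)) = _
  rw [hmem, map_intCast]

omit hp in
/-- The numerator has an odd prime factor or is divisible by four. -/
theorem exists_prime_dvd_eisensteinNumerator (hp : p.Prime)
    (hp' : p ∉ ({2, 3, 5, 7, 13} : Finset ℕ)) :
    (∃ ℓ, ℓ.Prime ∧ ℓ ≠ 2 ∧ ℓ ∣ eisensteinNumerator p) ∨ 4 ∣ eisensteinNumerator p := by
  have hn0 : eisensteinNumerator p ≠ 0 := by
    have := hp.two_le
    rw [eisensteinNumerator]
    exact (Nat.div_pos (Nat.le_of_dvd (by omega) (Nat.gcd_dvd_left _ _))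
      (Nat.gcd_pos_of_pos_right _ (by norm_num))).ne'
  by_contra hcon
  push Not at hcon
  obtain ⟨hodd, h4⟩ := hcon
  have hpow := Nat.eq_prime_pow_of_unique_prime_dvd hn0 (p := 2) (fun {d} hd hdn => by
    by_contra h2
    exact hodd d hd h2 hdn)
  set n := eisensteinNumerator p with hn
  have hn2 : n = 1 ∨ n = 2 := by
    rcases Nat.lt_or_ge n.primeFactorsList.length 2 with h | h
    · rw [hpow]
      rcases Nat.lt_or_ge n.primeFactorsList.length 1 with h1 | h1
      · exact Or.inl (by rw [Nat.lt_one_iff.mp h1, pow_zero])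
      · exact Or.inr (by rw [show n.primeFactorsList.length = 1 by omega, pow_one])
    · exact absurd (hpow ▸ pow_dvd_pow 2 h : 2 ^ 2 ∣ n) h4
  have hmul : n * Nat.gcd (p - 1) 12 = p - 1 := by
    rw [hn, eisensteinNumerator]
    exact Nat.div_mul_cancel (Nat.gcd_dvd_left _ _)
  have hg : Nat.gcd (p - 1) 12 ∣ 12 := Nat.gcd_dvd_right _ _
  have hle : Nat.gcd (p - 1) 12 ≤ 12 := Nat.le_of_dvd (by norm_num) hg
  have hp25 : p ≤ 25 := by rcases hn2 with h | h <;> rw [h] at hmul <;> omega
  simp only [Finset.mem_insert, Finset.mem_singleton, not_or] at hp'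
  interval_cases p <;> first | (norm_num at hp; done) | omega | (norm_num [hn, eisensteinNumerator] at hn2; done)

end Fermat.Agent.Mazur
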