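import Fermat.Agent.Mazur.Component.Reduced
import Fermat.Agent.HK.TRep
import Fermat.Agent.GAL.Interface
import Mathlib.RingTheory.Etale.Field

/-!
# The rational `ℓ`-adic Hecke algebra of a reduced Hecke algebra is reduced
-/

set_option autoImplicit false
set_option linter.style.haveILetI false

noncomputable section

open scoped TensorProduct

namespace Fermat.Agent.Mazur.Component

theorem isReduced_rat_tensor (T : Type) [CommRing T] [Module.Free ℤ T] [IsReduced T] :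
    IsReduced (ℚ ⊗[ℤ] T) := by
  constructor
  intro x hx
  obtain ⟨m, hm, t, ht⟩ : ∃ m : ℤ, m ≠ 0 ∧ ∃ t : T, m • x = (1 : ℚ) ⊗ₜ[ℤ] t := by
    clear hx
    induction x using TensorProduct.induction_on with
    | zero => exact ⟨1, one_ne_zero, 0, by rw [smul_zero, TensorProduct.tmul_zero]⟩
    | tmul q t =>
      refine ⟨q.den, by exact_mod_cast q.den_ne_zero, q.num • t, ?_⟩
      rw [TensorProduct.tmul_smul, TensorProduct.smul_tmul', TensorProduct.smul_tmul']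
      congr 1
      rw [zsmul_eq_mul, zsmul_eq_mul, mul_one]
      exact_mod_cast q.den_mul_eq_num
    | add a b ha hb =>
      obtain ⟨m, hm, s, hs⟩ := ha
      obtain ⟨m', hm', s', hs'⟩ := hb
      refine ⟨m * m', mul_ne_zero hm hm', m' • s + m • s', ?_⟩
      rw [TensorProduct.tmul_add, TensorProduct.tmul_smul, TensorProduct.tmul_smul, ← hs, ← hs',
        smul_add, mul_smul, mul_smul, smul_comm m m' a]
  obtain ⟨n, hn⟩ := hx
  have hinj : Function.Injective (Algebra.TensorProduct.includeRight : T →ₐ[ℤ] ℚ ⊗[ℤ] T) :=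
    Algebra.TensorProduct.includeRight_injective (RingHom.injective_int _)
  have h0 : t = 0 := by
    refine eq_zero_of_pow_eq_zero (n := n) (hinj ?_)
    rw [map_pow, map_zero]
    show ((1 : ℚ) ⊗ₜ[ℤ] t) ^ n = 0
    rw [← ht, smul_pow, hn, smul_zero]
  rw [h0, TensorProduct.tmul_zero] at ht
  have hu : IsUnit ((m : ℤ) : ℚ ⊗[ℤ] T) := by
    rw [← map_intCast (algebraMap ℚ (ℚ ⊗[ℤ] T))]
    exact (isUnit_iff_ne_zero.mpr (Int.cast_ne_zero.mpr hm)).map _
  rw [zsmul_eq_mul] at ht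
  exact hu.mul_right_eq_zero.mp ht

attribute [local instance] Ideal.Quotient.field in
theorem isReduced_padic_tensor (ℓ : ℕ) [Fact ℓ.Prime] (T : Type) [CommRing T] [Module.Free ℤ T]
    [Module.Finite ℤ T] [IsReduced T] : IsReduced (ℚ_[ℓ] ⊗[ℤ] T) := by
  haveI := isReduced_rat_tensor T
  haveI : IsArtinianRing (ℚ ⊗[ℤ] T) := IsArtinianRing.of_finite ℚ _
  haveI : Algebra.FormallyEtale ℚ (ℚ ⊗[ℤ] T) := by
    have (I : MaximalSpectrum (ℚ ⊗[ℤ] T)) : Algebra.FormallyEtale ℚ ((ℚ ⊗[ℤ] T) ⧸ I.asIdeal) :=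
      Algebra.FormallyEtale.of_isSeparable ℚ ((ℚ ⊗[ℤ] T) ⧸ I.asIdeal)
    exact .of_equiv ((IsArtinianRing.equivPi (ℚ ⊗[ℤ] T)).restrictScalars ℚ).symm
  haveI : Algebra.EssFiniteType ℚ_[ℓ] (ℚ_[ℓ] ⊗[ℚ] (ℚ ⊗[ℤ] T)) := inferInstance
  haveI := Algebra.FormallyUnramified.isReduced_of_field ℚ_[ℓ] (ℚ_[ℓ] ⊗[ℚ] (ℚ ⊗[ℤ] T))
  exact isReduced_of_injective
    (Algebra.TensorProduct.cancelBaseChange ℤ ℚ ℚ_[ℓ] ℚ_[ℓ] T).symm.toRingEquiv
    (Algebra.TensorProduct.cancelBaseChange ℤ ℚ ℚ_[ℓ] ℚ_[ℓ] T).symm.injective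

variable (p : ℕ) [Fact p.Prime] (ℓ : ℕ) [Fact ℓ.Prime]

/-- At prime level `ℚ_ℓ ⊗ T` is reduced. -/
theorem isReduced_ratHecke_prime : IsReduced (GAL.RatHecke p ℓ) := by
  haveI : NeZero p := ⟨(Fact.out : p.Prime).ne_zero⟩
  haveI := HK.moduleFinite_tFull p
  haveI := HK.moduleFree_tFull p
  haveI := isReduced_heckeAlgebra_prime p
  exact isReduced_padic_tensor ℓ (GAL.HeckeT p)

end Fermat.Agent.Mazur.Component
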