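import Fermat.Agent.Mazur.Component.Make
import Fermat.Agent.Mazur.Component.ReducedRat
import Fermat.Agent.Mazur.Component.EisHom
import Fermat.Agent.HK.TateRepOfCoords
import Fermat.Agent.RED.X0LiftAll
import Fermat.Agent.RED.Specialization.OfLift

/-!
# An Eisenstein component not killed by a given homomorphism

The rational Tate module of `J₀(p)` is the sum of its planes, and the planes whose residual prime is
not the Eisenstein one are killed by a high power of a Hecke operator which is a unit on the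
Eisenstein class. So a homomorphism killing all Eisenstein planes kills that class.
-/

set_option autoImplicit false
set_option linter.style.haveILetI false

noncomputable section

open ModularCurve CongruenceSubgroup
open scoped TensorProduct Matrix

namespace Fermat.Agent.Mazur.Component

open GAL (HeckeT RatHecke toRatHecke)
open Fermat.Agent.FlatTangent

set_option synthInstance.maxHeartbeats 400000 in
set_option maxHeartbeats 1600000 in
/-- The frame of the rational Tate module. -/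
def tateFrame (N : ℕ) [NeZero N] (ℓ : ℕ) [Fact ℓ.Prime] (hred : IsReduced (RatHecke N ℓ)) :
    Frame N ℓ where
  A := RatHecke N ℓ
  V := HK.HSpace N ℚ_[ℓ]
  towerA := IsScalarTower.of_algebraMap_eq fun _ => rfl
  finiteA := inferInstance
  reducedA := hred
  toA := toRatHecke N ℓ
  span a := by
    obtain ⟨n, z, hz⟩ := exists_pow_smul_eq_intHom a
    refine ⟨n, z, hz.trans (AlgHom.congr_fun (φ₁ := intHom N ℓ) (Algebra.TensorProduct.ext ?_ ?_) z)⟩
    · exact Algebra.ext_id_iff.mpr trivial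
    · refine AlgHom.ext fun t => ?_
      show intHom N ℓ (1 ⊗ₜ t) = Algebra.TensorProduct.lift (Algebra.ofId ℤ_[ℓ] (RatHecke N ℓ))
        (toRatHecke N ℓ).toIntAlgHom (fun _ _ => Commute.all _ _) (1 ⊗ₜ t)
      rw [intHom_one_tmul, Algebra.TensorProduct.lift_tmul, map_one, one_mul]
      rfl
  l := HK.hDual N ℚ_[ℓ]
  dual := HK.isDualBasis_hDual N ℚ_[ℓ]
  κ := HK.hCoord N ℚ_[ℓ]
  G := (HK.tateCoords N ℓ).galRep
  κ_G g x := by
    rw [HK.TorsionCoords.galRep_apply, HK.TorsionCoords.hCoord_galEndQ]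
    rfl
  κ_toA t x := by
    rw [show toRatHecke N ℓ t = (1 : ℚ_[ℓ]) ⊗ₜ[ℤ] t from rfl, HK.HSpace.tmul_smul, one_smul,
      HK.hCoord_apply_end, HK.hMatrix_heckeAct, ← HK.toQMat_castMat]
    rfl
  conjElt := (HK.tateCoords N ℓ).conjElt
  conj_sq x := by
    rw [HK.TorsionCoords.galRep_conj, LinearMap.neg_apply, LinearMap.neg_apply, map_neg, neg_neg,
      HK.involA_apply, HK.involA_apply, HK.involEnd_involEnd]
  conj_l i x := by
    rw [HK.TorsionCoords.galRep_conj, LinearMap.neg_apply, map_neg, HK.involA_apply,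
      HK.hDual_involEnd]
    split_ifs <;> ring

theorem intHom_tmul_eq {N : ℕ} [NeZero N] {ℓ : ℕ} [Fact ℓ.Prime] (c : ℤ_[ℓ]) (t : HeckeT N) :
    c • toRatHecke N ℓ t = intHom N ℓ (c ⊗ₜ t) := by
  rw [← intHom_one_tmul, ← map_smul, TensorProduct.smul_tmul', smul_eq_mul, mul_one]

variable {N : ℕ} [NeZero N] {ℓ : ℕ} [hℓ : Fact ℓ.Prime]

/-- A power of a unit of the order is `1` modulo a non-unit. -/
theorem exists_pow_sub_one_not_isUnit {T K : Type} [CommRing T] [Module.Finite ℤ T] [Field K]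
    [CharZero K] [Algebra ℤ_[ℓ] K] (χ : T →+* K) {u : order (ℓ := ℓ) χ} (hu : IsUnit u) :
    ∃ k, 0 < k ∧ ¬ IsUnit (u ^ k - 1) := by
  haveI := finite_quotient_natCast (ℓ := ℓ) χ
  obtain ⟨i, j, hij, he⟩ := Finite.exists_ne_map_eq_of_infinite
    fun n : ℕ => Ideal.Quotient.mk (Ideal.span {(ℓ : order (ℓ := ℓ) χ)}) (u ^ n)
  wlog hlt : i < j generalizing i j
  · exact this j i (Ne.symm hij) he.symm (lt_of_le_of_ne (not_lt.mp hlt) (Ne.symm hij))
  refine ⟨j - i, Nat.sub_pos_of_lt hlt, fun h => ?_⟩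
  have hmem := Ideal.Quotient.eq.mp he.symm
  rw [← Nat.add_sub_cancel' hlt.le, pow_add, ← mul_sub_one] at hmem
  have hle : Ideal.span {(ℓ : order (ℓ := ℓ) χ)} ≤ IsLocalRing.maximalIdeal (order (ℓ := ℓ) χ) := by
    rw [Ideal.span_singleton_le_iff_mem]
    exact natCast_mem_maximalIdeal χ
  exact (hle hmem) ((hu.pow i).mul h)

set_option maxHeartbeats 800000 in
/-- A homomorphism killing the torsion of all Eisenstein planes kills the classes on which the
Hecke operators at good primes act by `1 + q`. -/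
theorem Frame.exists_component_not_killed (F : Frame N ℓ) (hTQ : GAL.TorsionQuadratic N ℓ)
    {J' : Type*} [AddCommGroup J'] (φ : JZero N →+ J') {r : ℕ} {c : JZero N}
    (hc : ℓ ^ r • c = 0)
    (hcT : ∀ (q : ℕ) (hq : q.Prime), ¬ q ∣ N * ℓ →
      heckeOperatorBar N ⟨q, hq⟩ c = (1 + q) • c)
    (hφ : φ c ≠ 0) :
    ∃ X : Component N ℓ, ∃ (R : ℕ) (v : X.lat), φ (X.pt R v) ≠ 0 := by
  classical
  letI := heckeModuleBar N
  haveI : IsArtinianRing F.A := IsArtinianRing.of_finite ℚ_[ℓ] F.A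
  letI : Fintype (MaximalSpectrum F.A) := Fintype.ofFinite _
  by_contra hno
  push Not at hno
  apply hφ
  obtain ⟨e, hsum, he, he'⟩ := exists_idempotents F.A
  -- an operator
  have hop : ∀ I : MaximalSpectrum F.A, ∃ (t : HeckeAlg) (n : ℤ), ¬ (ℓ : ℤ) ∣ n ∧ t • c = n • c ∧
      ((∀ (R : ℕ) (v : F.latP I.asIdeal), φ (tau N ℓ R (F.coordP I.asIdeal v)) = 0) ∨
        ∃ y ∈ order (ℓ := ℓ) (F.charI I.asIdeal),
          F.charI I.asIdeal (CuspForm.heckeEvalForms N 2 t) = (ℓ : F.A ⧸ I.asIdeal) * y) := by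
    intro I
    letI := Ideal.Quotient.field I.asIdeal
    haveI := F.charZero_quotient I.asIdeal
    by_cases heis : ∀ (q : ℕ) (hq : q.Prime), ¬ q ∣ N * ℓ → ¬ IsUnit (charO ℓ (F.charI I.asIdeal)
        (CuspForm.heckeEvalForms N 2 (heckeGen ⟨q, hq⟩) - 1 - (q : HeckeT N)))
    · refine ⟨1, 1, ?_, by rw [one_smul, one_zsmul], Or.inl fun R v => ?_⟩
      · rw [Int.natCast_dvd_ofNat, Nat.dvd_one]; exact hℓ.out.ne_one
      · obtain ⟨X, hX⟩ := F.exists_component I.asIdeal hTQ heis (e I) (he I) (he' I)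
        obtain ⟨w, hw⟩ := hX R v
        rw [← hw]
        exact hno X R w
    · simp only [not_forall, not_not] at heis
      obtain ⟨q, hq, hqN, hu⟩ := heis
      obtain ⟨k, hk, hnu⟩ := exists_pow_sub_one_not_isUnit (F.charI I.asIdeal) hu
      obtain ⟨a, ha⟩ := exists_pow_mem_span (ℓ := ℓ) (F.charI I.asIdeal)
      obtain ⟨y, hy⟩ := ha _ hnu
      set g : HeckeAlg := heckeGen ⟨q, hq⟩ - 1 - (q : HeckeAlg) with hg
      have hT : (heckeGen (⟨q, hq⟩ : Nat.Primes) : HeckeAlg) • c = c + q • c := by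
        exact ((heckeModuleBar_heckeGen_smul (HK.Corr.heckeOperatorsCommuteBar N) ⟨q, hq⟩ c).trans
          (hcT q hq hqN)).trans (by rw [add_nsmul, one_nsmul])
      have hgc : g • c = 0 := by
        rw [hg, sub_smul, sub_smul, one_smul, Nat.cast_smul_eq_nsmul]
        exact (congrArg (fun x => x - c - q • c) hT).trans (by abel)
      have hgk : (g ^ k - 1) • c = (-1 : ℤ) • c := by
        obtain ⟨k', rfl⟩ := Nat.exists_eq_succ_of_ne_zero hk.ne'
        rw [pow_succ, sub_smul, one_smul, mul_smul, hgc, (smul_zero (g ^ k') : g ^ k' • (0 : JZero N) = 0), zero_sub, neg_one_zsmul]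
      have hga : ∀ j : ℕ, (g ^ k - 1) ^ j • c = (-1 : ℤ) ^ j • c := by
        intro j
        induction j with
        | zero => rw [pow_zero, pow_zero, one_smul, one_zsmul]
        | succ j ih => rw [pow_succ, mul_smul, hgk, smul_comm, ih, smul_smul, ← pow_succ']
      refine ⟨(g ^ k - 1) ^ a, (-1) ^ a, ?_, hga a, Or.inr ⟨y, y.2, ?_⟩⟩
      · rcases neg_one_pow_eq_or ℤ a with h | h <;>
          simp only [h, dvd_neg, Int.natCast_dvd_ofNat, Nat.dvd_one] <;> exact hℓ.out.ne_one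
      · have h := congrArg Subtype.val hy
        rw [SubmonoidClass.coe_pow, Subalgebra.coe_sub, SubmonoidClass.coe_pow, coe_charO,
          OneMemClass.coe_one] at h
        rw [hg]
        simp only [map_pow, map_sub, map_one, map_natCast] at h ⊢
        exact h.trans (by push_cast; rfl)
  choose t n hn htc hb using hop
  obtain ⟨u, hu⟩ := exists_tau_eq r hc
  choose k z hz using fun I => F.span (e I)
  set C := ∑ I, k I
  let z' : MaximalSpectrum F.A → ℤ_[ℓ] ⊗[ℤ] HeckeT N := fun I =>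
    (ℓ : ℤ_[ℓ] ⊗[ℤ] HeckeT N) ^ (C - k I) * z I
  have hz' : ∀ I, F.intA (z' I) = (ℓ : F.A) ^ C * e I := fun I => by
    have hzI : (ℓ : F.A) ^ k I * e I = F.intA (z I) := hz I
    rw [map_mul, map_pow, map_natCast, ← hzI, ← mul_assoc, ← pow_add,
      Nat.sub_add_cancel (Finset.single_le_sum (fun _ _ => Nat.zero_le _) (Finset.mem_univ I))]
  let sB : HeckeAlg := (∏ I, t I) ^ (r + C)
  -- the decomposition
  let x : F.V := F.κ.symm (PadicInt.Coe.ringHom ∘ u)
  have hxκ : F.κ x = PadicInt.Coe.ringHom ∘ u := LinearEquiv.apply_symm_apply _ _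
  let S := heckeMatT N ℓ sB
  have hpart : ∀ I, φ (tau N ℓ (r + C) (S *ᵥ (intMat N ℓ (z' I) *ᵥ u))) = 0 := by
    intro I
    have hmem : F.intA (z' I) • x ∈ Submodule.torsionBySet F.A F.V (I.asIdeal : Set F.A) :=
      (Submodule.mem_torsionBySet_iff _ _).mpr fun a => by
        rw [smul_smul, hz', mul_left_comm, he' I a a.2, mul_zero, zero_smul]
    have hκ : F.κ ((⟨F.intA (z' I) • x, hmem⟩ : F.Plane I.asIdeal) : F.V) =
        PadicInt.Coe.ringHom ∘ (intMat N ℓ (z' I) *ᵥ u) := by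
      show F.κ (F.intA (z' I) • x) = _
      rw [F.κ_intA, hxκ, coe_mulVec]
    set p₀ : F.latP I.asIdeal := ⟨_, F.mem_latP_of_coord hκ⟩ with hp₀
    have hcp : F.coordP I.asIdeal p₀ = intMat N ℓ (z' I) *ᵥ u := F.coordP_eq hκ
    rw [← hcp, ← F.coordP_hecke sB p₀]
    rcases hb I with hI | ⟨y, hy, hby⟩
    · exact hI _ _
    · have hfac : ∃ y' ∈ order (ℓ := ℓ) (F.charI I.asIdeal),
          F.charI I.asIdeal (CuspForm.heckeEvalForms N 2 sB) =
            (ℓ : F.A ⧸ I.asIdeal) ^ (r + C) * y' := by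
        refine ⟨F.charI I.asIdeal (CuspForm.heckeEvalForms N 2
            ((∏ J ∈ Finset.univ.erase I, t J) ^ (r + C))) * y ^ (r + C),
          mul_mem (mem_order _ _) (pow_mem hy _), ?_⟩
        simp only [sB]
        rw [← Finset.mul_prod_erase Finset.univ t (Finset.mem_univ I), mul_pow, map_mul, map_mul,
          map_pow, map_pow, hby, mul_pow]
        ring
      obtain ⟨y', hy', hfac⟩ := hfac
      have hzero : tau N ℓ (r + C) (F.coordP I.asIdeal
          ⟨_, F.charI_smul_mem (CuspForm.heckeEvalForms N 2 sB) p₀.2⟩) = 0 := by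
        rw [tau_eq_zero_iff]
        refine ⟨F.coordP I.asIdeal ⟨_, F.order_smul_mem hy' p₀.2⟩, ?_⟩
        rw [← map_smul]
        refine congrArg _ (Subtype.ext ?_)
        show F.charI I.asIdeal _ • (p₀ : F.Plane I.asIdeal) =
          (ℓ : ℤ_[ℓ]) ^ (r + C) • y' • (p₀ : F.Plane I.asIdeal)
        rw [hfac, mul_smul, ← algebraMap_smul (F.A ⧸ I.asIdeal) ((ℓ : ℤ_[ℓ]) ^ (r + C)),
          map_pow, map_natCast]
      rw [hzero, map_zero]
  -- reassemble
  have hsumM : ∑ I, intMat N ℓ (z' I) *ᵥ u = (ℓ : ℤ_[ℓ]) ^ C • u := by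
    have h1 : F.κ (∑ I, F.intA (z' I) • x) = F.κ (((ℓ : ℚ_[ℓ]) ^ C) • x) := by
      congr 1
      rw [← Finset.sum_smul, Finset.sum_congr rfl (fun I _ => hz' I), ← Finset.mul_sum, hsum,
        mul_one, ← map_natCast (algebraMap ℚ_[ℓ] F.A), ← map_pow, algebraMap_smul]
    rw [map_sum, map_smul, hxκ] at h1
    simp only [F.κ_intA, hxκ, ← coe_mulVec] at h1
    funext i
    refine Subtype.coe_injective ?_
    have h2 := congrFun h1 i
    simp only [Finset.sum_apply, Function.comp_apply, Pi.smul_apply, smul_eq_mul] at h2 ⊢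
    rw [← map_sum] at h2
    exact h2.trans (by rw [PadicInt.coe_mul, PadicInt.coe_pow, PadicInt.coe_natCast]; rfl)
  have h0 : φ (tau N ℓ (r + C) (S *ᵥ ((ℓ : ℤ_[ℓ]) ^ C • u))) = 0 := by
    rw [← hsumM, Matrix.mulVec_sum, map_sum, map_sum]
    exact Finset.sum_eq_zero fun I _ => hpart I
  have hlow : ∀ (j R : ℕ) (v : Fin (MF.ParHom.parRank N) → ℤ_[ℓ]),
      tau N ℓ (R + j) ((ℓ : ℤ_[ℓ]) ^ j • v) = tau N ℓ R v := by
    intro j
    induction j with
    | zero => intro R v; rw [pow_zero, one_smul, add_zero]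
    | succ j ih =>
      intro R v
      rw [pow_succ', mul_smul, Nat.cast_smul_eq_nsmul, ← Nat.add_assoc, map_nsmul, nsmul_tau_succ, ih]
  rw [Matrix.mulVec_smul, hlow] at h0
  set M : ℤ := (∏ I, n I) ^ (r + C)
  have hMc : sB • c = M • c := by
    have hmul : ∀ (x y : HeckeAlg) (i j : ℤ), x • c = i • c → y • c = j • c →
        (x * y) • c = (i * j) • c := fun x y i j hx hy => by
      rw [mul_smul, hy, smul_comm, hx, smul_smul, mul_comm]
    have hp : ∀ s : Finset (MaximalSpectrum F.A), (∏ I ∈ s, t I) • c = (∏ I ∈ s, n I) • c := by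
      intro s
      induction s using Finset.induction_on with
      | empty => rw [Finset.prod_empty, Finset.prod_empty, one_smul, one_zsmul]
      | insert I s hI ih =>
        rw [Finset.prod_insert hI, Finset.prod_insert hI]
        exact hmul _ _ _ _ (htc I) ih
    have hpw : ∀ j : ℕ, (∏ I, t I) ^ j • c = (∏ I, n I) ^ j • c := by
      intro j
      induction j with
      | zero => rw [pow_zero, pow_zero, one_smul, one_zsmul]
      | succ j ih => rw [pow_succ, pow_succ]; exact hmul _ _ _ _ ih (hp _)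
    exact hpw _
  have h3 : tau N ℓ r (S *ᵥ u) = M • c := by
    rw [← hMc, ← hu]
    exact (hecke_tau r sB u).symm
  rw [h3, map_zsmul] at h0
  have hℓint := Nat.prime_iff_prime_int.mp hℓ.out
  have hndvd : ¬ (ℓ : ℤ) ∣ M := by
    intro hd
    obtain ⟨I, -, hI⟩ := (hℓint.dvd_finsetProd_iff n).mp (hℓint.dvd_of_dvd_pow hd)
    exact hn I hI
  obtain ⟨a, a', haa'⟩ : IsCoprime M ((ℓ : ℤ) ^ r) :=
    ((hℓint.coprime_iff_not_dvd.mpr hndvd).symm).pow_right
  have h4 : ((ℓ : ℤ) ^ r) • φ c = 0 := by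
    rw [← Nat.cast_pow, natCast_zsmul, ← map_nsmul, hc, map_zero]
  rw [← one_zsmul (φ c), ← haa', add_zsmul, mul_zsmul, mul_zsmul, h0, h4, zsmul_zero, zsmul_zero,
    add_zero]

/-- Some plane lies over a given Eisenstein character. -/
theorem Frame.exists_component_over (F : Frame N ℓ) (hinj : Function.Injective F.intA)
    (hTQ : GAL.TorsionQuadratic N ℓ) {θ : HeckeT N →+* ZMod ℓ}
    (hθ : ∀ (q : ℕ) (hq : q.Prime), ¬ q ∣ N * ℓ →
      θ (CuspForm.heckeEvalForms N 2 (heckeGen ⟨q, hq⟩)) = 1 + (q : ZMod ℓ)) :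
    Nonempty (Component N ℓ) := by
  classical
  haveI : IsArtinianRing F.A := IsArtinianRing.of_finite ℚ_[ℓ] F.A
  letI : Fintype (MaximalSpectrum F.A) := Fintype.ofFinite _
  by_contra hno
  obtain ⟨e, hsum, he, he'⟩ := exists_idempotents F.A
  have hop : ∀ I : MaximalSpectrum F.A, ∃ b : HeckeT N, θ b ≠ 0 ∧
      ∃ w : ℤ_[ℓ] ⊗[ℤ] HeckeT N,
        F.toA b - (ℓ : F.A) * F.intA w ∈ I.asIdeal := by
    intro I
    letI := Ideal.Quotient.field I.asIdeal
    haveI := F.charZero_quotient I.asIdeal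
    by_cases hover : Over θ (F.charI I.asIdeal)
    · obtain ⟨X, -⟩ := F.exists_component I.asIdeal hTQ (fun q hq hqN => hover.not_isUnit (by
        rw [map_sub, map_sub, map_one, map_natCast, hθ q hq hqN]; ring)) (e I) (he I) (he' I)
      exact absurd ⟨X⟩ hno
    · simp only [Over, not_forall] at hover
      obtain ⟨b, hb, hθb⟩ := hover
      obtain ⟨a, ha⟩ := exists_pow_mem_span (ℓ := ℓ) (F.charI I.asIdeal)
      obtain ⟨⟨y, w, hw⟩, hy⟩ := ha _ hb
      refine ⟨b ^ a, by rw [map_pow]; exact pow_ne_zero a hθb, w, ?_⟩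
      have h : F.charI I.asIdeal b ^ a = (ℓ : F.A ⧸ I.asIdeal) * y := by
        have h' := congrArg Subtype.val hy
        rw [SubmonoidClass.coe_pow, coe_charO] at h'
        exact h'.trans (by push_cast; rfl)
      have hw' : Ideal.Quotient.mk I.asIdeal (F.intA w) = y := (F.lift_charI I.asIdeal w).symm.trans hw
      rw [← Ideal.Quotient.eq_zero_iff_mem, map_sub, map_mul, map_natCast, hw', sub_eq_zero,
        map_pow, map_pow]
      exact h
  choose b hθb w hw using hop
  choose k z hz using fun I => F.span (e I)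
  set C := ∑ I, k I
  set n := C + 1
  let B : HeckeT N := ∏ I, b I
  have hI : ∀ I, ∃ v, (ℓ : F.A) ^ C * e I * F.toA (B ^ n) = (ℓ : F.A) ^ n * F.intA v := by
    intro I
    refine ⟨(ℓ : ℤ_[ℓ] ⊗[ℤ] HeckeT N) ^ (C - k I) * z I * w I ^ n *
      (1 ⊗ₜ ((∏ J ∈ Finset.univ.erase I, b J) ^ n)), ?_⟩
    have hzI : (ℓ : F.A) ^ k I * e I = F.intA (z I) := hz I
    have hpow : F.toA (b I) ^ n * e I = ((ℓ : F.A) * F.intA (w I)) ^ n * e I := by
      obtain ⟨c, hc⟩ := sub_dvd_pow_sub_pow (F.toA (b I)) ((ℓ : F.A) * F.intA (w I)) n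
      rw [← sub_eq_zero, ← sub_mul, hc, mul_assoc, mul_comm c, ← mul_assoc, he' I _ (hw I), zero_mul]
    rw [map_mul, map_mul, map_mul, map_pow F.intA, map_natCast, ← hzI, map_pow F.intA, F.intA_tmul,
      one_smul, show B ^ n = b I ^ n * (∏ J ∈ Finset.univ.erase I, b J) ^ n by
        rw [← mul_pow, Finset.mul_prod_erase Finset.univ b (Finset.mem_univ I)],
      map_mul, map_pow F.toA, map_pow F.toA,
      show (ℓ : F.A) ^ C = (ℓ : F.A) ^ (C - k I) * (ℓ : F.A) ^ k I by
        rw [← pow_add, Nat.sub_add_cancel (Finset.single_le_sum (f := k) (fun _ _ => Nat.zero_le _)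
          (Finset.mem_univ I))]]
    linear_combination ((ℓ : F.A) ^ (C - k I) * (ℓ : F.A) ^ k I *
      F.toA (∏ J ∈ Finset.univ.erase I, b J) ^ n) * hpow
  choose v hv using hI
  have h : F.intA ((ℓ : ℤ_[ℓ] ⊗[ℤ] HeckeT N) ^ C * (1 ⊗ₜ (B ^ n))) =
      F.intA ((ℓ : ℤ_[ℓ] ⊗[ℤ] HeckeT N) ^ n * ∑ I, v I) := by
    rw [map_mul, map_mul, map_pow, map_pow, map_natCast, F.intA_tmul, one_smul, map_sum,
      Finset.mul_sum, ← Finset.sum_congr rfl (fun I _ => hv I), ← Finset.sum_mul,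
      ← Finset.mul_sum, hsum, mul_one]
  have h' := congrArg (Algebra.TensorProduct.productMap (R := ℤ)
    ((PadicInt.toZMod (p := ℓ)).toIntAlgHom) θ.toIntAlgHom) (hinj (by
      rw [map_mul, map_mul, map_pow, map_natCast, ← sub_eq_zero] at h
      have h2 : (ℓ : F.A) ^ C * (F.intA (1 ⊗ₜ (B ^ n)) - (ℓ : F.A) * F.intA (∑ I, v I)) = 0 := by
        rw [← h, map_pow, map_natCast, mul_sub, show n = C + 1 from rfl, pow_succ (ℓ : F.A) C,
          mul_assoc]
      have hu : IsUnit ((ℓ : F.A) ^ C) := by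
        rw [← map_natCast (algebraMap ℚ_[ℓ] F.A)]
        exact ((isUnit_iff_ne_zero.mpr (Nat.cast_ne_zero.mpr hℓ.out.ne_zero)).map _).pow C
      rw [hu.mul_right_eq_zero, sub_eq_zero] at h2
      exact h2.trans (by rw [map_mul, map_natCast])) :
    (1 ⊗ₜ (B ^ n) : ℤ_[ℓ] ⊗[ℤ] HeckeT N) = (ℓ : ℤ_[ℓ] ⊗[ℤ] HeckeT N) * ∑ I, v I)
  rw [map_mul, map_natCast, ZMod.natCast_self, zero_mul, Algebra.TensorProduct.productMap_apply_tmul,
    map_one, one_mul] at h'
  have hB : θ (B ^ n) = 0 := h'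
  rw [map_pow, map_prod] at hB
  exact Finset.prod_ne_zero_iff.mpr (fun I _ => hθb I) (eq_zero_of_pow_eq_zero hB)

section PrimeLevel

variable (p : ℕ) [hp : Fact p.Prime] [NeZero p]

/-- The torsion of `J₀(N)` satisfies the quadratic relation at good Frobenius elements. -/
theorem torsionQuadratic (N ℓ : ℕ) [NeZero N] : GAL.TorsionQuadratic N ℓ :=
  letI := heckeModuleBar N
  haveI := HK.Corr.smulCommClass_heckeModuleBar N
  (GAL.torsion_properties_of_specializationExists N ℓ (HK.Corr.heckeOperatorsCommuteBar N)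
    inferInstance (RED.Spec.specializationExists_of_x0Lift N ℓ (HK.Corr.heckeOperatorsCommuteBar N)
      fun _ hq hN _ hA => RED.x0Lift hq hN hA)).1

/-- On a rational torsion class the Hecke operators at good primes act by `1 + q`. -/
theorem heckeOperatorBar_eq_of_fixed {N ℓ : ℕ} [NeZero N] {c : JZero N} {r : ℕ} (hc : ℓ ^ r • c = 0)
    (hfix : ∀ σ : Gal, σ • c = c) (q : ℕ) (hq : q.Prime) (hqN : ¬ q ∣ N * ℓ) :
    heckeOperatorBar N ⟨q, hq⟩ c = (1 + q) • c := by
  haveI : Fact q.Prime := ⟨hq⟩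
  obtain ⟨σ, hσ⟩ := Galois.exists_isFrobeniusAt (plc_liesOverPrime q) hq
  have h := torsionQuadratic N ℓ q hq hqN _ (plc_liesOverPrime q) σ hσ c ⟨r, hc⟩
  rw [hfix, hfix] at h
  rw [add_nsmul, one_nsmul, ← sub_eq_zero, ← neg_eq_zero, ← h]
  abel

/-- An Eisenstein component at level `p`, not killed by a homomorphism which does not kill a
rational torsion class. -/
theorem exists_component_prime {J' : Type*} [AddCommGroup J'] (φ : JZero p →+ J') {r : ℕ}
    {c : JZero p} (hc : ℓ ^ r • c = 0) (hfix : ∀ σ : Gal, σ • c = c) (hφ : φ c ≠ 0) :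
    ∃ X : Component p ℓ, ∃ (R : ℕ) (v : X.lat), φ (X.pt R v) ≠ 0 :=
  (tateFrame p ℓ (isReduced_ratHecke_prime p ℓ)).exists_component_not_killed
    (torsionQuadratic p ℓ) φ hc (fun q hq hqN => heckeOperatorBar_eq_of_fixed hc hfix q hq hqN) hφ

/-- An Eisenstein component at level `p`. -/
theorem exists_component_prime' (hℓn : ℓ ∣ eisensteinNumerator p) :
    Nonempty (Component p ℓ) := by
  obtain ⟨θ₀, hθ₀⟩ := exists_eisMod p hℓn
  let θ : HeckeT p →+* ZMod ℓ := θ₀.comp (CuspForm.latticeRestrictHom p ∅).toRingHom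
  have hθ : ∀ t, θ (CuspForm.heckeEvalForms p 2 t) = (EIS.eisEval p t : ZMod ℓ) := hθ₀
  refine (tateFrame p ℓ (isReduced_ratHecke_prime p ℓ)).exists_component_over ?_
    (torsionQuadratic p ℓ) (θ := θ) (fun q hq hqN => ?_)
  · haveI := HK.moduleFree_tFull p
    have h : ∀ z, (tateFrame p ℓ (isReduced_ratHecke_prime p ℓ)).intA z = intHom p ℓ z := by
      intro z
      induction z using TensorProduct.induction_on with
      | zero => rw [map_zero, map_zero]; rfl
      | tmul c t => rw [Frame.intA_tmul]; exact intHom_tmul_eq c t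
      | add a b ha hb => rw [map_add, map_add, ha, hb]; rfl
    intro a b hab
    rw [h, h] at hab
    exact Module.Flat.rTensor_preserves_injective_linearMap
      ((Algebra.ofId ℤ_[ℓ] ℚ_[ℓ]).toLinearMap.restrictScalars ℤ) Subtype.coe_injective hab
  · rw [hθ, show EIS.eisEval p (heckeGen ⟨q, hq⟩) = eisensteinSystem p ⟨q, hq⟩ from
      MvPolynomial.aeval_X _ _]
    have h : eisensteinSystem p (⟨q, hq⟩ : Nat.Primes) = 1 + (q : ℕ) :=
      eisensteinSystem_of_not_dvd (ℓ := (⟨q, hq⟩ : Nat.Primes)) fun h => hqN (h.mul_right ℓ)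
    rw [h]
    push_cast
    rfl

end PrimeLevel

end Fermat.Agent.Mazur.Component
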