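import Fermat.Agent.BAD.Modular.Final
import Fermat.Agent.Mazur.Descent.SelPiece

/-!
# Inertia at the level on torsion of `J₀(p)`

Inertia at `p` acts unipotently of level two on the torsion of `J₀(p)` of order prime to `p`.
-/

set_option autoImplicit false

noncomputable section

open ModularCurve

namespace Fermat.Agent.Mazur

open Fermat.Agent.FlatTangent

/-- Inertia at a prime exactly dividing the level, for an equal level. -/
theorem inertia_sub_sq_of_level_eq {M q N : ℕ} [NeZero M] [NeZero q] [NeZero N] (hN : M * q = N)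
    (hq : q.Prime) (hqM : ¬ q ∣ M) {A : ValuationSubring Qb} (hA : A.LiesOverPrime q) {σ : Gal}
    (hσ : σ ∈ A.inertiaSubgroupIn ℚ) {n : ℕ} (hn : ¬ q ∣ n) {z : JZero N} (hz : n • z = 0) :
    σ • (σ • z - z) = σ • z - z := by
  subst hN
  exact BAD.Modular.inertia_jZero hq hqM hA hσ hn hz

/-- Inertia at `p` is unipotent of level two on the `ℓ`-power torsion of `J₀(p)`, `ℓ ≠ p`. -/
theorem inertP_sub_sq (p : Nat.Primes) [NeZero (p : ℕ)] {ℓ : ℕ} (hℓ : ℓ.Prime) (hℓp : ℓ ≠ p)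
    {R : ℕ} {x : JZero (p : ℕ)} (hx : ℓ ^ R • x = 0) {σ : Gal} (hσ : σ ∈ Descent.inertP p) :
    σ • (σ • x - x) = σ • x - x := by
  haveI : Fact (p : ℕ).Prime := ⟨p.2⟩
  refine inertia_sub_sq_of_level_eq (M := 1) (one_mul _) p.2 p.2.not_dvd_one
    (plc_liesOverPrime (p : ℕ)) hσ (fun h => ?_) hx
  exact hℓp ((Nat.prime_dvd_prime_iff_eq p.2 hℓ).mp (p.2.dvd_of_dvd_pow h)).symm

end Fermat.Agent.Mazur
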