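import Fermat.Agent.Mazur.Component.Tate
import Fermat.Agent.Mazur.Descent.Concrete
import Fermat.Agent.GAL.Cyclo
import Fermat.Agent.GAL.Interface
import Fermat.Agent.Mazur.Defs

/-!
# A component of the `ℓ`-adic Tate module of `J₀(N)`

A plane `W` over a field `K` receiving the Hecke algebra, with a Galois action of cyclotomic
determinant and Eisenstein reduction, and a lattice of `W` inside the Tate module; the operators
`e R` map `J₀(N)[ℓ^R]` into the image of the lattice.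
-/

set_option autoImplicit false
set_option linter.style.haveILetI false

noncomputable section

open ModularCurve
open scoped Matrix

namespace Fermat.Agent.Mazur

open Fermat.Agent.FlatTangent

/-- A component of the Tate module of `J₀(N)` at `ℓ` with Eisenstein reduction. -/
structure Component (N : ℕ) [NeZero N] (ℓ : ℕ) [Fact ℓ.Prime] where
  /-- The coefficient field. -/
  K : Type
  /-- The plane. -/
  W : Type
  [field : Field K]
  [charZeroK : CharZero K]
  [algebraK : Algebra ℤ_[ℓ] K]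
  [addCommGroupW : AddCommGroup W]
  [moduleW : Module K W]
  [moduleZW : Module ℤ_[ℓ] W]
  [tower : IsScalarTower ℤ_[ℓ] K W]
  [algebraQK : Algebra ℚ_[ℓ] K]
  [towerK : IsScalarTower ℤ_[ℓ] ℚ_[ℓ] K]
  [finiteK : FiniteDimensional ℚ_[ℓ] K]
  [moduleQW : Module ℚ_[ℓ] W]
  [towerQW : IsScalarTower ℚ_[ℓ] K W]
  [towerZQ : IsScalarTower ℤ_[ℓ] ℚ_[ℓ] W]
  finrank_two : Module.finrank K W = 2
  /-- The Hecke character. -/
  charT : GAL.HeckeT N →+* K
  /-- The Galois action. -/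
  rep : Gal →* Module.End K W
  /-- The lattice. -/
  lat : Submodule ℤ_[ℓ] W
  /-- The lattice inside the Tate module. -/
  coord : lat →ₗ[ℤ_[ℓ]] (Fin (MF.ParHom.parRank N) → ℤ_[ℓ])
  coord_injective : Function.Injective coord
  exists_pow_smul_mem : ∀ w : W, ∃ n : ℕ, (ℓ : K) ^ n • w ∈ lat
  rep_mem : ∀ g, ∀ v ∈ lat, rep g v ∈ lat
  hecke_mem : ∀ t : HeckeAlg, ∀ v ∈ lat, charT (CuspForm.heckeEvalForms N 2 t) • v ∈ lat
  coord_rep : ∀ (g : Gal) (v : lat),
    coord ⟨rep g v, rep_mem g v v.2⟩ = Component.galMatT N ℓ g *ᵥ coord v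
  coord_hecke : ∀ (t : HeckeAlg) (v : lat),
    coord ⟨_, hecke_mem t v v.2⟩ = Component.heckeMatT N ℓ t *ᵥ coord v
  exists_eq_pow_smul : ∀ (R : ℕ) (v : lat) (u : Fin (MF.ParHom.parRank N) → ℤ_[ℓ]),
    coord v = (ℓ : ℤ_[ℓ]) ^ R • u → ∃ v' : lat, v = (ℓ : ℤ_[ℓ]) ^ R • v'
  /-- Integral approximations of a multiple of the projector. -/
  e : ℕ → HeckeAlg
  proj : ∀ (R : ℕ) (x : JZero N), ℓ ^ R • x = 0 →
    ∃ v : lat, Component.tau N ℓ R (coord v) = (letI := heckeModuleBar N; e R • x)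
  not_dvd : ∀ a : HeckeAlg, charT (CuspForm.heckeEvalForms N 2 a) ≠ 0 →
    ∃ b, ∀ R, b ≤ R → ¬ ∃ s, latticeEval N (a * e R) = ℓ ^ b • s
  det_rep : ∀ g : Gal, LinearMap.det (rep g) = algebraMap ℤ_[ℓ] K (GAL.cycQ ℓ g)
  frob : ∀ (q : ℕ) (hq : q.Prime), ¬ q ∣ N * ℓ → ∀ A : ValuationSubring Qb, A.LiesOverPrime q →
    ∀ σ : Gal, A.IsFrobeniusAt σ q → ∀ v : W,
      rep σ (rep σ v) - charT (CuspForm.heckeEvalForms N 2 (heckeGen ⟨q, hq⟩)) • rep σ v + q • v = 0
  /-- The Hecke operators span the coefficient field. -/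
  hecke_span : ∀ z : K, ∃ n : ℕ, (ℓ : K) ^ n * z ∈ Submodule.span ℤ_[ℓ] (Set.range charT)
  residual : ∃ a : ℕ, ∀ g : Gal, ∀ v ∈ lat, ∃ u ∈ lat,
    ((rep g - 1) ^ a) (((rep g - ((ExtCitation.cycloChar ℓ g : ZMod ℓ).val : Module.End K W)) ^ a) v) =
      (ℓ : ℤ_[ℓ]) • u

attribute [instance] Component.field Component.charZeroK Component.algebraK
  Component.addCommGroupW Component.moduleW Component.moduleZW Component.tower
  Component.algebraQK Component.towerK Component.finiteK Component.moduleQW Component.towerQW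
  Component.towerZQ

namespace Component

variable {N : ℕ} [NeZero N] {ℓ : ℕ} [Fact ℓ.Prime] (X : Component N ℓ)

/-- The lattice mapped to the torsion of level `ℓ^R`. -/
def pt (R : ℕ) : X.lat →+ JZero N := (tau N ℓ R).comp X.coord.toAddMonoidHom

theorem pt_apply (R : ℕ) (v : X.lat) : X.pt R v = tau N ℓ R (X.coord v) := rfl

theorem pt_eq_zero_iff (R : ℕ) (v : X.lat) :
    X.pt R v = 0 ↔ ∃ v' : X.lat, v = (ℓ : ℤ_[ℓ]) ^ R • v' := by
  rw [pt_apply, tau_eq_zero_iff]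
  refine ⟨fun ⟨u, hu⟩ => X.exists_eq_pow_smul R v u hu, fun ⟨v', hv⟩ => ⟨X.coord v', ?_⟩⟩
  rw [hv, map_smul]

theorem pow_smul_pt (R : ℕ) (v : X.lat) : ℓ ^ R • X.pt R v = 0 := pow_smul_tau R _

theorem smul_pt (R : ℕ) (g : Gal) (v : X.lat) :
    g • X.pt R v = X.pt R ⟨X.rep g v, X.rep_mem g v v.2⟩ := by
  rw [pt_apply, pt_apply, X.coord_rep, smul_tau]

theorem hecke_pt (R : ℕ) (t : HeckeAlg) (v : X.lat) :
    (letI := heckeModuleBar N; t • X.pt R v) = X.pt R ⟨_, X.hecke_mem t v v.2⟩ := by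
  rw [pt_apply, pt_apply, X.coord_hecke]
  exact Component.hecke_tau R t _

theorem nsmul_pt_succ (R : ℕ) (v : X.lat) : ℓ • X.pt (R + 1) v = X.pt R v :=
  nsmul_tau_succ R _

instance : Module.Finite ℤ_[ℓ] X.lat := Module.Finite.of_injective X.coord X.coord_injective

theorem eq_zero_of_forall_pt {v : X.lat} (h : ∀ R, X.pt R v = 0) : v = 0 := by
  refine X.coord_injective (?_ : X.coord v = X.coord 0)
  rw [map_zero]
  funext i
  refine PadicInt.ext_of_toZModPow.mp fun R => ?_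
  rw [Pi.zero_apply, map_zero]
  obtain ⟨u, hu⟩ := (tau_eq_zero_iff R (X.coord v)).mp (h R)
  rw [hu, Pi.smul_apply, smul_eq_mul, map_mul, map_pow, map_natCast, ← Nat.cast_pow,
    ZMod.natCast_self, zero_mul]

end Component

end Fermat.Agent.Mazur
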