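import Fermat.Agent.Mazur.Descent.Piece
import Fermat.Agent.FFG.OrderL.Filtration
import Fermat.Prelude.Def_ExtCitation_KummerBridge

/-!
# The connected part of a flat module with pieces `1` and `χ`

For a Galois module with a model over `ℤ_(l)`, `l` odd, whose simple pieces are trivial or
cyclotomic, the connected part is generated by the differences under inertia, and its order times
the number of points fixed by an element of character `-1` is at most the order of the module.
-/

set_option autoImplicit false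

noncomputable section

namespace Fermat.Agent.Mazur

open Fermat.Agent.Galois (Qbar GalQ)
open Fermat.Agent.FFG.OrderL (IsModelAt connPart)

section Moved

variable {Γ : Type*} [Group Γ] {M Y : Type} [AddCommGroup M] [AddCommGroup Y]

/-- The subgroup generated by the differences `ρ σ y - y`, `σ ∈ I`, `y ∈ N`. -/
def moved (ρ : Γ →* AddMonoid.End M) (I : Subgroup Γ) (N : AddSubgroup M) : AddSubgroup M :=
  AddSubgroup.closure {z | ∃ σ ∈ I, ∃ y ∈ N, ρ σ y - y = z}

theorem sub_mem_moved {ρ : Γ →* AddMonoid.End M} {I : Subgroup Γ} {N : AddSubgroup M} {σ : Γ}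
    (hσ : σ ∈ I) {y : M} (hy : y ∈ N) : ρ σ y - y ∈ moved ρ I N :=
  AddSubgroup.subset_closure ⟨σ, hσ, y, hy, rfl⟩

theorem map_moved {ρ : Γ →* AddMonoid.End M} {ρ' : Γ →* AddMonoid.End Y} (I : Subgroup Γ)
    (N : AddSubgroup M) (π : M →+ Y) (hπ : ∀ g m, π (ρ g m) = ρ' g (π m)) :
    (moved ρ I N).map π = moved ρ' I (N.map π) := by
  rw [moved, moved, AddMonoidHom.map_closure]
  congr 1
  ext z
  constructor
  · rintro ⟨_, ⟨σ, hσ, y, hy, rfl⟩, rfl⟩
    exact ⟨σ, hσ, π y, ⟨y, hy, rfl⟩, by rw [map_sub, hπ]⟩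
  · rintro ⟨σ, hσ, _, ⟨y, hy, rfl⟩, rfl⟩
    exact ⟨_, ⟨σ, hσ, y, hy, rfl⟩, by rw [map_sub, hπ]⟩

end Moved

variable {l : ℕ} [Fact l.Prime] {A : ValuationSubring Qbar} {M : Type} [AddCommGroup M]
  {B : Subalgebra (GaloisRep.ratLocalizedAt l) (M → Qbar)} {ρ : GalQ →* AddMonoid.End M}

theorem moved_le_connPart (hA : A.LiesOverPrime l) (hB : IsModelAt l (fun σ m => ρ σ m) B)
    (N : AddSubgroup M) : moved ρ (A.inertiaSubgroupIn ℚ) N ≤ connPart hA hB :=
  (AddSubgroup.closure_le _).2 fun _ ⟨_, hσ, y, _, e⟩ =>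
    e ▸ FFG.OrderL.act_sub_mem_connPart hA hB hσ y

omit [Fact l.Prime] in
theorem piece_nsmul {X : AddSubgroup M} (hcard : Nat.card X = l) {x : M} (hx : x ∈ X) :
    l • x = 0 := by
  have h : l • (⟨x, hx⟩ : X) = 0 := by rw [← hcard]; exact card_nsmul_eq_zero'
  exact congrArg Subtype.val h

/-- A cyclotomic piece is moved by inertia. -/
theorem piece_le_moved (hA : A.LiesOverPrime l) (hl2 : l ≠ 2) {X : AddSubgroup M}
    (hcard : Nat.card X = l)
    (hcyc : ∀ g, ∀ x ∈ X, ρ g x = (ExtCitation.cycloChar l g : ZMod l).val • x) :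
    X ≤ moved ρ (A.inertiaSubgroupIn ℚ) ⊤ := by
  intro x hx
  obtain ⟨σ, hσ, hne⟩ := FFG.OrderL.exists_inertia_cycloExp_ne_one hA hl2
  set c := ExtCitation.cycloExp l σ
  have h1 : ((c : ℤ) - 1) • x ∈ moved ρ (A.inertiaSubgroupIn ℚ) ⊤ := by
    have h := sub_mem_moved (ρ := ρ) hσ (AddSubgroup.mem_top x)
    rw [hcyc σ x hx, ExtCitation.val_cycloChar] at h
    rwa [sub_smul, one_smul, natCast_zsmul]
  have hcop : IsCoprime ((c : ℤ) - 1) (l : ℤ) := by
    rw [isCoprime_comm, (Nat.prime_iff_prime_int.mp Fact.out).coprime_iff_not_dvd]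
    intro hd
    rw [← ZMod.intCast_zmod_eq_zero_iff_dvd] at hd
    push_cast at hd
    exact hne (sub_eq_zero.mp hd)
  obtain ⟨a, b, hab⟩ := hcop
  have hx' : x = a • (((c : ℤ) - 1) • x) + b • ((l : ℤ) • x) := by
    rw [smul_smul, smul_smul, ← add_smul, hab, one_smul]
  rw [hx', natCast_zsmul, piece_nsmul hcard hx, smul_zero, add_zero]
  exact AddSubgroup.zsmul_mem _ h1 a

/-- An element of character `-1` fixes nothing in a cyclotomic piece. -/
theorem piece_inf_fixOne (hl2 : l ≠ 2) {X : AddSubgroup M} (hcard : Nat.card X = l)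
    (hcyc : ∀ g, ∀ x ∈ X, ρ g x = (ExtCitation.cycloChar l g : ZMod l).val • x) {c₀ : GalQ}
    (hc₀ : (ExtCitation.cycloChar l c₀ : ZMod l) = -1) :
    Descent.fixOne ρ c₀ ⊓ X = ⊥ := by
  rw [AddSubgroup.eq_bot_iff_forall]
  rintro x ⟨hfix, hx⟩
  have hlp : l.Prime := Fact.out
  obtain ⟨k, rfl⟩ : ∃ k, l = k + 1 := ⟨l - 1, (Nat.sub_add_cancel hlp.one_le).symm⟩
  have hk : k • x = x := by
    have h := hcyc c₀ x hx
    rwa [hc₀, ZMod.val_neg_one, show ρ c₀ x = x from hfix, eq_comm] at h
  have h2 : 2 • x = 0 := by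
    have h := piece_nsmul hcard hx
    rwa [add_nsmul, hk, one_nsmul, ← two_nsmul] at h
  have hd : addOrderOf x ∣ Nat.gcd 2 (k + 1) :=
    Nat.dvd_gcd (addOrderOf_dvd_iff_nsmul_eq_zero.mpr h2)
      (addOrderOf_dvd_iff_nsmul_eq_zero.mpr (piece_nsmul hcard hx))
  rw [(Nat.coprime_primes Nat.prime_two hlp).mpr (Ne.symm hl2), Nat.dvd_one,
    AddMonoid.addOrderOf_eq_one_iff] at hd
  exact hd

/-- A trivial piece does not meet the connected part. -/
theorem connPart_inf_piece (hA : A.LiesOverPrime l) (hl2 : l ≠ 2)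
    (hB : IsModelAt l (fun σ m => ρ σ m) B) {X : AddSubgroup M} (hX : Descent.IsStable ρ X)
    (hcard : Nat.card X = l) (htriv : ∀ g, ∀ x ∈ X, ρ g x = x) :
    connPart hA hB ⊓ X = ⊥ := by
  have h := FFG.OrderL.connPart_inf_eq_of_trivial (S := ⊥) (T := X) hA hl2 hB
    (fun σ x hx => by rw [AddSubgroup.mem_bot] at hx ⊢; subst hx; exact map_zero (ρ σ))
    hX bot_le (by simp [hcard])
    (fun σ _ x hx => by rw [AddSubgroup.mem_bot]; exact sub_eq_zero.mpr (htriv σ x hx))
  rwa [inf_bot_eq] at h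

omit [Fact l.Prime] in
theorem card_quot_piece {X : AddSubgroup M} (hcard : Nat.card X = l) :
    Nat.card M = l * Nat.card (M ⧸ X) := by
  rw [AddSubgroup.card_eq_card_quotient_mul_card_addSubgroup X, hcard, mul_comm]

omit B ρ in
/-- Dévissage along pieces of order `l`. -/
theorem connPart_le_moved_aux (hA : A.LiesOverPrime l) (hl2 : l ≠ 2) {c₀ : GalQ}
    :
    ∀ (n : ℕ) {M : Type} [AddCommGroup M]
      {B : Subalgebra (GaloisRep.ratLocalizedAt l) (M → Qbar)} {ρ : GalQ →* AddMonoid.End M}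
      (hB : IsModelAt l (fun σ m => ρ σ m) B), Nat.card M = n →
      Descent.Eig (ExtCitation.cycloChar l) ρ →
        connPart hA hB ≤ moved ρ (A.inertiaSubgroupIn ℚ) ⊤ ∧
        ((ExtCitation.cycloChar l c₀ : ZMod l) = -1 →
          Nat.card (connPart hA hB) * Nat.card (Descent.fixOne ρ c₀) ≤ Nat.card M) := by
  intro n
  induction n using Nat.strong_induction_on with
  | _ n ih =>
    intro M _ B ρ hB hn hE
    have := hB.finite_source
    rcases subsingleton_or_nontrivial M with hs | hs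
    · refine ⟨fun x _ => by rw [Subsingleton.elim x 0]; exact zero_mem _, fun _ => ?_⟩
      have h1 := AddSubgroup.card_le_card_addGroup (connPart hA hB)
      have h2 := AddSubgroup.card_le_card_addGroup (Descent.fixOne ρ c₀)
      have hM : Nat.card M = 1 := Nat.card_unique
      rw [hM] at h1 h2 ⊢
      exact Nat.mul_le_mul h1 h2
    obtain ⟨X, hX, hcard, hdich⟩ := Descent.exists_piece (ExtCitation.cycloChar l) ρ hE
    set π := QuotientAddGroup.mk' X
    set ρ' := Descent.quotRep ρ X hX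
    have hB' : IsModelAt l (fun σ y => ρ' σ y)
        (B.comap (FFG.pull (GaloisRep.ratLocalizedAt l) Qbar π)) :=
      hB.comap_of_surjective (actQ := fun σ y => ρ' σ y) π (QuotientAddGroup.mk'_surjective X)
        fun σ x => rfl
    have hMX := card_quot_piece hcard
    have hlt : Nat.card (M ⧸ X) < n := by
      rw [← hn, hMX]
      exact lt_mul_left Nat.card_pos (Fact.out : l.Prime).one_lt
    obtain ⟨hle', hcard'⟩ := ih _ hlt hB' rfl (Descent.eig_quotRep hE X hX)
    set C := connPart hA hB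
    have hCmap : C.map π ≤ connPart hA hB' := FFG.OrderL.map_connPart_le hA hB π hB'
    constructor
    · intro z hz
      have hz' : π z ∈ moved ρ' (A.inertiaSubgroupIn ℚ) ⊤ := hle' (hCmap ⟨z, hz, rfl⟩)
      rw [← AddSubgroup.map_top_of_surjective π (QuotientAddGroup.mk'_surjective X),
        ← map_moved (ρ := ρ) _ _ π (fun _ _ => rfl)] at hz'
      obtain ⟨u, hu, huz⟩ := hz'
      have hX' : z - u ∈ X := by
        rw [← QuotientAddGroup.eq_zero_iff]
        show π (z - u) = 0
        rw [map_sub, huz, sub_self]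
      rcases hdich with htriv | hcyc
      · have hzu : z - u ∈ C ⊓ X := ⟨C.sub_mem hz (moved_le_connPart hA hB ⊤ hu), hX'⟩
        rw [connPart_inf_piece hA hl2 hB hX hcard htriv, AddSubgroup.mem_bot, sub_eq_zero] at hzu
        exact hzu ▸ hu
      · rw [← sub_add_cancel z u]
        exact add_mem (piece_le_moved hA hl2 hcard hcyc hX') hu
    · intro hc
      have e1 := Descent.card_inf_ker_mul_card_map π C
      have e2 := Descent.card_inf_ker_mul_card_map π (Descent.fixOne ρ c₀)
      rw [QuotientAddGroup.ker_mk'] at e1 e2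
      have hfix : (Descent.fixOne ρ c₀).map π ≤ Descent.fixOne ρ' c₀ := by
        rintro _ ⟨x, hx, rfl⟩
        show ρ' c₀ (π x) = π x
        exact congrArg π hx
      have hpiece : Nat.card ↥(C ⊓ X) * Nat.card ↥(Descent.fixOne ρ c₀ ⊓ X) ≤ l := by
        rcases hdich with htriv | hcyc
        · rw [connPart_inf_piece hA hl2 hB hX hcard htriv, AddSubgroup.card_bot, one_mul]
          exact (AddSubgroup.card_le_of_le inf_le_right).trans hcard.le
        · rw [piece_inf_fixOne hl2 hcard hcyc hc, AddSubgroup.card_bot, mul_one]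
          exact (AddSubgroup.card_le_of_le inf_le_right).trans hcard.le
      calc Nat.card C * Nat.card (Descent.fixOne ρ c₀)
          = (Nat.card ↥(C ⊓ X) * Nat.card ↥(Descent.fixOne ρ c₀ ⊓ X)) *
              (Nat.card ↥(C.map π) * Nat.card ↥((Descent.fixOne ρ c₀).map π)) := by
            rw [← e1, ← e2]; ring
        _ ≤ l * (Nat.card (connPart hA hB') * Nat.card (Descent.fixOne ρ' c₀)) :=
            Nat.mul_le_mul hpiece (Nat.mul_le_mul (AddSubgroup.card_le_of_le hCmap)
              (AddSubgroup.card_le_of_le hfix))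
        _ ≤ l * Nat.card (M ⧸ X) := Nat.mul_le_mul_left l (hcard' hc)
        _ = Nat.card M := hMX.symm

/-- The connected part is generated by the differences under inertia. -/
theorem connPart_eq_moved (hA : A.LiesOverPrime l) (hl2 : l ≠ 2)
    (hB : IsModelAt l (fun σ m => ρ σ m) B)
    (hE : Descent.Eig (ExtCitation.cycloChar l) ρ) :
    connPart hA hB = moved ρ (A.inertiaSubgroupIn ℚ) ⊤ :=
  le_antisymm (connPart_le_moved_aux hA hl2 (c₀ := 1) _ hB rfl hE).1
    (moved_le_connPart hA hB ⊤)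

/-- The connected part and the fixed points of an element of character `-1`. -/
theorem card_connPart_mul_fixOne_le (hA : A.LiesOverPrime l) (hl2 : l ≠ 2)
    (hB : IsModelAt l (fun σ m => ρ σ m) B)
    (hE : Descent.Eig (ExtCitation.cycloChar l) ρ) {c₀ : GalQ}
    (hc₀ : (ExtCitation.cycloChar l c₀ : ZMod l) = -1) :
    Nat.card (connPart hA hB) * Nat.card (Descent.fixOne ρ c₀) ≤ Nat.card M :=
  (connPart_le_moved_aux hA hl2 _ hB rfl hE).2 hc₀

end Fermat.Agent.Mazur
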