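import Fermat.Agent.HK.DualFree
import Mathlib.RingTheory.Artinian.Module
import Mathlib.Algebra.Module.Torsion.Basic

/-!
# The part of a module with dual basis cut out by a maximal ideal

If the `k`-dual of `V` is free of rank two over a reduced finite `k`-algebra `A`, then the part of
`V` killed by a maximal ideal `m` is a plane over `A ⧸ m`, and `V` is the sum of these parts, cut out
by idempotents.
-/

set_option autoImplicit false

noncomputable section

namespace Fermat.Agent.Mazur.Component

variable {k A V : Type} [Field k] [CommRing A] [Algebra k A]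
  [AddCommGroup V] [Module k V] [Module A V] [IsScalarTower k A V]
  (m : Ideal A)

/-- The part of `V` killed by `m`. -/
abbrev Part (V : Type) [AddCommGroup V] [Module A V] : Type :=
  ↥(Submodule.torsionBySet A V (m : Set A))

variable {m}

theorem smul_eq_zero_of_mem {a : A} (ha : a ∈ m) (x : Part m V) : a • (x : V) = 0 :=
  (Submodule.mem_torsionBySet_iff _ _).mp x.2 ⟨a, ha⟩

theorem mk_smul (a : A) (x : Part m V) : ((Ideal.Quotient.mk m a • x : Part m V) : V) = a • (x : V) :=
  rfl

variable (l : Fin 2 → Module.Dual k V)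

/-- The functionals on the quotient attached to a point of the part. -/
def partEval : Part m V →ₗ[k] Fin 2 → Module.Dual k (A ⧸ m) where
  toFun x i := (m.restrictScalars k).liftQ (HK.dualEval k A l (x : V) i) (fun a ha => by
      rw [LinearMap.mem_ker, HK.dualEval_apply, smul_eq_zero_of_mem ha, map_zero]) ∘ₗ
    (Submodule.Quotient.restrictScalarsEquiv k m).symm.toLinearMap
  map_add' x y := by
    funext i
    refine LinearMap.ext fun z => ?_
    obtain ⟨a, rfl⟩ := Ideal.Quotient.mk_surjective z
    show l i (a • ((x : V) + (y : V))) = l i (a • (x : V)) + l i (a • (y : V))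
    rw [smul_add, map_add]
  map_smul' c x := by
    funext i
    refine LinearMap.ext fun z => ?_
    obtain ⟨a, rfl⟩ := Ideal.Quotient.mk_surjective z
    show l i (a • (c • (x : V))) = c • l i (a • (x : V))
    rw [smul_comm, map_smul]

theorem partEval_mk (x : Part m V) (i : Fin 2) (a : A) :
    partEval l x i (Ideal.Quotient.mk m a) = l i (a • (x : V)) := rfl

variable {l} (hl : HK.IsDualBasis k A l)

include hl

theorem partEval_bijective : Function.Bijective (partEval (m := m) l) := by
  refine ⟨fun x y h => Subtype.ext (hl.1 ?_), fun ψ => ?_⟩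
  · refine funext fun i => LinearMap.ext fun a => ?_
    exact LinearMap.congr_fun (congrFun h i) (Ideal.Quotient.mk m a)
  · obtain ⟨x, hx⟩ := hl.2 fun i => (ψ i).comp (Ideal.Quotient.mkₐ k m).toLinearMap
    have h : ∀ i a, l i (a • x) = ψ i (Ideal.Quotient.mk m a) := fun i a =>
      LinearMap.congr_fun (congrFun hx i) a
    refine ⟨⟨x, (Submodule.mem_torsionBySet_iff _ _).mpr fun b => hl.1 ?_⟩, ?_⟩
    · rw [map_zero]
      refine funext fun i => LinearMap.ext fun a => ?_
      rw [HK.dualEval_apply, smul_smul, h, map_mul, Ideal.Quotient.eq_zero_iff_mem.mpr b.2,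
        mul_zero, map_zero, Pi.zero_apply, LinearMap.zero_apply]
    · refine funext fun i => LinearMap.ext fun z => ?_
      obtain ⟨a, rfl⟩ := Ideal.Quotient.mk_surjective z
      rw [partEval_mk, h]

theorem exists_part_apply [hm : m.IsMaximal] (i : Fin 2) :
    ∃ x : Part m V, l i (x : V) ≠ 0 := by
  haveI : Nontrivial (A ⧸ m) := Ideal.Quotient.nontrivial_iff.mpr hm.ne_top
  obtain ⟨φ, hφ⟩ := LinearMap.exists_extend_of_notMem (K := k) (p := (⊥ : Submodule k (A ⧸ m)))
    (0 : (⊥ : Submodule k (A ⧸ m)) →ₗ[k] k) (v := 1) (by simp) 1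
  obtain ⟨x, hx⟩ := (partEval_bijective hl).2 (Pi.single i φ)
  refine ⟨x, fun h0 => one_ne_zero (α := k) ?_⟩
  have := partEval_mk l x i (1 : A)
  rw [hx, Pi.single_eq_same, one_smul, h0, map_one, hφ.2] at this
  exact this

/-- The part cut out by a maximal ideal is a plane. -/
theorem finrank_part [Module.Finite k A] [hm : m.IsMaximal] :
    letI := Ideal.Quotient.field m
    Module.finrank (A ⧸ m) (Part m V) = 2 := by
  letI := Ideal.Quotient.field m
  haveI : Module.Finite k (A ⧸ m) :=
    Module.Finite.of_surjective (Ideal.Quotient.mkₐ k m).toLinearMap Ideal.Quotient.mk_surjective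
  let e := LinearEquiv.ofBijective _ (partEval_bijective (m := m) hl)
  haveI : Module.Finite k (Part m V) := Module.Finite.equiv e.symm
  haveI : IsScalarTower k (A ⧸ m) (Part m V) := ⟨fun c z x => by
    obtain ⟨a, rfl⟩ := Ideal.Quotient.mk_surjective z
    rw [← Ideal.Quotient.mkₐ_eq_mk k, ← map_smul]
    refine Subtype.ext ?_
    show (c • a) • (x : V) = c • (a • (x : V))
    rw [smul_assoc]⟩
  have h := Module.finrank_mul_finrank k (A ⧸ m) (Part m V)
  rw [e.finrank_eq, Module.finrank_pi_fintype, Fin.sum_univ_two, Subspace.dual_finrank_eq] at h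
  have hpos : 0 < Module.finrank k (A ⧸ m) := Module.finrank_pos
  exact Nat.eq_of_mul_eq_mul_left hpos (by omega)

omit hl

variable (A) in
/-- The idempotents cutting out the maximal ideals. -/
theorem exists_idempotents [IsArtinianRing A] [IsReduced A] [Fintype (MaximalSpectrum A)] :
    ∃ e : MaximalSpectrum A → A, (∑ I, e I = 1) ∧
      (∀ I, e I - 1 ∈ I.asIdeal) ∧ ∀ I : MaximalSpectrum A, ∀ a ∈ I.asIdeal, a * e I = 0 := by
  classical
  set f := IsArtinianRing.equivPi A
  refine ⟨fun I => f.symm (Pi.single I 1), f.injective ?_, fun I => ?_, fun I a ha => f.injective ?_⟩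
  · rw [map_sum, map_one]
    simp only [AlgEquiv.apply_symm_apply]
    exact Finset.univ_sum_single _
  · rw [← Ideal.Quotient.eq_zero_iff_mem, map_sub, map_one, sub_eq_zero]
    have := IsArtinianRing.equivPi_apply A (f.symm (Pi.single I 1)) I
    rw [AlgEquiv.apply_symm_apply, Pi.single_eq_same] at this
    exact this.symm
  · rw [map_mul, map_zero, AlgEquiv.apply_symm_apply]
    funext J
    rcases eq_or_ne J I with rfl | hne
    · rw [Pi.mul_apply, IsArtinianRing.equivPi_apply, Ideal.Quotient.eq_zero_iff_mem.mpr ha, zero_mul]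
      rfl
    · rw [Pi.mul_apply, Pi.single_eq_of_ne hne, mul_zero]
      rfl

theorem idem_smul_mem {I : MaximalSpectrum A} {e : A} (he : ∀ a ∈ I.asIdeal, a * e = 0) (x : V) :
    e • x ∈ Submodule.torsionBySet A V (I.asIdeal : Set A) :=
  (Submodule.mem_torsionBySet_iff _ _).mpr fun b => by rw [smul_smul, he b b.2, zero_smul]

end Fermat.Agent.Mazur.Component
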