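import Fermat.Agent.HK.TateFinal
import Fermat.Agent.HK.TateRepOfCoords

/-!
# The torsion points as quotients of the Tate module

`tau R : ℤ_ℓ^m → J₀(N)[ℓ^R]`, surjective with kernel `ℓ^R`, compatible with the integral matrices
of Galois and of the Hecke operators.
-/

set_option autoImplicit false
set_option linter.style.haveILetI false

noncomputable section

open ModularCurve
open scoped Matrix

namespace Fermat.Agent.Mazur.Component

variable (N : ℕ) [NeZero N] (ℓ : ℕ) [Fact ℓ.Prime]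

/-- The Galois matrices on the Tate module of `J₀(N)`. -/
def galMatT : (AlgebraicClosure ℚ ≃ₐ[ℚ] AlgebraicClosure ℚ) →*
    Matrix (Fin (MF.ParHom.parRank N)) (Fin (MF.ParHom.parRank N)) ℤ_[ℓ] :=
  (HK.tateCoords N ℓ).tateMat

/-- The Hecke matrices on the Tate module of `J₀(N)`. -/
def heckeMatT : HeckeAlg →+*
    Matrix (Fin (MF.ParHom.parRank N)) (Fin (MF.ParHom.parRank N)) ℤ_[ℓ] :=
  (HK.castMat N ℤ_[ℓ]).comp ((HK.heckeRep N).comp (CuspForm.heckeEvalForms N 2))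

/-- The reduction `ℤ_ℓ^m → J₀(N)[ℓ^R]`. -/
def tau (R : ℕ) : (Fin (MF.ParHom.parRank N) → ℤ_[ℓ]) →+ JZero N :=
  (HK.jTor N ℓ R).subtype.comp (((HK.tateCoords N ℓ).e R).symm.toAddMonoidHom.comp
    ((PadicInt.toZModPow R).toAddMonoidHom.compLeft (Fin (MF.ParHom.parRank N))))

variable {N ℓ}

local notation "MR" => Fin (MF.ParHom.parRank N)

theorem coe_e_symm (R : ℕ) (v : MR → ℤ_[ℓ]) :
    (((HK.tateCoords N ℓ).e R).symm (PadicInt.toZModPow R ∘ v) : JZero N) = tau N ℓ R v := rfl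

theorem pow_smul_tau (R : ℕ) (v : MR → ℤ_[ℓ]) : ℓ ^ R • tau N ℓ R v = 0 :=
  (HK.mem_jTor N ℓ).mp (((HK.tateCoords N ℓ).e R).symm (PadicInt.toZModPow R ∘ v)).2

theorem exists_tau_eq (R : ℕ) {x : JZero N} (hx : ℓ ^ R • x = 0) :
    ∃ v, tau N ℓ R v = x := by
  obtain ⟨v, hv⟩ := (ZMod.ringHom_surjective (PadicInt.toZModPow (p := ℓ) R)).comp_left
    ((HK.tateCoords N ℓ).e R ⟨x, hx⟩)
  refine ⟨v, ?_⟩
  rw [← coe_e_symm, show ⇑(PadicInt.toZModPow R) ∘ v = (HK.tateCoords N ℓ).e R ⟨x, hx⟩ from hv,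
    AddEquiv.symm_apply_apply]

theorem tau_eq_zero_iff (R : ℕ) (v : MR → ℤ_[ℓ]) :
    tau N ℓ R v = 0 ↔ ∃ u, v = (ℓ : ℤ_[ℓ]) ^ R • u := by
  rw [← coe_e_symm, ← ZeroMemClass.coe_zero (HK.jTor N ℓ R), Subtype.coe_inj,
    AddEquiv.map_eq_zero_iff]
  constructor
  · intro h
    have h' : ∀ i, (ℓ : ℤ_[ℓ]) ^ R ∣ v i := fun i => by
      rw [← Ideal.mem_span_singleton, ← PadicInt.ker_toZModPow, RingHom.mem_ker]
      exact congrFun h i
    choose u hu using h'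
    exact ⟨u, funext hu⟩
  · rintro ⟨u, rfl⟩
    funext i
    simp only [Function.comp_apply, Pi.smul_apply, smul_eq_mul, map_mul, map_pow, map_natCast,
      Pi.zero_apply]
    rw [← Nat.cast_pow, ZMod.natCast_self, zero_mul]

theorem smul_tau (R : ℕ) (g : AlgebraicClosure ℚ ≃ₐ[ℚ] AlgebraicClosure ℚ) (v : MR → ℤ_[ℓ]) :
    g • tau N ℓ R v = tau N ℓ R (galMatT N ℓ g *ᵥ v) := by
  set D := HK.tateCoords N ℓ
  have h := D.galMat_mulVec R g ((D.e R).symm (PadicInt.toZModPow R ∘ v))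
  rw [AddEquiv.apply_symm_apply] at h
  have hv : ⇑(PadicInt.toZModPow R) ∘ (galMatT N ℓ g *ᵥ v) =
      D.galMat R g *ᵥ (⇑(PadicInt.toZModPow R) ∘ v) := by
    funext i
    rw [Function.comp_apply, RingHom.map_mulVec, ← D.tateMat_mod R g]
    rfl
  rw [← coe_e_symm, ← coe_e_symm, hv, h, AddEquiv.symm_apply_apply]

theorem hecke_tau (R : ℕ) (t : HeckeAlg) (v : MR → ℤ_[ℓ]) :
    (letI := heckeModuleBar N; t • tau N ℓ R v) = tau N ℓ R (heckeMatT N ℓ t *ᵥ v) := by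
  letI := heckeModuleBar N
  set D := HK.tateCoords N ℓ
  have hc := HK.Corr.heckeOperatorsCommuteBar N
  have h := D.e_heckeEvalBar hc t R ((D.e R).symm (PadicInt.toZModPow R ∘ v))
  rw [AddEquiv.apply_symm_apply, ← AddEquiv.eq_symm_apply] at h
  have hv : ⇑(PadicInt.toZModPow R) ∘ (heckeMatT N ℓ t *ᵥ v) =
      (HK.heckeRep N (CuspForm.heckeEvalForms N 2 t)).map (Int.castRingHom (ZMod (ℓ ^ R))) *ᵥ
        (⇑(PadicInt.toZModPow R) ∘ v) := by
    funext i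
    rw [Function.comp_apply, RingHom.map_mulVec,
      ← HK.TorsionCoords.matMod_cast (p := ℓ) R]
    rfl
  rw [← coe_e_symm, ← coe_e_symm, hv, ← h, heckeModuleBar_smul_def hc]

theorem nsmul_tau_succ (R : ℕ) (v : MR → ℤ_[ℓ]) : ℓ • tau N ℓ (R + 1) v = tau N ℓ R v := by
  set D := HK.tateCoords N ℓ
  have h := D.red R ((D.e (R + 1)).symm (PadicInt.toZModPow (R + 1) ∘ v))
    ⟨_, HK.TorsionCoords.mem_jTor_pred _⟩ rfl
  rw [AddEquiv.apply_symm_apply, ← AddEquiv.eq_symm_apply] at h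
  have hv : ⇑(ZMod.castHom (pow_dvd_pow ℓ R.le_succ) (ZMod (ℓ ^ R))) ∘
      (⇑(PadicInt.toZModPow (R + 1)) ∘ v) = ⇑(PadicInt.toZModPow R) ∘ v := by
    funext i
    simp only [Function.comp_apply]
    rw [← PadicInt.zmod_cast_comp_toZModPow R (R + 1) R.le_succ]
    rfl
  rw [hv] at h
  rw [← coe_e_symm, ← coe_e_symm, ← h]

variable (N ℓ) in
/-- Deep enough in the Galois group, the matrices are congruent to `1`. -/
theorem exists_level (n : ℕ) : ∃ L : IntermediateField ℚ (AlgebraicClosure ℚ),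
    FiniteDimensional ℚ L ∧ ∀ g : AlgebraicClosure ℚ ≃ₐ[ℚ] AlgebraicClosure ℚ, (∀ x ∈ L, g x = x) →
      ∀ v : MR → ℤ_[ℓ], ∃ u, galMatT N ℓ g *ᵥ v - v = (ℓ : ℤ_[ℓ]) ^ n • u := by
  obtain ⟨L, hL, h⟩ := HK.torsionFiniteLevel N ℓ n
  refine ⟨L, hL, fun g hg v => (tau_eq_zero_iff n _).mp ?_⟩
  rw [map_sub, ← smul_tau, h g hg _ (pow_smul_tau n v), sub_self]

/-- A quadratic identity on the torsion holds for the matrices. -/
theorem galMatT_quad {g : AlgebraicClosure ℚ ≃ₐ[ℚ] AlgebraicClosure ℚ} {q : ℕ} (hq : q.Prime)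
    (h : ∀ x : JZero N, (∃ n : ℕ, ℓ ^ n • x = 0) →
      g • g • x - heckeOperatorBar N ⟨q, hq⟩ (g • x) + q • x = 0) (v : MR → ℤ_[ℓ]) :
    galMatT N ℓ g *ᵥ (galMatT N ℓ g *ᵥ v) -
        heckeMatT N ℓ (heckeGen ⟨q, hq⟩) *ᵥ (galMatT N ℓ g *ᵥ v) + q • v = 0 := by
  let L : Nat.Primes := ⟨q, hq⟩
  haveI : Fact (L : ℕ).Prime := ⟨hq⟩
  have e : heckeMatT N ℓ (heckeGen L) = HK.castMat N ℤ_[ℓ] (HK.heckeMatZ N L) := by
    show HK.castMat N ℤ_[ℓ] (HK.heckeRep N (CuspForm.heckeEvalForms N 2 (heckeGen L))) = _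
    rw [CuspForm.heckeEvalForms_heckeGen, HK.heckeRep_heckeFormsGen]
  have hM := congrArg (· *ᵥ v) ((HK.tateCoords N ℓ).tateMat_quad L h)
  simp only [Matrix.add_mulVec, Matrix.sub_mulVec, Matrix.zero_mulVec, Matrix.smul_mulVec,
    Matrix.one_mulVec, ← Matrix.mulVec_mulVec, Nat.cast_smul_eq_nsmul] at hM
  rw [e]
  exact hM

end Fermat.Agent.Mazur.Component
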