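import Fermat.Agent.Mazur.Component.Order
import Fermat.Agent.Mazur.Component.Split
import Fermat.Agent.Mazur.Component.Tate
import Fermat.Agent.Mazur.Descent.Concrete

/-!
# The rational Tate module, abstractly, and its planes

A module `V` with coordinates over a `ℚ_ℓ`-algebra `A` generated by the Hecke algebra, with the
Galois action and the Hecke action given by the integral matrices of the Tate module.
-/

set_option autoImplicit false
set_option linter.style.haveILetI false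

noncomputable section

open ModularCurve
open scoped TensorProduct Matrix

namespace Fermat.Agent.Mazur.Component

open GAL (HeckeT)
open Fermat.Agent.FlatTangent

/-- The rational Tate module of `J₀(N)` at `ℓ` with coordinates. -/
structure Frame (N : ℕ) [NeZero N] (ℓ : ℕ) [Fact ℓ.Prime] where
  /-- The coefficient algebra. -/
  A : Type
  /-- The module. -/
  V : Type
  [commRingA : CommRing A]
  [algebraQ : Algebra ℚ_[ℓ] A]
  [algebraZ : Algebra ℤ_[ℓ] A]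
  [towerA : IsScalarTower ℤ_[ℓ] ℚ_[ℓ] A]
  [finiteA : Module.Finite ℚ_[ℓ] A]
  [reducedA : IsReduced A]
  [addCommGroupV : AddCommGroup V]
  [moduleQ : Module ℚ_[ℓ] V]
  [moduleA : Module A V]
  [towerV : IsScalarTower ℚ_[ℓ] A V]
  /-- The Hecke algebra in `A`. -/
  toA : HeckeT N →+* A
  span : ∀ a : A, ∃ (n : ℕ) (z : ℤ_[ℓ] ⊗[ℤ] HeckeT N),
    (ℓ : A) ^ n * a = Algebra.TensorProduct.lift (Algebra.ofId ℤ_[ℓ] A) toA.toIntAlgHom
      (fun _ _ => Commute.all _ _) z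
  /-- A dual basis. -/
  l : Fin 2 → Module.Dual ℚ_[ℓ] V
  dual : HK.IsDualBasis ℚ_[ℓ] A l
  /-- The coordinates. -/
  κ : V ≃ₗ[ℚ_[ℓ]] (Fin (MF.ParHom.parRank N) → ℚ_[ℓ])
  /-- The Galois action. -/
  G : Gal →* Module.End A V
  κ_G : ∀ g x, κ (G g x) = (PadicInt.Coe.ringHom (p := ℓ)).mapMatrix (galMatT N ℓ g) *ᵥ κ x
  κ_toA : ∀ t x, κ (toA t • x) = (PadicInt.Coe.ringHom (p := ℓ)).mapMatrix
    (HK.castMat N ℤ_[ℓ] (HK.heckeRep N t)) *ᵥ κ x
  /-- A complex conjugation. -/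
  conjElt : Gal
  conj_sq : ∀ x, G conjElt (G conjElt x) = x
  conj_l : ∀ i x, l i (G conjElt x) = (if i = 0 then (-1 : ℚ_[ℓ]) else 1) * l i x

attribute [instance] Frame.commRingA Frame.algebraQ Frame.algebraZ Frame.towerA Frame.finiteA
  Frame.reducedA Frame.addCommGroupV Frame.moduleQ Frame.moduleA Frame.towerV

variable (N : ℕ) [NeZero N] (ℓ : ℕ) [hℓ : Fact ℓ.Prime]

/-- `ℤ_ℓ ⊗ T` in matrices over `ℤ_ℓ`. -/
def intMat : ℤ_[ℓ] ⊗[ℤ] HeckeT N →ₐ[ℤ_[ℓ]]
    Matrix (Fin (MF.ParHom.parRank N)) (Fin (MF.ParHom.parRank N)) ℤ_[ℓ] :=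
  Algebra.TensorProduct.lift (Algebra.ofId ℤ_[ℓ] _)
    ((HK.castMat N ℤ_[ℓ]).comp (HK.heckeRep N)).toIntAlgHom fun c _ => Algebra.commutes c _

variable {N ℓ}

local notation "MR" => Fin (MF.ParHom.parRank N)

theorem intMat_tmul (c : ℤ_[ℓ]) (t : HeckeT N) :
    intMat N ℓ (c ⊗ₜ t) = c • HK.castMat N ℤ_[ℓ] (HK.heckeRep N t) :=
  (Algebra.TensorProduct.lift_tmul (Algebra.ofId ℤ_[ℓ] _)
    ((HK.castMat N ℤ_[ℓ]).comp (HK.heckeRep N)).toIntAlgHom
    (fun c _ => Algebra.commutes c _) c t).trans (Algebra.smul_def c _).symm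

theorem coe_mulVec (M : Matrix MR MR ℤ_[ℓ]) (u : MR → ℤ_[ℓ]) :
    PadicInt.Coe.ringHom ∘ (M *ᵥ u) =
      (PadicInt.Coe.ringHom (p := ℓ)).mapMatrix M *ᵥ (PadicInt.Coe.ringHom ∘ u) :=
  funext fun i => RingHom.map_mulVec _ _ _ _

namespace Frame

variable (F : Frame N ℓ)

/-- `ℤ_ℓ ⊗ T → A`. -/
def intA : ℤ_[ℓ] ⊗[ℤ] HeckeT N →ₐ[ℤ_[ℓ]] F.A :=
  Algebra.TensorProduct.lift (Algebra.ofId ℤ_[ℓ] F.A) F.toA.toIntAlgHom fun _ _ => Commute.all _ _

theorem intA_tmul (c : ℤ_[ℓ]) (t : HeckeT N) : F.intA (c ⊗ₜ t) = c • F.toA t :=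
  (Algebra.TensorProduct.lift_tmul _ _ _ c t).trans (Algebra.smul_def c _).symm

theorem padic_smul (c : ℤ_[ℓ]) (a : F.A) : c • a = (c : ℚ_[ℓ]) • a := algebra_compatible_smul _ c a

theorem κ_intA (z : ℤ_[ℓ] ⊗[ℤ] HeckeT N) (x : F.V) :
    F.κ (F.intA z • x) = (PadicInt.Coe.ringHom (p := ℓ)).mapMatrix (intMat N ℓ z) *ᵥ F.κ x := by
  induction z using TensorProduct.induction_on with
  | zero => rw [map_zero, zero_smul, map_zero, map_zero, map_zero, Matrix.zero_mulVec]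
  | tmul c t =>
    rw [intA_tmul, intMat_tmul, padic_smul, smul_assoc, map_smul, F.κ_toA, ← Matrix.smul_mulVec]
    congr 1
  | add z z' hz hz' => simp only [map_add, add_smul, Matrix.add_mulVec, hz, hz']

variable (I : Ideal F.A)

/-- The plane of an ideal. -/
abbrev Plane : Type := Part I F.V

/-- The Hecke character of an ideal. -/
def charI : HeckeT N →+* F.A ⧸ I := (Ideal.Quotient.mk I).comp F.toA

theorem lift_charI (z : ℤ_[ℓ] ⊗[ℤ] HeckeT N) :
    Algebra.TensorProduct.lift (Algebra.ofId ℤ_[ℓ] (F.A ⧸ I)) (F.charI I).toIntAlgHom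
      (fun _ _ => Commute.all _ _) z = Ideal.Quotient.mk I (F.intA z) := by
  induction z using TensorProduct.induction_on with
  | zero => rw [map_zero, map_zero, map_zero]
  | tmul c t =>
    rw [Algebra.TensorProduct.lift_tmul, intA_tmul, Algebra.smul_def, map_mul,
      Ideal.Quotient.mk_algebraMap]
    rfl
  | add z z' hz hz' => simp only [map_add, hz, hz']

instance instModulePadicPlane : Module ℤ_[ℓ] (F.Plane I) :=
  Module.compHom (F.Plane I) (algebraMap ℤ_[ℓ] (F.A ⧸ I))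

instance instTowerPlane : IsScalarTower ℤ_[ℓ] (F.A ⧸ I) (F.Plane I) :=
  ⟨fun c z x => by
    show (c • z) • x = algebraMap ℤ_[ℓ] (F.A ⧸ I) c • (z • x)
    rw [Algebra.smul_def, mul_smul]⟩

theorem coe_padic_smul (c : ℤ_[ℓ]) (x : F.Plane I) :
    ((c • x : F.Plane I) : F.V) = (c : ℚ_[ℓ]) • (x : F.V) := by
  show (algebraMap ℤ_[ℓ] F.A c) • (x : F.V) = _
  rw [Algebra.algebraMap_eq_smul_one, padic_smul, smul_assoc, one_smul]

/-- The integral points of the plane. -/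
def latP : Submodule ℤ_[ℓ] (F.Plane I) where
  carrier := {x | ∀ i, ‖F.κ (x : F.V) i‖ ≤ 1}
  add_mem' := fun {x y} hx hy i => by
    rw [Submodule.coe_add, map_add, Pi.add_apply]
    exact (Padic.nonarchimedean _ _).trans (max_le (hx i) (hy i))
  zero_mem' := fun _ => by simp
  smul_mem' := fun c x hx i => by
    rw [coe_padic_smul, map_smul, Pi.smul_apply, norm_smul]
    exact mul_le_one₀ c.2 (norm_nonneg _) (hx i)

/-- The coordinates of an integral point. -/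
def coordP : F.latP I →ₗ[ℤ_[ℓ]] (MR → ℤ_[ℓ]) where
  toFun x i := ⟨_, x.2 i⟩
  map_add' x y := funext fun i => Subtype.ext (by
    show F.κ (((x : F.Plane I) : F.V) + (y : F.Plane I)) i = _
    rw [map_add]; rfl)
  map_smul' c x := funext fun i => Subtype.ext (by
    show F.κ ((c • (x : F.Plane I) : F.Plane I) : F.V) i = _
    rw [coe_padic_smul, map_smul]; rfl)

theorem coe_coordP (x : F.latP I) :
    PadicInt.Coe.ringHom ∘ F.coordP I x = F.κ ((x : F.Plane I) : F.V) := rfl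

theorem coordP_injective : Function.Injective (F.coordP I) := fun x y h =>
  Subtype.ext (Subtype.ext (F.κ.injective (by rw [← coe_coordP, ← coe_coordP, h])))

variable {I}

theorem mem_latP_of_coord {x : F.Plane I} {u : MR → ℤ_[ℓ]}
    (h : F.κ (x : F.V) = PadicInt.Coe.ringHom ∘ u) : x ∈ F.latP I :=
  fun i => by rw [congrFun h i]; exact (u i).2

theorem coordP_eq {x : F.Plane I} {u : MR → ℤ_[ℓ]}
    (h : F.κ (x : F.V) = PadicInt.Coe.ringHom ∘ u) :
    F.coordP I ⟨x, F.mem_latP_of_coord h⟩ = u := funext fun i => Subtype.ext (congrFun h i)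

variable (I)

/-- The Galois action on the plane. -/
def repP : Gal →* Module.End (F.A ⧸ I) (F.Plane I) where
  toFun g :=
    { toFun := fun x => ⟨F.G g x, (Submodule.mem_torsionBySet_iff _ _).mpr
        fun a => by rw [← map_smul, smul_eq_zero_of_mem a.2, map_zero]⟩
      map_add' := fun x y => Subtype.ext (map_add _ _ _)
      map_smul' := fun z x => by
        obtain ⟨a, rfl⟩ := Ideal.Quotient.mk_surjective z
        exact Subtype.ext (map_smul _ a _) }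
  map_one' := LinearMap.ext fun x => Subtype.ext (by
    show F.G 1 (x : F.V) = _
    rw [map_one]; rfl)
  map_mul' g h := LinearMap.ext fun x => Subtype.ext (by
    show F.G (g * h) (x : F.V) = _
    rw [map_mul]; rfl)

theorem coe_repP (g : Gal) (x : F.Plane I) : (F.repP I g x : F.V) = F.G g x := rfl

variable {I}

theorem κ_repP (g : Gal) (x : F.latP I) :
    F.κ (F.repP I g x : F.V) = PadicInt.Coe.ringHom ∘ (galMatT N ℓ g *ᵥ F.coordP I x) := by
  rw [coe_repP, F.κ_G, coe_mulVec, coe_coordP]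

theorem κ_mk_intA (z : ℤ_[ℓ] ⊗[ℤ] HeckeT N) (x : F.latP I) :
    F.κ ((Ideal.Quotient.mk I (F.intA z) • (x : F.Plane I) : F.Plane I) : F.V) =
      PadicInt.Coe.ringHom ∘ (intMat N ℓ z *ᵥ F.coordP I x) := by
  rw [mk_smul, κ_intA, coe_mulVec, coe_coordP]

theorem order_smul_mem {z : F.A ⧸ I} (hz : z ∈ order (ℓ := ℓ) (F.charI I)) {x : F.Plane I}
    (hx : x ∈ F.latP I) : z • x ∈ F.latP I := by
  obtain ⟨w, rfl⟩ := hz
  show Algebra.TensorProduct.lift _ _ _ w • x ∈ F.latP I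
  rw [lift_charI]
  exact F.mem_latP_of_coord (F.κ_mk_intA w ⟨x, hx⟩)

theorem charI_smul_mem (t : HeckeT N) {x : F.Plane I} (hx : x ∈ F.latP I) :
    F.charI I t • x ∈ F.latP I := F.order_smul_mem (mem_order _ t) hx

theorem repP_mem (g : Gal) {x : F.Plane I} (hx : x ∈ F.latP I) : F.repP I g x ∈ F.latP I :=
  F.mem_latP_of_coord (F.κ_repP g ⟨x, hx⟩)

theorem coordP_repP (g : Gal) (v : F.latP I) :
    F.coordP I ⟨F.repP I g v, F.repP_mem g v.2⟩ = galMatT N ℓ g *ᵥ F.coordP I v :=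
  F.coordP_eq (F.κ_repP g v)

theorem κ_charI (t : HeckeAlg) (v : F.latP I) :
    F.κ ((F.charI I (CuspForm.heckeEvalForms N 2 t) • (v : F.Plane I) : F.Plane I) : F.V) =
      PadicInt.Coe.ringHom ∘ (heckeMatT N ℓ t *ᵥ F.coordP I v) := by
  show F.κ ((Ideal.Quotient.mk I (F.toA _) • (v : F.Plane I) : F.Plane I) : F.V) = _
  rw [mk_smul, F.κ_toA, coe_mulVec, coe_coordP]
  rfl

theorem coordP_hecke (t : HeckeAlg) (v : F.latP I) :
    F.coordP I ⟨_, F.charI_smul_mem (CuspForm.heckeEvalForms N 2 t) v.2⟩ =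
      heckeMatT N ℓ t *ᵥ F.coordP I v :=
  F.coordP_eq (F.κ_charI t v)

variable (I)

theorem exists_pow_smul_mem_latP (x : F.Plane I) :
    ∃ n : ℕ, (ℓ : F.A ⧸ I) ^ n • x ∈ F.latP I := by
  have hb : ∀ i, ∃ n : ℕ, ‖F.κ (x : F.V) i‖ < (ℓ : ℝ) ^ n := fun i =>
    pow_unbounded_of_one_lt _ (by exact_mod_cast hℓ.out.one_lt)
  choose n hn using hb
  refine ⟨Finset.univ.sup n, fun i => ?_⟩
  rw [show ((ℓ : F.A ⧸ I) ^ Finset.univ.sup n) = algebraMap ℤ_[ℓ] _ ((ℓ : ℤ_[ℓ]) ^ Finset.univ.sup n)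
      by rw [map_pow, map_natCast], algebraMap_smul, coe_padic_smul, map_smul, Pi.smul_apply,
    norm_smul, PadicInt.coe_pow, PadicInt.coe_natCast, norm_pow, Padic.norm_p, inv_pow,
    inv_mul_le_one₀ (pow_pos (Nat.cast_pos.mpr hℓ.out.pos) _)]
  exact (hn i).le.trans (pow_le_pow_right₀ (by exact_mod_cast hℓ.out.one_le)
    (Finset.le_sup (Finset.mem_univ i)))

theorem exists_eq_pow_smul_latP (R : ℕ) (v : F.latP I) (u : MR → ℤ_[ℓ])
    (h : F.coordP I v = (ℓ : ℤ_[ℓ]) ^ R • u) : ∃ v' : F.latP I, v = (ℓ : ℤ_[ℓ]) ^ R • v' := by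
  have hne : ((ℓ : ℚ_[ℓ]) ^ R) ≠ 0 := pow_ne_zero _ (Nat.cast_ne_zero.mpr hℓ.out.ne_zero)
  let a : F.A := algebraMap ℚ_[ℓ] _ ((ℓ : ℚ_[ℓ]) ^ R)⁻¹
  let y : F.Plane I := Ideal.Quotient.mk I a • (v : F.Plane I)
  have hy : F.κ (y : F.V) = PadicInt.Coe.ringHom ∘ u := by
    rw [mk_smul, algebraMap_smul, map_smul, ← coe_coordP, h]
    funext i
    simp only [Pi.smul_apply, Function.comp_apply, smul_eq_mul, map_mul, map_pow, map_natCast]
    rw [← mul_assoc, inv_mul_cancel₀ hne, one_mul]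
  refine ⟨⟨y, F.mem_latP_of_coord hy⟩, F.coordP_injective I ?_⟩
  rw [map_smul, F.coordP_eq hy, h]

end Frame

end Fermat.Agent.Mazur.Component
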