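import Fermat.Agent.Eigen.Unconditional
import Fermat.Agent.Eigen.Bound

/-!
# The strict bound for the Hecke eigenvalues, as a statement about primes of the Hecke algebra
-/

set_option autoImplicit false

noncomputable section

open CongruenceSubgroup ModularFormClass

namespace Fermat.Agent.Mazur

variable {N : ℕ} [NeZero N]

/-- For a good prime `q` and an integer `c` with `q + 1 ≤ |c|`, `T_q - c` lies in no prime of
characteristic zero of the Hecke algebra. -/
theorem heckeT_sub_notMem {P : Ideal ↥(CuspForm.heckeAlgebra N 2 (∅ : Set ℕ))} [P.IsPrime]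
    (h0 : ∀ n : ℤ, (n : ↥(CuspForm.heckeAlgebra N 2 (∅ : Set ℕ))) ∈ P → n = 0)
    {q : ℕ} (hq : q.Prime) (hqN : ¬ q ∣ N) {c : ℤ} (hc : q + 1 ≤ c.natAbs) :
    CuspForm.heckeAlgebra.T hq hqN (Set.notMem_empty q) - (c : ↥(CuspForm.heckeAlgebra N 2 ∅)) ∉ P := by
  intro hmem
  haveI : Module.Finite ℤ ↥(CuspForm.heckeAlgebra N 2 (∅ : Set ℕ)) :=
    MF.IntStruct.moduleFinite_heckeAlgebra N 2 ∅
  set B := ↥(CuspForm.heckeAlgebra N 2 (∅ : Set ℕ)) ⧸ P
  have hint : Algebra.IsIntegral ℤ B :=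
    ⟨fun x => IsIntegral.of_finite ℤ x⟩
  obtain ⟨ψ, -⟩ := Eigen.exists_ringHom_extend (Int.castRingHom B)
    ((injective_iff_map_eq_zero _).mpr fun n hn => h0 n (by
      rw [← Ideal.Quotient.eq_zero_iff_mem, map_intCast]; exact hn))
    (fun x => by
      obtain ⟨f, hf, hfx⟩ := hint.isIntegral x
      exact ⟨f, hf, by rwa [← algebraMap_int_eq]⟩) (Int.castRingHom ℂ)
  set χ := ψ.comp (Ideal.Quotient.mk P)
  obtain ⟨f, hf, hfχ⟩ := Eigen.exists_eigenform_eigenChar_eq χ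
  have h1 : χ (CuspForm.heckeAlgebra.T hq hqN (Set.notMem_empty q)) = (c : ℂ) := by
    have h2 : χ (CuspForm.heckeAlgebra.T hq hqN (Set.notMem_empty q) -
        (c : ↥(CuspForm.heckeAlgebra N 2 ∅))) = 0 := by
      show ψ _ = 0
      rw [Ideal.Quotient.eq_zero_iff_mem.mpr hmem, map_zero]
    rwa [map_sub, map_intCast, sub_eq_zero] at h2
  rw [← hfχ, Eigen.eigenChar_T] at h1
  have h3 := Eigen.norm_qCoeff_lt hf hq hqN
  have h4 : ‖(c : ℂ)‖ = (c.natAbs : ℝ) := by
    rw [Complex.norm_intCast, Nat.cast_natAbs, Int.cast_abs]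
  rw [h1, h4] at h3
  exact not_le.mpr h3 (by exact_mod_cast hc)

end Fermat.Agent.Mazur
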