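import Fermat.Agent.Mazur.Component.Plane
import Fermat.Agent.Galois.Cyclotomic

/-!
# Residual unipotence of an Eisenstein plane
-/

set_option autoImplicit false
set_option linter.style.haveILetI false

noncomputable section

open ModularCurve
open scoped TensorProduct Matrix

namespace Fermat.Agent.Mazur.Component

open GAL (HeckeT)
open Fermat.Agent.FlatTangent ExtCitation

section Cong

variable {ℓ : ℕ} [Fact ℓ.Prime] {K W : Type} [CommRing K] [AddCommGroup W] [Module K W]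
  [Module ℤ_[ℓ] W] (L : Submodule ℤ_[ℓ] W)

/-- Endomorphisms preserving the lattice which agree modulo `ℓ` on it. -/
def LatCong (f f' : Module.End K W) : Prop :=
  (∀ v ∈ L, f v ∈ L) ∧ (∀ v ∈ L, f' v ∈ L) ∧ ∀ v ∈ L, ∃ u ∈ L, f v - f' v = (ℓ : ℤ_[ℓ]) • u

variable {L}

theorem LatCong.refl {f : Module.End K W} (hf : ∀ v ∈ L, f v ∈ L) : LatCong L f f :=
  ⟨hf, hf, fun _ _ => ⟨0, L.zero_mem, by rw [sub_self, smul_zero]⟩⟩

theorem LatCong.symm {f f' : Module.End K W} (h : LatCong L f f') : LatCong L f' f :=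
  ⟨h.2.1, h.1, fun v hv => by
    obtain ⟨u, hu, he⟩ := h.2.2 v hv
    exact ⟨-u, L.neg_mem hu, by rw [smul_neg, ← he, neg_sub]⟩⟩

theorem LatCong.sub {f f' g g' : Module.End K W} (h : LatCong L f f') (h' : LatCong L g g') :
    LatCong L (f - g) (f' - g') :=
  ⟨fun v hv => L.sub_mem (h.1 v hv) (h'.1 v hv), fun v hv => L.sub_mem (h.2.1 v hv) (h'.2.1 v hv),
    fun v hv => by
      obtain ⟨u, hu, he⟩ := h.2.2 v hv
      obtain ⟨u', hu', he'⟩ := h'.2.2 v hv
      refine ⟨u - u', L.sub_mem hu hu', ?_⟩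
      rw [smul_sub, ← he, ← he', LinearMap.sub_apply, LinearMap.sub_apply]
      abel⟩

theorem LatCong.mul {f f' g g' : Module.End K W} (hlin : ∀ (h : Module.End K W) (u : W),
    h ((ℓ : ℤ_[ℓ]) • u) = (ℓ : ℤ_[ℓ]) • h u) (h : LatCong L f f') (h' : LatCong L g g') :
    LatCong L (f * g) (f' * g') :=
  ⟨fun v hv => h.1 _ (h'.1 v hv), fun v hv => h.2.1 _ (h'.2.1 v hv), fun v hv => by
    obtain ⟨u, hu, he⟩ := h.2.2 _ (h'.1 v hv)
    obtain ⟨u', hu', he'⟩ := h'.2.2 v hv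
    refine ⟨u + f' u', L.add_mem hu (h.2.1 _ hu'), ?_⟩
    rw [smul_add, ← he, ← hlin f', ← he', map_sub, Module.End.mul_apply, Module.End.mul_apply]
    abel⟩

theorem LatCong.pow {f f' : Module.End K W} (hlin : ∀ (h : Module.End K W) (u : W),
    h ((ℓ : ℤ_[ℓ]) • u) = (ℓ : ℤ_[ℓ]) • h u) (h : LatCong L f f') (n : ℕ) :
    LatCong L (f ^ n) (f' ^ n) := by
  induction n with
  | zero => rw [pow_zero, pow_zero]; exact LatCong.refl fun v hv => hv
  | succ n ih => rw [pow_succ, pow_succ]; exact ih.mul hlin h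

end Cong

/-- `(x - 1) (x - c)` divides `(x ^ k - 1) (x ^ k - c ^ k)`. -/
theorem exists_mul_factor {R : Type} [CommRing R] (x c : R) (k : ℕ) :
    (x ^ k - 1) * (x ^ k - c ^ k) = (x - 1) * (x - c) *
      ((∑ i ∈ Finset.range k, x ^ i) * ∑ i ∈ Finset.range k, x ^ i * c ^ (k - 1 - i)) := by
  rw [mul_mul_mul_comm, mul_geom_sum, mul_comm (x - c), geom_sum₂_mul]

variable {N : ℕ} [NeZero N] {ℓ : ℕ} [hℓ : Fact ℓ.Prime] (F : Frame N ℓ) (I : Ideal F.A)
  [hI : I.IsMaximal]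

attribute [local instance] Ideal.Quotient.field

omit hI in
theorem Frame.end_padic_smul (h : Module.End (F.A ⧸ I) (F.Plane I)) (u : F.Plane I) :
    h ((ℓ : ℤ_[ℓ]) • u) = (ℓ : ℤ_[ℓ]) • h u :=
  LinearMap.map_smul_of_tower h _ u

theorem Frame.residual_repP (hTQ : GAL.TorsionQuadratic N ℓ)
    (heis : ∀ (q : ℕ) (hq : q.Prime), ¬ q ∣ N * ℓ → ¬ IsUnit (charO ℓ (F.charI I)
      (CuspForm.heckeEvalForms N 2 (heckeGen ⟨q, hq⟩) - 1 - (q : HeckeT N)))) :
    ∃ a : ℕ, ∀ g : Gal, ∀ v ∈ F.latP I, ∃ u ∈ F.latP I,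
      ((F.repP I g - 1) ^ a) (((F.repP I g -
        ((cycloChar ℓ g : ZMod ℓ).val : Module.End (F.A ⧸ I) (F.Plane I))) ^ a) v) =
        (ℓ : ℤ_[ℓ]) • u := by
  haveI := F.charZero_quotient I
  obtain ⟨a, ha⟩ := exists_pow_mem_span (ℓ := ℓ) (F.charI I)
  refine ⟨a, fun g v hv => ?_⟩
  haveI : NeZero ℓ := ⟨hℓ.out.ne_zero⟩
  obtain ⟨L₁, hL₁, h₁⟩ := exists_level N ℓ 1
  obtain ⟨ζ, hζ⟩ := HasEnoughRootsOfUnity.exists_primitiveRoot Qb ℓ
  let L₂ : IntermediateField ℚ Qb := IntermediateField.adjoin ℚ {ζ}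
  haveI : FiniteDimensional ℚ L₂ := IntermediateField.adjoin.finiteDimensional
    ((hζ.isIntegral hℓ.out.pos).tower_top)
  haveI := hL₁
  obtain ⟨q, hq, hqS, A, hA, σ, hσ, k, hk⟩ := GAL.exists_frobenius_pow_on (L₁ ⊔ L₂)
    (IntermediateField.finiteDimensional_sup L₁ L₂) g (N * ℓ).primeFactors
  have hqN : ¬ q ∣ N * ℓ := fun h =>
    hqS (Nat.mem_primeFactors.mpr ⟨hq, h, mul_ne_zero (NeZero.ne N) hℓ.out.ne_zero⟩)
  set x := F.repP I σ with hx
  set n₀ := (cycloChar ℓ g : ZMod ℓ).val with hn₀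
  have hlin := F.end_padic_smul I
  -- the action of `g` modulo `ℓ`
  have hg : LatCong (F.latP I) (F.repP I g) (x ^ k) := by
    refine ⟨fun w hw => F.repP_mem g hw, fun w hw => by rw [hx, ← map_pow]; exact F.repP_mem _ hw,
      fun w hw => ?_⟩
    set h := (σ ^ k)⁻¹ * g with hh
    have hfix : ∀ y ∈ L₁, h y = y := fun y hy => by
      rw [hh, AlgEquiv.mul_apply, ← hk y (le_sup_left (a := L₁) (b := L₂) hy), ← AlgEquiv.mul_apply,
        inv_mul_cancel, AlgEquiv.one_apply]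
    obtain ⟨u, hu⟩ := h₁ h hfix (F.coordP I ⟨w, hw⟩)
    rw [← F.coordP_repP, ← map_sub] at hu
    obtain ⟨v', hv'⟩ := F.exists_eq_pow_smul_latP I 1 _ u hu
    have hv'' := congrArg Subtype.val hv'
    rw [Submodule.coe_sub, Submodule.coe_smul, pow_one] at hv''
    refine ⟨F.repP I (σ ^ k) v', F.repP_mem _ v'.2, ?_⟩
    rw [← hlin, ← hv'', map_sub, ← Module.End.mul_apply, ← map_mul, hh, mul_inv_cancel_left, hx,
      map_pow]
  -- the cyclotomic character
  have hn : (n₀ : ZMod ℓ) = (q : ZMod ℓ) ^ k := by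
    have hqℓ : ¬ q ∣ ℓ := fun h => hqN (h.mul_left N)
    have h1 : σ ζ = ζ ^ q := Galois.isFrobeniusAt_apply_rootOfUnity hA hq hσ hqℓ hζ.pow_eq_one
    have h2 : ∀ j : ℕ, (σ ^ j) ζ = ζ ^ q ^ j := by
      intro j
      induction j with
      | zero => rw [pow_zero, pow_zero, pow_one, AlgEquiv.one_apply]
      | succ j ih => rw [pow_succ', AlgEquiv.mul_apply, ih, map_pow, h1, ← pow_mul, ← pow_succ']
    have h3 : g ζ = ζ ^ q ^ k := by
      rw [← hk ζ (le_sup_right (a := L₁) (b := L₂) (IntermediateField.mem_adjoin_simple_self ℚ ζ)),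
        h2]
    rw [Descent.apply_eq_pow_cycloChar ℓ g hζ.pow_eq_one] at h3
    rw [pow_eq_pow_mod _ hζ.pow_eq_one, pow_eq_pow_mod (q ^ k) hζ.pow_eq_one] at h3
    rw [← Nat.cast_pow, hn₀, ZMod.natCast_eq_natCast_iff']
    exact hζ.pow_inj (Nat.mod_lt _ hℓ.out.pos) (Nat.mod_lt _ hℓ.out.pos) h3
  have hc : LatCong (F.latP I) (n₀ : Module.End (F.A ⧸ I) (F.Plane I))
      ((q ^ k : ℕ) : Module.End (F.A ⧸ I) (F.Plane I)) := by
    refine ⟨fun w hw => ?_, fun w hw => ?_, fun w hw => ?_⟩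
    · rw [Module.End.natCast_apply]; exact nsmul_mem hw _
    · rw [Module.End.natCast_apply]; exact nsmul_mem hw _
    · rw [← Nat.cast_pow, ZMod.natCast_eq_natCast_iff, Nat.modEq_iff_dvd] at hn
      obtain ⟨d, hd⟩ := hn
      refine ⟨-((d : ℤ_[ℓ]) • w), neg_mem (Submodule.smul_mem _ _ hw), ?_⟩
      rw [Module.End.natCast_apply, Module.End.natCast_apply, smul_neg, smul_smul, ← neg_sub,
        neg_inj, ← natCast_zsmul, ← natCast_zsmul, ← sub_smul, hd,
        ← Int.cast_smul_eq_zsmul ℤ_[ℓ], Int.cast_mul, Int.cast_natCast]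
  have hG : LatCong (F.latP I)
      ((F.repP I g - 1) ^ a * (F.repP I g - (n₀ : Module.End (F.A ⧸ I) (F.Plane I))) ^ a)
      ((x ^ k - 1) ^ a * (x ^ k - ((q ^ k : ℕ) : Module.End (F.A ⧸ I) (F.Plane I))) ^ a) :=
    ((hg.sub (LatCong.refl fun w hw => hw)).pow hlin a).mul hlin ((hg.sub hc).pow hlin a)
  -- the Frobenius element
  set P := (Polynomial.aeval (R := F.A ⧸ I) x) with hP
  set c := F.charI I (CuspForm.heckeEvalForms N 2 (heckeGen ⟨q, hq⟩))
  set Q : Polynomial (F.A ⧸ I) := (∑ i ∈ Finset.range k, Polynomial.X ^ i) *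
    ∑ i ∈ Finset.range k, Polynomial.X ^ i * Polynomial.C (q : F.A ⧸ I) ^ (k - 1 - i)
  have hxm : ∀ j, ∀ w ∈ F.latP I, (x ^ j) w ∈ F.latP I := fun j w hw => by
    rw [hx, ← map_pow]; exact F.repP_mem _ hw
  have hQm : ∀ j, ∀ w ∈ F.latP I, P (Q ^ j) w ∈ F.latP I := by
    have hQ1 : ∀ w ∈ F.latP I, P Q w ∈ F.latP I := by
      intro w hw
      simp only [Q, hP, map_mul, map_sum, map_pow, Polynomial.aeval_X, Polynomial.aeval_C,
        map_natCast, Module.End.mul_apply, LinearMap.sum_apply]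
      refine Submodule.sum_mem _ fun i _ => Submodule.sum_mem _ fun j _ => hxm j _ (hxm i _ ?_)
      rw [← Nat.cast_pow, Module.End.natCast_apply]
      exact nsmul_mem hw _
    intro j
    induction j with
    | zero => intro w hw; rw [pow_zero, map_one]; exact hw
    | succ j ih => intro w hw; rw [pow_succ, map_mul]; exact ih _ (hQ1 w hw)
  have hstep : P ((Polynomial.X - 1) * (Polynomial.X - Polynomial.C (q : F.A ⧸ I))) =
      (c - 1 - (q : F.A ⧸ I)) • x := by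
    refine LinearMap.ext fun w => ?_
    have h := F.repP_frob I hTQ q hq hqN A hA σ hσ w
    simp only [hP, map_mul, map_sub, map_one, Polynomial.aeval_X, Polynomial.aeval_C, map_natCast,
      Module.End.mul_apply, LinearMap.sub_apply, Module.End.one_apply, Module.End.natCast_apply,
      LinearMap.smul_apply, sub_smul, smul_sub, one_smul, Nat.cast_smul_eq_nsmul, map_nsmul,
      ← hx] at h ⊢
    rw [show F.charI I (CuspForm.heckeEvalForms N 2 (heckeGen ⟨q, hq⟩)) = c from rfl] at h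
    rw [← sub_eq_zero, ← h]
    abel
  have hnu := heis q hq hqN
  obtain ⟨y, hy⟩ := ha _ hnu
  have hy' : (c - 1 - (q : F.A ⧸ I)) ^ a = (ℓ : F.A ⧸ I) * y := by
    have h := congrArg Subtype.val hy
    rw [SubmonoidClass.coe_pow, coe_charO, map_sub, map_sub, map_one, map_natCast] at h
    exact h.trans (by push_cast; rfl)
  have hF : (x ^ k - 1) ^ a * (x ^ k - ((q ^ k : ℕ) : Module.End (F.A ⧸ I) (F.Plane I))) ^ a =
      (ℓ : F.A ⧸ I) • ((y : F.A ⧸ I) • (x ^ a * P (Q ^ a))) := by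
    have h : P (((Polynomial.X : Polynomial (F.A ⧸ I)) ^ k - 1) ^ a *
        (Polynomial.X ^ k - Polynomial.C (q : F.A ⧸ I) ^ k) ^ a) =
        ((c - 1 - (q : F.A ⧸ I)) • x) ^ a * P (Q ^ a) := by
      rw [← mul_pow, exists_mul_factor, mul_pow, map_mul, map_pow P _ a, hstep]
    simp only [hP, map_mul, map_pow, map_sub, map_one, Polynomial.aeval_X, map_natCast] at h
    rw [Nat.cast_pow, h, smul_pow, hy', smul_mul_assoc, mul_smul, map_pow]
  obtain ⟨u, hu, he⟩ := hG.2.2 v hv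
  rw [hF] at he
  refine ⟨u + (y : F.A ⧸ I) • (x ^ a) (P (Q ^ a) v),
    add_mem hu (F.order_smul_mem y.2 (hxm a _ (hQm a v hv))), ?_⟩
  rw [smul_add, ← he, Module.End.mul_apply, LinearMap.smul_apply, LinearMap.smul_apply,
    Module.End.mul_apply, ← algebraMap_smul (F.A ⧸ I) (ℓ : ℤ_[ℓ]), map_natCast]
  abel

end Fermat.Agent.Mazur.Component
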