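import Fermat.Agent.Mazur.Component.Basic
import Fermat.Agent.Mazur.Component.Residual
import Fermat.Agent.EIS.LowerBound
import Fermat.Agent.MF.IntStruct.Main

/-!
# The component of a maximal ideal
-/

set_option autoImplicit false
set_option linter.style.haveILetI false

noncomputable section

open ModularCurve
open scoped TensorProduct Matrix

namespace Fermat.Agent.Mazur.Component

open GAL (HeckeT)
open Fermat.Agent.FlatTangent

theorem heckeEvalForms_surjective' (N : ℕ) [NeZero N] :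
    Function.Surjective (CuspForm.heckeEvalForms N 2) := by
  rintro ⟨t, ht⟩
  induction ht using Algebra.adjoin_induction with
  | mem x hx =>
    rcases hx with ⟨l, hl, hlN, -, rfl⟩ | ⟨q, hqN, hq, -, rfl⟩
    · exact ⟨heckeGen ⟨l, hl⟩, CuspForm.heckeEvalForms_heckeGen_of_not_dvd (ℓ := ⟨l, hl⟩) hlN⟩
    · exact ⟨heckeGen ⟨q, hq⟩, CuspForm.heckeEvalForms_heckeGen_of_dvd (q := ⟨q, hq⟩) hqN⟩
  | algebraMap a => exact ⟨MvPolynomial.C a, CuspForm.heckeEvalForms_C _ _ a⟩
  | add x y _ _ hx hy =>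
    obtain ⟨a, ha⟩ := hx
    obtain ⟨b, hb⟩ := hy
    exact ⟨a + b, by rw [map_add, ha, hb]; rfl⟩
  | mul x y _ _ hx hy =>
    obtain ⟨a, ha⟩ := hx
    obtain ⟨b, hb⟩ := hy
    exact ⟨a * b, by rw [map_mul, ha, hb]; rfl⟩

variable {N : ℕ} [NeZero N] {ℓ : ℕ} [hℓ : Fact ℓ.Prime] (F : Frame N ℓ) (I : Ideal F.A)
  [hI : I.IsMaximal]

instance Frame.towerQPlane : IsScalarTower ℚ_[ℓ] (F.A ⧸ I) (F.Plane I) :=
  ⟨fun c z x => by
    obtain ⟨a, rfl⟩ := Ideal.Quotient.mk_surjective z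
    rw [← Ideal.Quotient.mkₐ_eq_mk ℚ_[ℓ], ← map_smul]
    refine Subtype.ext ?_
    show (c • a) • (x : F.V) = c • (a • (x : F.V))
    rw [smul_assoc]⟩

instance Frame.towerZQPlane : IsScalarTower ℤ_[ℓ] ℚ_[ℓ] (F.Plane I) :=
  IsScalarTower.of_algebraMap_smul fun c x => Subtype.ext (by
    rw [F.coe_padic_smul]; rfl)

omit hI in
/-- An integral multiple of the projector and its approximations by Hecke operators. -/
theorem Frame.exists_projector (e : F.A) (he : e - 1 ∈ I) (he' : ∀ a ∈ I, a * e = 0) :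
    ∃ (c : ℕ) (t : ℕ → HeckeAlg),
      (∀ R (x : JZero N), ℓ ^ R • x = 0 →
        ∃ v : F.latP I, tau N ℓ R (F.coordP I v) = (letI := heckeModuleBar N; t R • x)) ∧
      ∀ R, ∃ y ∈ order (ℓ := ℓ) (F.charI I),
        F.charI I (CuspForm.heckeEvalForms N 2 (t R)) =
          (ℓ : F.A ⧸ I) ^ c + (ℓ : F.A ⧸ I) ^ R * y := by
  obtain ⟨c, z, hz⟩ := F.span e
  change (ℓ : F.A) ^ c * e = F.intA z at hz
  choose t w htw using fun R => exists_approx (ℓ := ℓ) R z
  choose s hs using fun R => heckeEvalForms_surjective' N (t R)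
  refine ⟨c, s, fun R x hx => ?_, fun R => ?_⟩
  · obtain ⟨u, rfl⟩ := exists_tau_eq R hx
    let y : F.V := F.intA z • F.κ.symm (PadicInt.Coe.ringHom ∘ u)
    have hy : y ∈ Submodule.torsionBySet F.A F.V (I : Set F.A) :=
      (Submodule.mem_torsionBySet_iff _ _).mpr fun a => by
        rw [smul_smul, ← hz, mul_left_comm, he' a a.2, mul_zero, zero_smul]
    have hyκ : F.κ y = PadicInt.Coe.ringHom ∘ (intMat N ℓ z *ᵥ u) := by
      rw [F.κ_intA, LinearEquiv.apply_symm_apply, coe_mulVec]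
    refine ⟨⟨⟨y, hy⟩, F.mem_latP_of_coord hyκ⟩, ?_⟩
    rw [F.coordP_eq (x := ⟨y, hy⟩) hyκ, hecke_tau, ← sub_eq_zero, ← map_sub, tau_eq_zero_iff]
    refine ⟨intMat N ℓ (w R) *ᵥ u, ?_⟩
    have hM : intMat N ℓ (1 ⊗ₜ t R) = heckeMatT N ℓ (s R) := by
      rw [intMat_tmul, one_smul, ← hs R]; rfl
    rw [htw R, map_add, map_mul, map_pow, map_natCast, hM, Matrix.add_mulVec, add_sub_cancel_left,
      ← Matrix.mulVec_mulVec, ← Nat.cast_pow, Matrix.natCast_mulVec, Nat.cast_smul_eq_nsmul,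
      ← Nat.cast_smul_eq_nsmul ℤ_[ℓ], Nat.cast_pow]
  · refine ⟨-(Ideal.Quotient.mk I (F.intA (w R))), neg_mem ⟨w R, F.lift_charI I (w R)⟩, ?_⟩
    have h := congrArg (Ideal.Quotient.mk I) hz
    rw [map_mul, map_pow, map_natCast, Ideal.Quotient.eq.mpr he, map_one, mul_one, htw R,
      map_add F.intA, map_mul F.intA, F.intA_tmul, one_smul, map_pow, map_natCast, map_add,
      map_mul, map_pow, map_natCast] at h
    rw [mul_neg, ← sub_eq_add_neg, eq_sub_iff_add_eq, hs R, h]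
    rfl

attribute [local instance] Ideal.Quotient.field

theorem Frame.exists_not_dvd {c : ℕ} {t : ℕ → HeckeAlg}
    (ht : ∀ R, ∃ y ∈ order (ℓ := ℓ) (F.charI I),
      F.charI I (CuspForm.heckeEvalForms N 2 (t R)) = (ℓ : F.A ⧸ I) ^ c + (ℓ : F.A ⧸ I) ^ R * y)
    (a : HeckeAlg) (ha : F.charI I (CuspForm.heckeEvalForms N 2 a) ≠ 0) :
    ∃ b, ∀ R, b ≤ R → ¬ ∃ s, latticeEval N (a * t R) = ℓ ^ b • s := by
  haveI := F.charZero_quotient I
  set x := (ℓ : F.A ⧸ I) ^ c * F.charI I (CuspForm.heckeEvalForms N 2 a) with hx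
  have hx0 : x ≠ 0 := mul_ne_zero (pow_ne_zero c (F.natCast_ne_zero I)) ha
  obtain ⟨b, hb⟩ : ∃ b : ℕ, ¬ ∃ y : order (ℓ := ℓ) (F.charI I),
      x = algebraMap _ (F.A ⧸ I) ((ℓ : order (ℓ := ℓ) (F.charI I)) ^ b * y) := by
    by_contra h
    push Not at h
    exact hx0 (separated_order (F.charI I) x h)
  refine ⟨b, fun R hR ⟨s, hs⟩ => hb ?_⟩
  obtain ⟨s', rfl⟩ := CuspForm.latticeRestrictHom_surjective N ∅ s
  have hs' : CuspForm.heckeEvalForms N 2 (a * t R) = ℓ ^ b • s' := by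
    refine (CuspForm.latticeRestrictHom_bijective N ∅
      (MF.IntStruct.hasIntegralStructure N 2)).1 ?_
    rw [map_nsmul]
    exact hs
  obtain ⟨y, hy, hye⟩ := ht R
  have h := congrArg (F.charI I) hs'
  rw [map_mul, map_mul, hye, map_nsmul, nsmul_eq_mul] at h
  refine ⟨⟨_, mem_order _ s'⟩ - (ℓ : order (ℓ := ℓ) (F.charI I)) ^ (R - b) * ⟨_, hy⟩ *
    ⟨_, mem_order _ (CuspForm.heckeEvalForms N 2 a)⟩, ?_⟩
  rw [map_mul, map_sub, map_mul, map_mul, map_pow, map_pow, map_natCast, hx]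
  show (ℓ : F.A ⧸ I) ^ c * _ = (ℓ : F.A ⧸ I) ^ b *
    (F.charI I s' - (ℓ : F.A ⧸ I) ^ (R - b) * y * F.charI I (CuspForm.heckeEvalForms N 2 a))
  have hpow : (ℓ : F.A ⧸ I) ^ b * (ℓ : F.A ⧸ I) ^ (R - b) = (ℓ : F.A ⧸ I) ^ R := by
    rw [← pow_add, Nat.add_sub_cancel' hR]
  push_cast at h
  linear_combination h + (y * F.charI I (CuspForm.heckeEvalForms N 2 a)) * hpow

omit hI in
/-- The Hecke operators span the quotient of the algebra. -/
theorem Frame.exists_pow_mul_mem_span (z : F.A ⧸ I) :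
    ∃ n : ℕ, (ℓ : F.A ⧸ I) ^ n * z ∈ Submodule.span ℤ_[ℓ] (Set.range (F.charI I)) := by
  obtain ⟨a, rfl⟩ := Ideal.Quotient.mk_surjective z
  obtain ⟨n, w, hw⟩ := F.span a
  change (ℓ : F.A) ^ n * a = F.intA w at hw
  refine ⟨n, ?_⟩
  rw [← map_natCast (Ideal.Quotient.mk I), ← map_pow, ← map_mul, hw]
  clear hw
  induction w using TensorProduct.induction_on with
  | zero => rw [map_zero, map_zero]; exact zero_mem _
  | tmul c t =>
    rw [F.intA_tmul]
    show c • F.charI I t ∈ Submodule.span ℤ_[ℓ] (Set.range (F.charI I))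
    exact Submodule.smul_mem _ c (Submodule.subset_span (Set.mem_range_self t))
  | add a b ha hb => rw [map_add, map_add]; exact add_mem ha hb

/-- The component of a maximal ideal over an Eisenstein character. -/
theorem Frame.exists_component (hTQ : GAL.TorsionQuadratic N ℓ)
    (heis : ∀ (q : ℕ) (hq : q.Prime), ¬ q ∣ N * ℓ → ¬ IsUnit (charO ℓ (F.charI I)
      (CuspForm.heckeEvalForms N 2 (heckeGen ⟨q, hq⟩) - 1 - (q : HeckeT N))))
    (e : F.A) (he : e - 1 ∈ I) (he' : ∀ a ∈ I, a * e = 0) :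
    ∃ X : Component N ℓ, ∀ (R : ℕ) (v : F.latP I), ∃ w : X.lat,
      X.pt R w = tau N ℓ R (F.coordP I v) := by
  haveI := F.charZero_quotient I
  obtain ⟨c, t, hproj, ht⟩ := F.exists_projector I e he he'
  haveI : Module.Finite ℚ_[ℓ] (F.A ⧸ I) :=
    Module.Finite.of_surjective (Ideal.Quotient.mkₐ ℚ_[ℓ] I).toLinearMap Ideal.Quotient.mk_surjective
  exact ⟨{ K := F.A ⧸ I
           W := F.Plane I
           finrank_two := finrank_part F.dual
           charT := F.charI I
           rep := F.repP I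
           lat := F.latP I
           coord := F.coordP I
           coord_injective := F.coordP_injective I
           exists_pow_smul_mem := F.exists_pow_smul_mem_latP I
           rep_mem := fun g _ hv => F.repP_mem g hv
           hecke_mem := fun s _ hv => F.charI_smul_mem _ hv
           coord_rep := fun g v => F.coordP_repP g v
           coord_hecke := fun s v => F.coordP_hecke s v
           exists_eq_pow_smul := F.exists_eq_pow_smul_latP I
           e := t
           proj := hproj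
           not_dvd := F.exists_not_dvd I ht
           det_rep := F.det_repP I hTQ
           frob := F.repP_frob I hTQ
           hecke_span := F.exists_pow_mul_mem_span I
           residual := F.residual_repP I hTQ heis }, fun R v => ⟨v, rfl⟩⟩

end Fermat.Agent.Mazur.Component
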