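import Fermat.Agent.GAL.PointExtend
import Fermat.Agent.GAL.NearMod
import Fermat.Agent.HK.TRep

/-!
# The order of a component of the rational `ℓ`-adic Hecke algebra

For an ideal `I` of `A = ℚ_ℓ ⊗ T`, the image of `ℤ_ℓ ⊗ T` in `A ⧸ I`; when `I` is maximal it is a
local domain, and its maximal ideal gives a residual prime of `T`.
-/

set_option autoImplicit false
set_option linter.style.haveILetI false

noncomputable section

open scoped TensorProduct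

namespace Fermat.Agent.Mazur.Component

open GAL (HeckeT RatHecke toRatHecke)

section Hecke

open GAL (HeckeT RatHecke toRatHecke)

variable {N : ℕ} [NeZero N] {ℓ : ℕ} [hℓ : Fact ℓ.Prime]

instance : Module.Finite ℤ (HeckeT N) := HK.moduleFinite_tFull N

variable (N ℓ) in
/-- `ℤ_ℓ ⊗ T → ℚ_ℓ ⊗ T`. -/
def intHom : ℤ_[ℓ] ⊗[ℤ] HeckeT N →ₐ[ℤ_[ℓ]] RatHecke N ℓ :=
  Algebra.TensorProduct.map (Algebra.ofId ℤ_[ℓ] ℚ_[ℓ]) (AlgHom.id ℤ (HeckeT N))

theorem intHom_tmul (c : ℤ_[ℓ]) (t : HeckeT N) :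
    intHom N ℓ (c ⊗ₜ t) = (c : ℚ_[ℓ]) ⊗ₜ[ℤ] t := rfl

theorem intHom_one_tmul (t : HeckeT N) : intHom N ℓ (1 ⊗ₜ t) = toRatHecke N ℓ t := by
  rw [intHom_tmul, PadicInt.coe_one]
  rfl

/-- Every element of `A` becomes integral after scaling. -/
theorem exists_pow_smul_eq_intHom (a : RatHecke N ℓ) :
    ∃ (n : ℕ) (z : ℤ_[ℓ] ⊗[ℤ] HeckeT N), (ℓ : RatHecke N ℓ) ^ n * a = intHom N ℓ z := by
  induction a using TensorProduct.induction_on with
  | zero => exact ⟨0, 0, by rw [mul_zero, map_zero]⟩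
  | tmul q t =>
    obtain ⟨n, hn⟩ : ∃ n : ℕ, ‖(ℓ : ℚ_[ℓ]) ^ n * q‖ ≤ 1 := by
      obtain ⟨n, hn⟩ := pow_unbounded_of_one_lt ‖q‖ (by exact_mod_cast hℓ.out.one_lt : (1 : ℝ) < ℓ)
      refine ⟨n, ?_⟩
      rw [norm_mul, norm_pow, Padic.norm_p, inv_pow, inv_mul_le_one₀]
      · exact hn.le
      · exact pow_pos (Nat.cast_pos.mpr hℓ.out.pos) n
    let c : ℤ_[ℓ] := ⟨_, hn⟩
    refine ⟨n, c ⊗ₜ t, ?_⟩
    rw [intHom_tmul, ← map_natCast (algebraMap ℚ_[ℓ] (RatHecke N ℓ)), ← map_pow,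
      ← Algebra.smul_def, TensorProduct.smul_tmul', smul_eq_mul]
  | add a b ha hb =>
    obtain ⟨n, z, hz⟩ := ha
    obtain ⟨n', z', hz'⟩ := hb
    refine ⟨n + n', (ℓ : ℤ_[ℓ] ⊗[ℤ] HeckeT N) ^ n' * z + (ℓ : ℤ_[ℓ] ⊗[ℤ] HeckeT N) ^ n * z', ?_⟩
    rw [map_add, map_mul, map_mul, map_pow, map_pow, map_natCast, ← hz, ← hz', pow_add]
    ring

/-- `ℤ_ℓ ⊗ T` is approximated by `T`. -/
theorem exists_approx (R : ℕ) (z : ℤ_[ℓ] ⊗[ℤ] HeckeT N) :
    ∃ (t : HeckeT N) (w : ℤ_[ℓ] ⊗[ℤ] HeckeT N),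
      z = 1 ⊗ₜ t + (ℓ : ℤ_[ℓ] ⊗[ℤ] HeckeT N) ^ R * w := by
  induction z using TensorProduct.induction_on with
  | zero => exact ⟨0, 0, by rw [TensorProduct.tmul_zero, mul_zero, add_zero]⟩
  | tmul c t =>
    obtain ⟨d, hd⟩ := Ideal.mem_span_singleton.mp (PadicInt.appr_spec R c)
    refine ⟨c.appr R • t, d ⊗ₜ t, ?_⟩
    rw [show (ℓ : ℤ_[ℓ] ⊗[ℤ] HeckeT N) ^ R = ((ℓ : ℤ_[ℓ]) ^ R) ⊗ₜ (1 : HeckeT N) by
        rw [← map_natCast (Algebra.TensorProduct.includeLeft :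
          ℤ_[ℓ] →ₐ[ℤ] ℤ_[ℓ] ⊗[ℤ] HeckeT N) ℓ, ← map_pow]; rfl,
      Algebra.TensorProduct.tmul_mul_tmul, one_mul, ← hd, ← TensorProduct.smul_tmul,
      nsmul_one, ← TensorProduct.add_tmul, add_sub_cancel]
  | add z z' hz hz' =>
    obtain ⟨t, w, rfl⟩ := hz
    obtain ⟨t', w', rfl⟩ := hz'
    exact ⟨t + t', w + w', by rw [TensorProduct.tmul_add, mul_add]; abel⟩

end Hecke

section Generic

variable {ℓ : ℕ} [hℓ : Fact ℓ.Prime] {T : Type} [CommRing T] [Module.Finite ℤ T] {K : Type} [CommRing K] [Algebra ℤ_[ℓ] K] (χ : T →+* K)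

/-- The image of `ℤ_ℓ ⊗ T` in `K`. -/
def order : Subalgebra ℤ_[ℓ] K :=
  (Algebra.TensorProduct.lift (Algebra.ofId ℤ_[ℓ] K) χ.toIntAlgHom
    fun _ _ => Commute.all _ _).range

omit [Module.Finite ℤ T] in
theorem mem_order (t : T) : χ t ∈ order (ℓ := ℓ) χ :=
  ⟨1 ⊗ₜ t, by
    show Algebra.TensorProduct.lift _ _ _ (1 ⊗ₜ t) = _
    rw [Algebra.TensorProduct.lift_tmul, map_one, one_mul]
    rfl⟩

variable (ℓ) in
/-- `T →` the order. -/
def charO : T →+* order (ℓ := ℓ) χ := χ.codRestrict (order χ).toSubring (mem_order χ)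

theorem coe_charO (t : T) : (charO ℓ χ t : K) = χ t := rfl

instance : Module.Finite ℤ_[ℓ] (order (ℓ := ℓ) χ) :=
  Module.Finite.of_surjective (Algebra.TensorProduct.lift (Algebra.ofId ℤ_[ℓ] K) χ.toIntAlgHom
    fun _ _ => Commute.all _ _).rangeRestrict.toLinearMap (AlgHom.rangeRestrict_surjective _)

end Generic

section Field

variable {ℓ : ℕ} [hℓ : Fact ℓ.Prime] {T : Type} [CommRing T] [Module.Finite ℤ T] {K : Type} [Field K]
  [CharZero K] [Algebra ℤ_[ℓ] K] (χ : T →+* K)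

omit [Module.Finite ℤ T] in
theorem algebraMap_order_injective : Function.Injective (algebraMap ℤ_[ℓ] (order (ℓ := ℓ) χ)) := by
  intro a b h
  have h' : algebraMap ℤ_[ℓ] K a = algebraMap ℤ_[ℓ] K b := congrArg Subtype.val h
  by_contra hab
  have hne : a - b ≠ 0 := sub_ne_zero.mpr hab
  have hu := PadicInt.unitCoeff_spec hne
  have h0 : algebraMap ℤ_[ℓ] K (a - b) = 0 := by rw [map_sub, h', sub_self]
  rw [hu, map_mul, map_pow, map_natCast, mul_eq_zero] at h0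
  rcases h0 with h0 | h0
  · exact ((Units.isUnit _).map (algebraMap ℤ_[ℓ] K)).ne_zero h0
  · exact pow_ne_zero _ (Nat.cast_ne_zero.mpr hℓ.out.ne_zero) h0

instance : IsLocalRing (order (ℓ := ℓ) χ) :=
  GAL.isLocalRing_of_finite_of_isDomain (O := ℤ_[ℓ]) _

instance : IsNoetherianRing (order (ℓ := ℓ) χ) := isNoetherianRing_iff.mpr
  (isNoetherian_of_tower ℤ_[ℓ] inferInstance)

theorem natCast_mem_maximalIdeal :
    (ℓ : order (ℓ := ℓ) χ) ∈ IsLocalRing.maximalIdeal (order (ℓ := ℓ) χ) := by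
  haveI : Algebra.IsIntegral ℤ_[ℓ] (order (ℓ := ℓ) χ) := Algebra.IsIntegral.of_finite _ _
  haveI : IsLocalHom (algebraMap ℤ_[ℓ] (order (ℓ := ℓ) χ)) :=
    RingHom.IsIntegral.isLocalHom (fun x => Algebra.IsIntegral.isIntegral x)
      (algebraMap_order_injective χ)
  rw [IsLocalRing.mem_maximalIdeal, mem_nonunits_iff,
    ← map_natCast (algebraMap ℤ_[ℓ] (order (ℓ := ℓ) χ))]
  intro h
  exact PadicInt.p_nonunit (isUnit_of_map_unit _ _ h)

theorem separated_order :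
    GAL.Separated (order χ) (ℓ : order (ℓ := ℓ) χ) K :=
  GAL.separated_of_mem_maximalIdeal (natCast_mem_maximalIdeal χ) Subtype.coe_injective

omit [CharZero K] in
theorem finite_quotient_natCast : Finite (order (ℓ := ℓ) χ ⧸ Ideal.span {(ℓ : order (ℓ := ℓ) χ)}) := by
  obtain ⟨n, f, hf⟩ := Module.Finite.exists_fin' ℤ_[ℓ] (order (ℓ := ℓ) χ)
  refine Finite.of_surjective (fun c : Fin n → ZMod ℓ =>
    Ideal.Quotient.mk (Ideal.span {(ℓ : order (ℓ := ℓ) χ)}) (f fun i => ((c i).val : ℤ_[ℓ]))) fun x => ?_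
  obtain ⟨y, rfl⟩ := Ideal.Quotient.mk_surjective x
  obtain ⟨a, rfl⟩ := hf y
  have h : ∀ i, ∃ b : ℤ_[ℓ], a i = ((PadicInt.toZMod (a i)).val : ℤ_[ℓ]) + ℓ * b := fun i => by
    have : a i - ((PadicInt.toZMod (a i)).val : ℤ_[ℓ]) ∈ IsLocalRing.maximalIdeal ℤ_[ℓ] := by
      rw [← PadicInt.ker_toZMod, RingHom.mem_ker, map_sub, map_natCast, ZMod.natCast_zmod_val,
        sub_self]
    rw [PadicInt.maximalIdeal_eq_span_p, Ideal.mem_span_singleton] at this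
    obtain ⟨b, hb⟩ := this
    exact ⟨b, by rw [← hb]; ring⟩
  choose b hb using h
  refine ⟨fun i => PadicInt.toZMod (a i), ?_⟩
  rw [Ideal.Quotient.eq, Ideal.mem_span_singleton]
  refine ⟨-f b, ?_⟩
  conv_lhs => arg 2; rw [show a = (fun i => ((PadicInt.toZMod (a i)).val : ℤ_[ℓ])) + (ℓ : ℤ_[ℓ]) • b
    from funext hb]
  rw [map_add, map_smul, Algebra.smul_def, map_natCast, sub_add_cancel_left, mul_neg]

/-- The non-units of the order are uniformly nilpotent modulo `ℓ`. -/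
theorem exists_pow_mem_span : ∃ a : ℕ, ∀ x : order (ℓ := ℓ) χ, ¬ IsUnit x →
    ∃ y, x ^ a = (ℓ : order (ℓ := ℓ) χ) * y := by
  haveI := finite_quotient_natCast (ℓ := ℓ) χ
  have hrad : IsLocalRing.maximalIdeal (order (ℓ := ℓ) χ) ≤ (Ideal.span {(ℓ : order (ℓ := ℓ) χ)}).radical := by
    intro x hx
    obtain ⟨i, j, hij, he⟩ := Finite.exists_ne_map_eq_of_infinite
      fun n : ℕ => Ideal.Quotient.mk (Ideal.span {(ℓ : order (ℓ := ℓ) χ)}) (x ^ n)
    wlog hlt : i < j generalizing i j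
    · exact this j i (Ne.symm hij) he.symm (lt_of_le_of_ne (not_lt.mp hlt) (Ne.symm hij))
    refine ⟨i, ?_⟩
    rw [Ideal.Quotient.eq] at he
    have hu : IsUnit (1 - x ^ (j - i)) := IsLocalRing.isUnit_one_sub_self_of_mem_nonunits _
      (Ideal.pow_mem_of_mem _ hx _ (Nat.sub_pos_of_lt hlt))
    refine (Ideal.mul_unit_mem_iff_mem _ hu).mp ?_
    rwa [mul_sub, mul_one, ← pow_add, Nat.add_sub_cancel' hlt.le]
  obtain ⟨a, ha⟩ := Ideal.exists_pow_le_of_le_radical_of_fg hrad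
    ((isNoetherianRing_iff_ideal_fg _).mp inferInstance _)
  refine ⟨a, fun x hx => ?_⟩
  exact Ideal.mem_span_singleton.mp (ha (Ideal.pow_mem_pow hx a))

variable {χ}

/-- `χ` lies over the character `θ` of `T`. -/
def Over (θ : T →+* ZMod ℓ) (χ : T →+* K) : Prop :=
  ∀ t, ¬ IsUnit (charO ℓ χ t) → θ t = 0

/-- Over `θ`, the kernel of `θ` consists of non-units. -/
theorem Over.not_isUnit {θ : T →+* ZMod ℓ} (h : Over θ χ) {t : T} (ht : θ t = 0) :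
    ¬ IsUnit (charO ℓ χ t) := by
  intro hu
  haveI := finite_quotient_natCast (ℓ := ℓ) χ
  let π := (Ideal.Quotient.mk (Ideal.span {(ℓ : order (ℓ := ℓ) χ)})).comp (charO ℓ χ)
  obtain ⟨i, j, hij, he⟩ := Finite.exists_ne_map_eq_of_infinite fun n : ℕ => π (t ^ n)
  wlog hlt : i < j generalizing i j
  · exact this j i (Ne.symm hij) he.symm (lt_of_le_of_ne (not_lt.mp hlt) (Ne.symm hij))
  have h1 : ¬ IsUnit (charO ℓ χ (1 - t ^ (j - i))) := by
    intro h2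
    have hmem : charO ℓ χ (t ^ i) - charO ℓ χ (t ^ j) ∈ Ideal.span {(ℓ : order (ℓ := ℓ) χ)} :=
      Ideal.Quotient.eq.mp he
    rw [← map_sub, show t ^ i - t ^ j = t ^ i * (1 - t ^ (j - i)) by
      rw [mul_sub, mul_one, ← pow_add, Nat.add_sub_cancel' hlt.le], map_mul] at hmem
    have hprod : IsUnit (charO ℓ χ (t ^ i) * charO ℓ χ (1 - t ^ (j - i))) :=
      (by rw [map_pow]; exact hu.pow i : IsUnit (charO ℓ χ (t ^ i))).mul h2
    have hle : Ideal.span {(ℓ : order (ℓ := ℓ) χ)} ≤ IsLocalRing.maximalIdeal (order (ℓ := ℓ) χ) := by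
      rw [Ideal.span_singleton_le_iff_mem]
      exact natCast_mem_maximalIdeal χ
    exact (hle hmem) hprod
  have := h _ h1
  rw [map_sub, map_one, map_pow, ht, zero_pow (Nat.sub_pos_of_lt hlt).ne', sub_zero] at this
  exact one_ne_zero this

end Field

end Fermat.Agent.Mazur.Component
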