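import Fermat.Agent.Mazur.Component.Frame
import Fermat.Agent.GAL.SpecialRep
import Fermat.Agent.GAL.FromSpecialization

/-!
# Frobenius and determinant on a plane of the Tate module
-/

set_option autoImplicit false
set_option linter.style.haveILetI false

noncomputable section

open ModularCurve
open scoped TensorProduct Matrix

namespace Fermat.Agent.Mazur.Component

open GAL (HeckeT)
open Fermat.Agent.FlatTangent

variable {N : ℕ} [NeZero N] {ℓ : ℕ} [hℓ : Fact ℓ.Prime] (F : Frame N ℓ) (I : Ideal F.A)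
  [hI : I.IsMaximal]

attribute [local instance] Ideal.Quotient.field

theorem Frame.charZero_quotient : CharZero (F.A ⧸ I) :=
  charZero_of_injective_algebraMap (algebraMap ℚ_[ℓ] (F.A ⧸ I)).injective

theorem Frame.natCast_ne_zero : (ℓ : F.A ⧸ I) ≠ 0 :=
  haveI := F.charZero_quotient I
  Nat.cast_ne_zero.mpr hℓ.out.ne_zero

omit hI in
theorem Frame.pow_natCast_smul (n : ℕ) (x : F.Plane I) :
    (ℓ : F.A ⧸ I) ^ n • x = ((ℓ : ℤ_[ℓ]) ^ n) • x := by
  rw [← algebraMap_smul (F.A ⧸ I) ((ℓ : ℤ_[ℓ]) ^ n) x, map_pow, map_natCast]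

variable (hTQ : GAL.TorsionQuadratic N ℓ)

include hTQ in
theorem Frame.repP_frob (q : ℕ) (hq : q.Prime) (hqN : ¬ q ∣ N * ℓ) (A : ValuationSubring Qb)
    (hA : A.LiesOverPrime q) (σ : Gal) (hσ : A.IsFrobeniusAt σ q) (v : F.Plane I) :
    F.repP I σ (F.repP I σ v) -
      F.charI I (CuspForm.heckeEvalForms N 2 (heckeGen ⟨q, hq⟩)) • F.repP I σ v + q • v = 0 := by
  obtain ⟨n, hn⟩ := F.exists_pow_smul_mem_latP I v
  set w : F.latP I := ⟨_, hn⟩
  set c := F.charI I (CuspForm.heckeEvalForms N 2 (heckeGen ⟨q, hq⟩))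
  have h1 := F.repP_mem σ w.2
  have h2 := F.repP_mem σ h1
  have h3 := F.charI_smul_mem (CuspForm.heckeEvalForms N 2 (heckeGen ⟨q, hq⟩)) h1
  have key : (⟨_, h2⟩ : F.latP I) - ⟨_, h3⟩ + q • w = 0 := by
    refine F.coordP_injective I ?_
    rw [map_zero, map_add, map_sub, map_nsmul, F.coordP_repP σ ⟨_, h1⟩,
      F.coordP_hecke (heckeGen ⟨q, hq⟩) ⟨_, h1⟩, F.coordP_repP σ w]
    exact galMatT_quad hq (hTQ q hq hqN A hA σ hσ) _
  have key' := congrArg Subtype.val key
  simp only [Submodule.coe_add, Submodule.coe_sub, Submodule.coe_smul_of_tower,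
    ZeroMemClass.coe_zero] at key'
  refine (smul_eq_zero.mp (?_ : (ℓ : F.A ⧸ I) ^ n •
    (F.repP I σ (F.repP I σ v) - c • F.repP I σ v + q • v) = 0)).resolve_left
    (pow_ne_zero n (F.natCast_ne_zero I))
  rw [smul_add, smul_sub, ← map_smul, ← map_smul, smul_comm _ c, ← map_smul, smul_comm _ q]
  exact key'

theorem Frame.exists_latBasis :
    ∃ b : Module.Basis (Fin 2) (F.A ⧸ I) (F.Plane I), ∀ j, b j ∈ F.latP I := by
  have h2 : Module.finrank (F.A ⧸ I) (F.Plane I) = 2 := finrank_part F.dual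
  haveI : Module.Finite (F.A ⧸ I) (F.Plane I) :=
    Module.finite_of_finrank_pos (by rw [h2]; norm_num)
  let b₀ := Module.finBasisOfFinrankEq (F.A ⧸ I) (F.Plane I) h2
  choose n hn using fun j => F.exists_pow_smul_mem_latP I (b₀ j)
  refine ⟨b₀.isUnitSMul (w := fun j => (ℓ : F.A ⧸ I) ^ n j)
    (fun j => isUnit_iff_ne_zero.mpr (pow_ne_zero _ (F.natCast_ne_zero I))), fun j => ?_⟩
  rw [Module.Basis.isUnitSMul_apply]
  exact hn j

omit hI in
theorem Frame.exists_bound (b : Module.Basis (Fin 2) (F.A ⧸ I) (F.Plane I)) :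
    ∃ c : ℕ, ∀ v ∈ F.latP I, ∀ i,
      (ℓ : F.A ⧸ I) ^ c * b.repr v i ∈ order (ℓ := ℓ) (F.charI I) := by
  haveI : Module.Finite ℤ_[ℓ] (F.latP I) :=
    Module.Finite.of_injective (F.coordP I) (F.coordP_injective I)
  obtain ⟨s, hs⟩ := Module.Finite.iff_fg.mp (inferInstance : Module.Finite ℤ_[ℓ] (F.latP I))
  have hx : ∀ x : F.A ⧸ I, ∃ n : ℕ, (ℓ : F.A ⧸ I) ^ n * x ∈ order (ℓ := ℓ) (F.charI I) := fun x => by
    obtain ⟨a, rfl⟩ := Ideal.Quotient.mk_surjective x
    obtain ⟨n, z, hz⟩ := F.span a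
    refine ⟨n, z, ?_⟩
    show Algebra.TensorProduct.lift _ _ _ z = _
    rw [F.lift_charI]
    show Ideal.Quotient.mk I (F.intA z) = _
    rw [Frame.intA, ← hz, map_mul, map_pow, map_natCast]
  choose n hn using hx
  refine ⟨(s ×ˢ Finset.univ).sup fun x : F.Plane I × Fin 2 => n (b.repr x.1 x.2), fun v hv i => ?_⟩
  rw [← hs] at hv
  induction hv using Submodule.span_induction with
  | mem x hx =>
    have hle : n (b.repr x i) ≤ (s ×ˢ Finset.univ).sup fun x : F.Plane I × Fin 2 => n (b.repr x.1 x.2) :=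
      Finset.le_sup (f := fun x : F.Plane I × Fin 2 => n (b.repr x.1 x.2))
        (Finset.mem_product.mpr ⟨hx, Finset.mem_univ i⟩ : (x, i) ∈ s ×ˢ Finset.univ)
    rw [← Nat.sub_add_cancel hle, pow_add, mul_assoc]
    exact mul_mem (pow_mem (natCast_mem _ ℓ) _) (hn _)
  | zero => rw [map_zero, Finsupp.zero_apply, mul_zero]; exact zero_mem _
  | add x y _ _ h h' => rw [map_add, Finsupp.add_apply, mul_add]; exact add_mem h h'
  | smul c x _ h =>
    rw [← algebraMap_smul (F.A ⧸ I) c x, map_smul, Finsupp.smul_apply, smul_eq_mul, mul_left_comm]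
    exact mul_mem (Subalgebra.algebraMap_mem _ c) h

theorem Frame.not_scalar : ¬ ∃ a : F.A ⧸ I, ∀ x : F.Plane I, F.repP I F.conjElt x = a • x := by
  rintro ⟨a, ha⟩
  obtain ⟨x₀, hx₀⟩ := exists_part_apply (m := I) F.dual 0
  obtain ⟨x₁, hx₁⟩ := exists_part_apply (m := I) F.dual 1
  have hne : x₀ ≠ 0 := fun h => hx₀ (by rw [h]; exact map_zero _)
  have hsq : a * a = 1 := by
    have h1 : F.repP I F.conjElt (F.repP I F.conjElt x₀) = x₀ := Subtype.ext (F.conj_sq x₀)
    rw [ha, ha, smul_smul] at h1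
    by_contra hne2
    refine hne ((smul_eq_zero.mp (?_ : (a * a - 1) • x₀ = 0)).resolve_left (sub_ne_zero.mpr hne2))
    rw [sub_smul, h1, one_smul, sub_self]
  have hl : ∀ i (x : F.Plane I), F.l i (a • x : F.Plane I) =
      (if i = 0 then (-1 : ℚ_[ℓ]) else 1) * F.l i (x : F.V) := fun i x => by
    rw [← ha, F.coe_repP, F.conj_l]
  rcases mul_self_eq_one_iff.mp hsq with rfl | rfl
  · have h := hl 0 x₀
    rw [one_smul, if_pos rfl, neg_one_mul] at h
    exact hx₀ (self_eq_neg.mp h)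
  · have h := hl 1 x₁
    rw [neg_one_smul, Submodule.coe_neg, map_neg, if_neg one_ne_zero, one_mul] at h
    exact hx₁ (neg_eq_self.mp h)

include hTQ in
theorem Frame.det_repP (g : Gal) :
    LinearMap.det (F.repP I g) = algebraMap ℤ_[ℓ] (F.A ⧸ I) (GAL.cycQ ℓ g) := by
  classical
  haveI := F.charZero_quotient I
  obtain ⟨b, hb⟩ := F.exists_latBasis I
  obtain ⟨c, hc⟩ := F.exists_bound I b
  let O := order (ℓ := ℓ) (F.charI I)
  let ρ : Gal →* Matrix (Fin 2) (Fin 2) (F.A ⧸ I) :=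
    (LinearMap.toMatrixAlgEquiv b).toMonoidHom.comp (F.repP I)
  have hρ : ∀ g i j, ρ g i j = b.repr (F.repP I g (b j)) i := fun g i j =>
    LinearMap.toMatrixAlgEquiv_apply b _ i j
  have hbdd : ∀ g, GAL.Bdd O (ℓ : O) c (ρ g) := fun g i j =>
    ⟨⟨_, hc _ (F.repP_mem g (hb j)) i⟩, by
      show algebraMap O (F.A ⧸ I) ((ℓ : O) ^ c) * ρ g i j = _
      rw [hρ, map_pow, map_natCast]; rfl⟩
  have hcont : ∀ n, ∃ L : IntermediateField ℚ Qb, FiniteDimensional ℚ L ∧
      ∀ σ : Gal, (∀ x ∈ L, σ x = x) → GAL.Near O (ℓ : O) n (ρ σ - 1) := by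
    intro n
    obtain ⟨L, hL, h⟩ := exists_level N ℓ (n + c)
    refine ⟨L, hL, fun σ hσ i j => ?_⟩
    obtain ⟨u, hu⟩ := h σ hσ (F.coordP I ⟨b j, hb j⟩)
    rw [← F.coordP_repP, ← map_sub] at hu
    obtain ⟨v', hv'⟩ := F.exists_eq_pow_smul_latP I (n + c) _ u hu
    refine ⟨⟨_, hc _ v'.2 i⟩, ?_⟩
    have h1 := congrArg (fun v : F.latP I => b.repr (v : F.Plane I) i) hv'
    simp only [Submodule.coe_sub, Submodule.coe_smul, map_sub, Finsupp.sub_apply] at h1
    rw [← F.pow_natCast_smul I, map_smul, Finsupp.smul_apply, smul_eq_mul, b.repr_self,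
      Finsupp.single_apply] at h1
    rw [Matrix.sub_apply, hρ, Matrix.one_apply,
      show (if i = j then (1 : F.A ⧸ I) else 0) = if j = i then 1 else 0 by simp [eq_comm], h1,
      map_mul, map_pow, map_natCast, pow_add, mul_assoc]
    rfl
  have hquad : ∀ g, GAL.QuadRel (ρ g) (GAL.detChar (algebraMap ℤ_[ℓ] O) (F.A ⧸ I) g) :=
    GAL.quadRel_of_frobenius ρ (algebraMap ℤ_[ℓ] O) (separated_order (F.charI I)) hbdd hcont
      (N * ℓ).primeFactors
      (Nat.mem_primeFactors.mpr ⟨hℓ.out, Dvd.intro_left N rfl, mul_ne_zero (NeZero.ne N) hℓ.out.ne_zero⟩)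
      fun q hq hqS A hA σ hσ => ⟨⟨_, mem_order _ (CuspForm.heckeEvalForms N 2 (heckeGen ⟨q, hq⟩))⟩, by
        have hqN : ¬ q ∣ N * ℓ := fun h =>
          hqS (Nat.mem_primeFactors.mpr ⟨hq, h, mul_ne_zero (NeZero.ne N) hℓ.out.ne_zero⟩)
        have h := congrArg (LinearMap.toMatrixAlgEquiv b) (LinearMap.ext (f :=
          F.repP I σ * F.repP I σ -
            F.charI I (CuspForm.heckeEvalForms N 2 (heckeGen ⟨q, hq⟩)) • F.repP I σ +
            (q : F.A ⧸ I) • (1 : Module.End (F.A ⧸ I) (F.Plane I))) (g := 0)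
          fun v => by
            rw [LinearMap.add_apply, LinearMap.sub_apply, LinearMap.smul_apply, LinearMap.smul_apply,
              Module.End.one_apply, LinearMap.zero_apply, Module.End.mul_apply, Nat.cast_smul_eq_nsmul]
            exact F.repP_frob I hTQ q hq hqN A hA σ hσ v)
        rw [map_add, map_sub, map_mul, map_smul, map_smul, map_one, map_zero] at h
        exact h⟩
  have hns : ∀ P : Ideal (F.A ⧸ I), P.IsMaximal → ∃ g, ¬ GAL.ScalarMod P (ρ g) := by
    intro P hP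
    refine ⟨F.conjElt, fun ⟨h01, h10, h00⟩ => F.not_scalar I ?_⟩
    have hbot : P = ⊥ := (Ideal.eq_bot_or_top P).resolve_right hP.ne_top
    rw [hbot, Ideal.mem_bot] at h01 h10 h00
    refine ⟨ρ F.conjElt 0 0, fun x => LinearMap.congr_fun
      (b.ext (f₁ := F.repP I F.conjElt) (f₂ := ρ F.conjElt 0 0 • LinearMap.id) fun j => ?_) x⟩
    refine b.ext_elem fun i => ?_
    rw [← hρ, LinearMap.smul_apply, LinearMap.id_apply, map_smul, b.repr_self, Finsupp.smul_apply,
      Finsupp.single_apply, smul_eq_mul]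
    rw [sub_eq_zero] at h00
    fin_cases i <;> fin_cases j <;> simp [h01, h10, h00]
  have h := GAL.det_eq_of_quadRel ρ _ hquad hns g
  rw [← LinearMap.det_toMatrix b]
  exact h.trans rfl

end Fermat.Agent.Mazur.Component
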