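import Fermat.Agent.Mazur.Component.ConnMoved
import Fermat.Agent.Mazur.RedInj.ConnKer
import Fermat.Agent.Mazur.Odd.OfComponent

/-!
# The kernel of reduction on residually Eisenstein torsion

For a finite Galois-stable group of points of `J₀(p)` whose simple pieces at an odd prime `ℓ ≠ p`
are trivial or cyclotomic, the kernel of reduction at the place over `ℓ` is what inertia moves, and
it meets the fixed points of complex conjugation in a bounded way.
-/

set_option autoImplicit false
set_option linter.style.haveILetI false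

noncomputable section

open ModularCurve

namespace Fermat.Agent.Mazur

open Fermat.Agent.FlatTangent ExtCitation Component

variable {p : Nat.Primes} [NeZero (p : ℕ)] {ℓ : ℕ} [hℓ : Fact ℓ.Prime]

/-- **The two facts about the kernel of reduction.** -/
theorem redConnFacts (hl2 : ℓ ≠ 2) (hlp : ℓ ≠ p) : RedConnFacts p ℓ := by
  intro N hN hfin hE
  set ρN := Descent.subRep (jRep (p : ℕ)) N hN
  obtain ⟨B, hB, hker⟩ := RedInj.exists_model_connPart hℓ.out (not_dvd_level hℓ.out hlp)
    (plc_liesOverPrime ℓ) N hN
  have hB' : FFG.OrderL.IsModelAt ℓ (fun σ m => ρN σ m) B := hB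
  have hmap : (moved ρN ((plc ℓ).inertiaSubgroupIn ℚ) ⊤).map N.subtype = iClos ℓ N := by
    rw [map_moved (ρ' := jRep (p : ℕ)) _ _ N.subtype (fun _ _ => rfl),
      ← AddMonoidHom.range_eq_map, AddSubgroup.range_subtype]
    rfl
  have hconn := connPart_eq_moved (plc_liesOverPrime ℓ) hl2 hB' hE
  refine ⟨fun x hx hxr => ?_, ?_⟩
  · rw [← hmap, ← hconn]
    exact ⟨⟨x, hx⟩, (FFG.OrderL.mem_connPart_iff _ hB').2 ((hker ⟨x, hx⟩).2 hxr), rfl⟩
  · have h := card_connPart_mul_fixOne_le (plc_liesOverPrime ℓ) hl2 hB' hE
      (c₀ := complexConjugation) (Descent.cycloChar_complexConjugation ℓ)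
    have hfix : (Descent.fixOne ρN complexConjugation).map N.subtype =
        N ⊓ Descent.fixOne (jRep (p : ℕ)) complexConjugation := by
      ext x
      constructor
      · rintro ⟨y, hy, rfl⟩
        exact ⟨y.2, congrArg Subtype.val hy⟩
      · rintro ⟨hx, hfx⟩
        exact ⟨⟨x, hx⟩, Subtype.ext hfx, rfl⟩
    rw [hconn] at h
    rwa [← hmap, ← hfix, AddSubgroup.card_map_of_injective N.subtype_injective,
      AddSubgroup.card_map_of_injective N.subtype_injective]

end Fermat.Agent.Mazur
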