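import Fermat.Agent.Newforms.BadPrimes
import Fermat.Agent.Petersson.CuspForm
import Fermat.Agent.EIS.Modular
import Fermat.Prelude.Def_CuspForm_HeckeAlgebra

/-!
# The Hecke algebra of prime level is reduced

At prime level `U_p` is minus the Atkin-Lehner involution, so the algebra is generated over its
self-adjoint part by an involution.
-/

set_option autoImplicit false

noncomputable section

open CongruenceSubgroup

namespace Fermat.Agent.Mazur

open Fermat.Agent.Newforms Fermat.Agent.Petersson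

/-- There is no cusp form of weight two and level one. -/
theorem cuspForm_levelOne_eq_zero (f : S2 1) : f = 0 := by
  refine DFunLike.coe_injective ((EIS.levelOne_weight_two_eq_zero (f := ⇑f) ?_ ?_ ?_).trans
    (FunLike.coe_zero).symm)
  · intro γ
    exact slash_eq_self f (by rw [Gamma0_mem]; exact Subsingleton.elim _ _)
  · exact f.holo'
  · exact UpperHalfPlane.IsZeroAtImInfty.isBoundedAtImInfty
      (CuspFormClass.zero_at_infty f)

variable (p : ℕ) [hp : Fact p.Prime]

/-- `U_p` is an involution of the cusp forms of level `p`. -/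
theorem heckeULin_heckeULin (f : S2 p) :
    CuspForm.heckeULin 2 (dvd_refl p) (CuspForm.heckeULin 2 (dvd_refl p) f) = f := by
  have hN : 1 * p = p := one_mul p
  have h1 : ¬ p ∣ 1 := hp.out.not_dvd_one
  have hU : ∀ g : S2 p,
      CuspForm.heckeULin 2 (dvd_refl p) g = -atkinLehner hN hp.out h1 g := fun g =>
    heckeULin_eq_neg_of_mem_newSpaceAt hN hp.out h1
      ((mem_newSpaceAt hN hp.out h1).mpr
        ⟨cuspForm_levelOne_eq_zero _, cuspForm_levelOne_eq_zero _⟩)
  rw [hU, hU, map_neg, neg_neg, atkinLehner_atkinLehner]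

/-- Elements of the full algebra decompose along `U_p`. -/
theorem exists_add_mul_U (t : ↥(CuspForm.heckeAlgebra p 2 (∅ : Set ℕ))) :
    ∃ a ∈ CuspForm.heckeAlgebra p 2 ({p} : Set ℕ), ∃ b ∈ CuspForm.heckeAlgebra p 2 ({p} : Set ℕ),
      (t : Module.End ℂ (S2 p)) = a + b * CuspForm.heckeULin 2 (dvd_refl p) := by
  set A := CuspForm.heckeAlgebra p 2 ({p} : Set ℕ)
  set U : Module.End ℂ (S2 p) := CuspForm.heckeULin 2 (dvd_refl p)
  have hUU : U * U = 1 := LinearMap.ext fun f => heckeULin_heckeULin p f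
  have hcomm : ∀ a ∈ A, U * a = a * U := fun a ha => by
    have hU : U ∈ CuspForm.heckeAlgebra p 2 (∅ : Set ℕ) :=
      CuspForm.heckeULin_mem_heckeAlgebra hp.out (dvd_refl p) (Set.notMem_empty p)
    have ha' : a ∈ CuspForm.heckeAlgebra p 2 (∅ : Set ℕ) :=
      CuspForm.heckeAlgebra_mono (Set.empty_subset _) ha
    exact congrArg Subtype.val (IsMulCommutative.is_comm.comm
      (⟨U, hU⟩ : ↥(CuspForm.heckeAlgebra p 2 (∅ : Set ℕ))) ⟨a, ha'⟩)
  obtain ⟨t, ht⟩ := t
  induction ht using Algebra.adjoin_induction with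
  | mem t ht =>
    rcases ht with ⟨l, hl, hlN, hlS, rfl⟩ | ⟨q, hqN, hq, hqS, rfl⟩
    · refine ⟨_, CuspForm.heckeTLin_mem_heckeAlgebra hl hlN ?_, 0, A.zero_mem, by simp⟩
      simp only [Set.mem_singleton_iff]
      rintro rfl
      exact hlN dvd_rfl
    · obtain rfl : q = p := (Nat.prime_dvd_prime_iff_eq hq hp.out).mp hqN
      exact ⟨0, A.zero_mem, 1, A.one_mem, by simp [U]⟩
  | algebraMap n => exact ⟨_, A.algebraMap_mem n, 0, A.zero_mem, by simp⟩
  | add x y _ _ hx hy =>
    obtain ⟨a, ha, b, hb, hx⟩ := hx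
    obtain ⟨c, hc, d, hd, hy⟩ := hy
    refine ⟨a + c, A.add_mem ha hc, b + d, A.add_mem hb hd, ?_⟩
    simp only at hx hy ⊢
    rw [hx, hy, add_mul]; abel
  | mul x y _ _ hx hy =>
    obtain ⟨a, ha, b, hb, hx⟩ := hx
    obtain ⟨c, hc, d, hd, hy⟩ := hy
    refine ⟨a * c + b * d, A.add_mem (A.mul_mem ha hc) (A.mul_mem hb hd), a * d + b * c,
      A.add_mem (A.mul_mem ha hd) (A.mul_mem hb hc), ?_⟩
    simp only at hx hy ⊢
    have e1 : b * U * c = b * c * U := by rw [mul_assoc, hcomm c hc, ← mul_assoc]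
    have e2 : b * U * (d * U) = b * d := by
      rw [← mul_assoc, mul_assoc b U d, hcomm d hd, ← mul_assoc, mul_assoc _ U U, hUU, mul_one]
    rw [hx, hy, add_mul, mul_add, mul_add, add_mul, e1, e2, mul_assoc a d U]
    abel

/-- The full Hecke algebra of weight two and prime level is reduced. -/
theorem isReduced_heckeAlgebra_prime :
    IsReduced ↥(CuspForm.heckeAlgebra p 2 (∅ : Set ℕ)) := by
  rw [isReduced_iff_pow_one_lt 2 one_lt_two]
  intro t ht
  obtain ⟨a, ha, b, hb, he⟩ := exists_add_mul_U p t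
  set A := CuspForm.heckeAlgebra p 2 ({p} : Set ℕ)
  set U : Module.End ℂ (S2 p) := CuspForm.heckeULin 2 (dvd_refl p)
  set T : Module.End ℂ (S2 p) := (t : Module.End ℂ (S2 p)) with hTdef
  have hS : ∀ q : ℕ, q.Prime → q ∣ p → q ∈ ({p} : Set ℕ) := fun q hq hqp =>
    (Nat.prime_dvd_prime_iff_eq hq hp.out).mp hqp
  have hT2 : ∀ f, T (T f) = 0 := fun f => by
    have h := congrArg Subtype.val ht
    rw [SubmonoidClass.coe_pow, sq] at h
    exact LinearMap.congr_fun h f
  have hUU : ∀ f, U (U f) = f := heckeULin_heckeULin p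
  have hTU : ∀ f, T (U f) = U (T f) := fun f =>
    LinearMap.congr_fun (congrArg Subtype.val (IsMulCommutative.is_comm.comm t
      ⟨U, CuspForm.heckeULin_mem_heckeAlgebra hp.out (dvd_refl p) (Set.notMem_empty p)⟩)) f
  have key : ∀ (s : ℂ) (f : S2 p), U f = s • f → T f = 0 := by
    intro s f hf
    have hmem : ∀ g, U g = s • g → T g = (a + s • b) g := fun g hg => by
      rw [he, LinearMap.add_apply, Module.End.mul_apply, hg, map_smul]
      rfl
    have hss : (s * s) • f = f := by
      conv_rhs => rw [← hUU f, hf, map_smul, hf, smul_smul]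
    by_cases h0 : f = 0
    · rw [h0, map_zero]
    have hs2 : s * s = 1 := by
      by_contra hne
      refine h0 ((smul_eq_zero.mp (?_ : (s * s - 1) • f = 0)).resolve_left (sub_ne_zero.mpr hne))
      rw [sub_smul, hss, one_smul, sub_self]
    have hs : s = 1 ∨ s = -1 := mul_self_eq_one_iff.mp hs2
    have hsym : IsPetSymm (a + s • b) := by
      rcases hs with rfl | rfl
      · rw [one_smul]; exact isPetSymm_of_mem_heckeAlgebra hS (A.add_mem ha hb)
      · rw [neg_smul, one_smul, ← sub_eq_add_neg]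
        exact isPetSymm_of_mem_heckeAlgebra hS (A.sub_mem ha hb)
    have hTf : U (T f) = s • T f := by rw [← hTU, hf, map_smul]
    have h2 : (a + s • b) ((a + s • b) f) = 0 := by rw [← hmem f hf, ← hmem _ hTf, hT2]
    have h := hsym f ((a + s • b) f)
    rw [h2, FunLike.coe_zero, pet_zero_right (isNice_cuspForm f)] at h
    rw [hmem f hf]
    exact (pet_self_eq_zero_iff _).mp h
  refine Subtype.ext (LinearMap.ext fun f => ?_)
  show T f = 0
  have h1 := key 1 (f + U f) (by rw [map_add, hUU, one_smul, add_comm])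
  have h2 := key (-1) (f - U f) (by rw [map_sub, hUU, neg_smul, one_smul, neg_sub])
  rw [map_add] at h1
  rw [map_sub] at h2
  have h3 : (2 : ℂ) • T f = 0 := by rw [two_smul]; linear_combination (norm := module) h1 + h2
  exact (smul_eq_zero.mp h3).resolve_left two_ne_zero

end Fermat.Agent.Mazur
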