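import Fermat.Agent.Mazur.Descent.OrdinaryDom

/-!
# Homomorphisms of inertia at `q` into `ℓ`-power torsion groups

For a prime `q ≠ ℓ` they factor through the Kummer character of `q`, so Frobenius conjugation
multiplies them by `q`.
-/

set_option autoImplicit false

noncomputable section

namespace Fermat.Agent.Mazur.Component

open Fermat.Agent.FlatTangent
open Descent (exists_chVal_ne_one apply_eq_zpow_mul)
open Two (chVal chVal_add chVal_nsmul exists_inert_root)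

variable {q : ℕ} [hq : Fact q.Prime] {ℓ : ℕ} [hℓ : Fact ℓ.Prime]

/-- A unit with a power fixed by inertia, of exponent prime to `q`, is fixed by inertia. -/
theorem inU_of_pow {u : Qb} {N : ℕ} (hN : ¬ q ∣ N) (hv : VEQ q 0 u) (hU : InU q (u ^ N)) :
    InU q u := by
  intro σ hσ
  have hpow : (σ u / u) ^ N = 1 := by
    rw [div_pow, ← map_pow, hU σ hσ, div_self (pow_ne_zero _ hv.ne_zero)]
  have h1 : VGT q 0 (σ u / u - 1) := by
    rw [div_sub_one hv.ne_zero]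
    simpa using (inert_sub hσ hv.vge).div hv
  exact (div_eq_one_iff_eq hv.ne_zero).mp (eq_one_of_vgt hN hpow h1)

variable (q ℓ) in
/-- A primitive root of unity and a root of `q` of order `ℓ^r`. -/
structure KummerDatum (r : ℕ) where
  ζ : Qb
  prim : IsPrimitiveRoot ζ (ℓ ^ r)
  t : Qb
  root : t ^ ℓ ^ r = (q : Qb)

theorem exists_kummerDatum (r : ℕ) : Nonempty (KummerDatum q ℓ r) := by
  haveI : NeZero (ℓ ^ r) := ⟨pow_ne_zero r hℓ.out.ne_zero⟩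
  obtain ⟨ζ, hζ⟩ := HasEnoughRootsOfUnity.exists_primitiveRoot Qb (ℓ ^ r)
  obtain ⟨t, ht⟩ := IsAlgClosed.exists_pow_nat_eq (q : Qb) (pow_pos hℓ.out.pos r)
  exact ⟨⟨ζ, hζ, t, ht⟩⟩

namespace KummerDatum

variable {r : ℕ} (K : KummerDatum q ℓ r)

theorem t_ne_zero : K.t ≠ 0 := fun h0 => Nat.cast_ne_zero.mpr hq.out.ne_zero
  (by rw [← K.root, h0, zero_pow (pow_ne_zero r hℓ.out.ne_zero)])

theorem veq_t : VEQ q (1 / (ℓ ^ r : ℕ)) K.t := by
  refine VEQ.of_pow (pow_ne_zero r hℓ.out.ne_zero) ?_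
  rw [K.root, mul_one_div_cancel (Nat.cast_ne_zero.mpr (pow_ne_zero r hℓ.out.ne_zero))]
  exact veq_cast_self

theorem zeta_fix (hne : q ≠ ℓ) {σ : Gal} (hσ : σ ∈ inert q) : σ K.ζ = K.ζ :=
  inU_of_pow_eq_one (fun hd => hne ((Nat.prime_dvd_prime_iff_eq hq.out hℓ.out).mp
    (hq.out.dvd_of_dvd_pow hd))) K.prim.pow_eq_one σ hσ

theorem exists_kappa (σ : Gal) : ∃ k : ℕ, σ K.t = K.ζ ^ k * K.t := by
  haveI : NeZero (ℓ ^ r) := ⟨pow_ne_zero r hℓ.out.ne_zero⟩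
  have h1 : (σ K.t / K.t) ^ ℓ ^ r = 1 := by
    rw [div_pow, ← map_pow, K.root, map_natCast, div_self (Nat.cast_ne_zero.mpr hq.out.ne_zero)]
  obtain ⟨k, -, hk⟩ := K.prim.eq_pow_of_pow_eq_one h1
  exact ⟨k, by rw [hk, div_mul_cancel₀ _ K.t_ne_zero]⟩

/-- The Kummer character of `q`. -/
def kappa (σ : Gal) : ℕ := (K.exists_kappa σ).choose

theorem kappa_spec (σ : Gal) : σ K.t = K.ζ ^ K.kappa σ * K.t := (K.exists_kappa σ).choose_spec

theorem kappa_cast_eq {σ : Gal} {k : ℕ} (h : σ K.t = K.ζ ^ k * K.t) :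
    (K.kappa σ : ZMod (ℓ ^ r)) = k := by
  haveI : NeZero (ℓ ^ r) := ⟨pow_ne_zero r hℓ.out.ne_zero⟩
  rw [ZMod.natCast_eq_natCast_iff]
  have h1 : K.ζ ^ K.kappa σ = K.ζ ^ k :=
    mul_right_cancel₀ K.t_ne_zero ((K.kappa_spec σ).symm.trans h)
  rw [K.prim.eq_orderOf]
  exact (K.prim.isOfFinOrder (NeZero.ne _)).pow_eq_pow_iff_modEq.mp h1

theorem kappa_mul (hne : q ≠ ℓ) {σ : Gal} (hσ : σ ∈ inert q) (τ : Gal) :
    (K.kappa (σ * τ) : ZMod (ℓ ^ r)) = K.kappa σ + K.kappa τ := by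
  rw [← Nat.cast_add]
  refine K.kappa_cast_eq ?_
  rw [AlgEquiv.mul_apply, K.kappa_spec τ, map_mul, map_pow, K.zeta_fix hne hσ, K.kappa_spec σ,
    pow_add]
  ring

theorem kappa_pow (hne : q ≠ ℓ) {σ : Gal} (hσ : σ ∈ inert q) (j : ℕ) :
    (K.kappa (σ ^ j) : ZMod (ℓ ^ r)) = (j : ZMod (ℓ ^ r)) * K.kappa σ := by
  induction j with
  | zero =>
    rw [Nat.cast_zero, zero_mul, pow_zero, ← Nat.cast_zero]
    exact K.kappa_cast_eq (by rw [pow_zero, one_mul]; rfl)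
  | succ j ih =>
    rw [pow_succ, K.kappa_mul hne (pow_mem hσ j), ih, Nat.cast_succ, add_mul, one_mul]

/-- Some element of inertia has Kummer character one. -/
theorem exists_kappa_eq_one (hne : q ≠ ℓ) :
    ∃ σ ∈ inert q, (K.kappa σ : ZMod (ℓ ^ r)) = 1 := by
  rcases Nat.eq_zero_or_pos r with hr | hr
  · exact ⟨1, one_mem _, by subst hr; rw [pow_zero]; exact Subsingleton.elim _ _⟩
  obtain ⟨r', rfl⟩ := Nat.exists_eq_add_of_le' hr
  have hex : ∃ σ ∈ inert q, ¬ ℓ ∣ K.kappa σ := by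
    by_contra hall
    push Not at hall
    have hU : InU q (K.t ^ ℓ ^ r') := fun σ hσ => by
      obtain ⟨j, hj⟩ := hall σ hσ
      rw [map_pow, K.kappa_spec, mul_pow, ← pow_mul, hj,
        show ℓ * j * ℓ ^ r' = ℓ ^ (r' + 1) * j by ring, pow_mul, K.prim.pow_eq_one, one_pow, one_mul]
    obtain ⟨m, hm⟩ := hU.exists_int (pow_ne_zero _ K.t_ne_zero)
    have h1 := hm.unique (K.veq_t.pow (ℓ ^ r'))
    have hℓ0 : (ℓ : ℝ) ≠ 0 := Nat.cast_ne_zero.mpr hℓ.out.ne_zero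
    have h2 : (m : ℝ) * ℓ = 1 := by
      rw [h1]; push_cast [pow_succ]; field_simp
    have h3 : m * (ℓ : ℤ) = 1 := by exact_mod_cast h2
    rcases Int.eq_one_or_neg_one_of_mul_eq_one' h3 with ⟨-, h4⟩ | ⟨-, h4⟩
    · exact hℓ.out.ne_one (by exact_mod_cast h4)
    · omega
  obtain ⟨σ, hσ, hk⟩ := hex
  haveI : NeZero (ℓ ^ (r' + 1)) := ⟨pow_ne_zero _ hℓ.out.ne_zero⟩
  have hcop : Nat.Coprime (K.kappa σ) (ℓ ^ (r' + 1)) :=
    Nat.Coprime.pow_right _ (Nat.coprime_comm.mp (hℓ.out.coprime_iff_not_dvd.mpr hk))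
  refine ⟨σ ^ ((K.kappa σ : ZMod (ℓ ^ (r' + 1)))⁻¹).val, pow_mem hσ _, ?_⟩
  rw [K.kappa_pow hne hσ, ZMod.natCast_zmod_val, mul_comm, ZMod.mul_inv_of_unit]
  exact (ZMod.isUnit_iff_coprime _ _).mpr hcop

/-- Frobenius conjugation multiplies the Kummer character by `q`. -/
theorem kappa_conj (hne : q ≠ ℓ) {F : Gal} (hF : (plc q).IsFrobeniusAt F q) {σ : Gal}
    (hσ : σ ∈ inert q) :
    (K.kappa (F * σ * F⁻¹) : ZMod (ℓ ^ r)) = (q : ZMod (ℓ ^ r)) * K.kappa σ := by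
  haveI : NeZero (ℓ ^ r) := ⟨pow_ne_zero r hℓ.out.ne_zero⟩
  rw [← Nat.cast_mul]
  refine K.kappa_cast_eq ?_
  obtain ⟨j, hj⟩ := K.exists_kappa F⁻¹
  have hFζ : F K.ζ = K.ζ ^ q := frob_apply_of_pow_eq_one hF
    (fun hd => hne ((Nat.prime_dvd_prime_iff_eq hq.out hℓ.out).mp (hq.out.dvd_of_dvd_pow hd)))
    K.prim.pow_eq_one
  rw [AlgEquiv.mul_apply, AlgEquiv.mul_apply, hj, map_mul σ, map_pow σ, K.zeta_fix hne hσ,
    K.kappa_spec σ, show K.ζ ^ j * (K.ζ ^ K.kappa σ * K.t) = K.ζ ^ K.kappa σ * (K.ζ ^ j * K.t) by ring,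
    ← hj, map_mul, Galois.galQ_apply_inv, map_pow, hFζ, ← pow_mul]

variable {M : Type} [AddCommGroup M]

/-- A homomorphism of inertia is a multiple of the Kummer character. -/
theorem eq_kappa_nsmul (hne : q ≠ ℓ) (hM : ∀ m : M, ℓ ^ r • m = 0) {h : Gal → M}
    (hadd : ∀ σ ∈ inert q, ∀ τ ∈ inert q, h (σ * τ) = h σ + h τ)
    (L : IntermediateField ℚ Qb) [FiniteDimensional ℚ L]
    (hlev : ∀ σ ∈ inert q, σ ∈ L.fixingSubgroup → h σ = 0) {σ₁ : Gal} (hσ₁ : σ₁ ∈ inert q)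
    (hκ₁ : (K.kappa σ₁ : ZMod (ℓ ^ r)) = 1) {σ : Gal} (hσ : σ ∈ inert q) :
    h σ = K.kappa σ • h σ₁ := by
  haveI : NeZero (ℓ ^ r) := ⟨pow_ne_zero r hℓ.out.ne_zero⟩
  have hndvd : ¬ q ∣ ℓ ^ r := fun hd =>
    hne ((Nat.prime_dvd_prime_iff_eq hq.out hℓ.out).mp (hq.out.dvd_of_dvd_pow hd))
  by_contra hne'
  obtain ⟨φ, hφ⟩ := exists_chVal_ne_one (pow_pos hℓ.out.pos r) (hM (h σ - K.kappa σ • h σ₁))
    (sub_ne_zero.mpr hne')
  have hpow : ∀ x : M, chVal φ x ^ ℓ ^ r = 1 := fun x => by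
    rw [← chVal_nsmul, hM, Two.chVal_zero]
  have hfix : ∀ x : M, ∀ τ ∈ inert q, τ (chVal φ x) = chVal φ x := fun x τ hτ =>
    inU_of_pow_eq_one hndvd (hpow x) τ hτ
  have hne0 : ∀ x : M, chVal φ x ≠ 0 := fun x h0 => by
    have := hpow x
    rw [h0, zero_pow (pow_ne_zero r hℓ.out.ne_zero)] at this
    exact zero_ne_one this
  obtain ⟨z, hz0, hz⟩ := exists_inert_root (fun τ => chVal φ (h τ)) (fun τ _ => hne0 _)
    (fun a ha b hb => by
      show chVal φ (h (a * b)) = a (chVal φ (h b)) * chVal φ (h a)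
      rw [hadd a ha b hb, chVal_add, hfix _ a ha, mul_comm]) L
    (fun g hg s hs hsL => by
      show chVal φ (h (g * s)) = chVal φ (h g)
      rw [hadd g hg s hs, hlev s hs hsL, add_zero])
  have hUz : InU q (z ^ ℓ ^ r) := fun τ hτ => by
    rw [map_pow, hz τ hτ, mul_pow, hpow, one_mul]
  obtain ⟨m, hm⟩ := hUz.exists_int (pow_ne_zero _ hz0)
  -- `z = t ^ m * u` with `u` fixed by inertia
  have hu : InU q (z / K.t ^ m) := by
    refine inU_of_pow hndvd ?_ ?_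
    · refine VEQ.of_pow (pow_ne_zero r hℓ.out.ne_zero) ?_
      rw [mul_zero, div_pow, ← zpow_natCast (K.t ^ m), zpow_comm, zpow_natCast, K.root]
      have := hm.div ((veq_cast_self (p := q)).zpow m)
      rwa [mul_one, sub_self] at this
    · rw [div_pow, ← zpow_natCast (K.t ^ m), zpow_comm, zpow_natCast, K.root]
      exact hUz.div ((inU_natCast q).zpow m)
  have hval : ∀ τ ∈ inert q, chVal φ (h τ) = (K.ζ ^ K.kappa τ) ^ m := by
    intro τ hτ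
    have h1 := hu τ hτ
    rw [map_div₀, hz τ hτ, map_zpow₀, K.kappa_spec, mul_zpow,
      div_eq_div_iff (mul_ne_zero (zpow_ne_zero _ (pow_ne_zero _ (K.prim.ne_zero (NeZero.ne _))))
        (zpow_ne_zero _ K.t_ne_zero)) (zpow_ne_zero _ K.t_ne_zero)] at h1
    refine mul_right_cancel₀ (mul_ne_zero hz0 (zpow_ne_zero m K.t_ne_zero)) ?_
    linear_combination h1
  have h1ζ : K.ζ ^ K.kappa σ₁ = K.ζ := by
    conv_rhs => rw [← pow_one K.ζ]
    rw [(K.prim.isOfFinOrder (NeZero.ne _)).pow_eq_pow_iff_modEq, ← K.prim.eq_orderOf]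
    exact (ZMod.natCast_eq_natCast_iff _ _ _).mp (by rw [hκ₁, Nat.cast_one])
  refine hφ ?_
  rw [Two.chVal_sub, chVal_nsmul, hval σ hσ, hval σ₁ hσ₁, h1ζ, ← zpow_natCast (K.ζ ^ m),
    zpow_comm, zpow_natCast, div_self]
  exact zpow_ne_zero _ (pow_ne_zero _ (K.prim.ne_zero (NeZero.ne _)))

/-- Frobenius conjugation multiplies a homomorphism of inertia by `q`. -/
theorem apply_conj_eq (hne : q ≠ ℓ) (hM : ∀ m : M, ℓ ^ r • m = 0) {h : Gal → M}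
    (hadd : ∀ σ ∈ inert q, ∀ τ ∈ inert q, h (σ * τ) = h σ + h τ)
    (L : IntermediateField ℚ Qb) [FiniteDimensional ℚ L]
    (hlev : ∀ σ ∈ inert q, σ ∈ L.fixingSubgroup → h σ = 0)
    {F : Gal} (hF : (plc q).IsFrobeniusAt F q) {σ : Gal} (hσ : σ ∈ inert q) :
    h (F * σ * F⁻¹) = q • h σ := by
  obtain ⟨K⟩ := exists_kummerDatum (q := q) (ℓ := ℓ) r
  obtain ⟨σ₁, hσ₁, hκ₁⟩ := K.exists_kappa_eq_one hne
  have hconj : F * σ * F⁻¹ ∈ inert q :=
    Galois.inertia_normal_in_decomposition hσ hF.mem_decompositionSubgroup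
  rw [K.eq_kappa_nsmul hne hM hadd L hlev hσ₁ hκ₁ hconj,
    K.eq_kappa_nsmul hne hM hadd L hlev hσ₁ hκ₁ hσ, ← mul_nsmul' (h σ₁) q (K.kappa σ)]
  rw [nsmul_eq_nsmul_iff_modEq]
  refine Nat.ModEq.of_dvd (addOrderOf_dvd_iff_nsmul_eq_zero.mpr (hM _)) ?_
  rw [← ZMod.natCast_eq_natCast_iff, Nat.cast_mul]
  exact K.kappa_conj hne hF hσ

end KummerDatum

end Fermat.Agent.Mazur.Component
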